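import Fermat.Agent.S20.Defs
import Fermat.Agent.S21.Defs

/-!
# Arithmetic of the orbit counts on `SL(2, ℤ) ⧸ Γ₀(N)`

Index of `Γ₀(N)`, orbit counts of `S` and `S * T`.
Auxiliary lemmas live in `Fermat.Agent.S20.AR`.
-/

set_option autoImplicit false
open CongruenceSubgroup Matrix ModularGroup
open scoped MatrixGroups

namespace Fermat.Agent.S20.AR
open Fermat.Agent.S21

open MulAction in
/-- Burnside for a cyclic group generated by an element of finite order. -/
theorem burnside_zpowers {G X : Type*} [Group G] [MulAction G X] [Finite X] (g : G) {n : ℕ}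
    (hn : orderOf g = n) (hn0 : 0 < n) :
    ∑ k ∈ Finset.range n, Nat.card (fixedBy X (g ^ k)) =
      Nat.card (orbitRel.Quotient (Subgroup.zpowers g) X) * n := by
  classical
  have hfin : IsOfFinOrder g := orderOf_pos_iff.mp (hn ▸ hn0)
  have : Fintype X := Fintype.ofFinite X
  have : Fintype (Subgroup.zpowers g) := Fintype.ofEquiv _ (finEquivZPowers hfin)
  have : Fintype (Quotient (orbitRel (Subgroup.zpowers g) X)) := Fintype.ofFinite _
  have h := sum_card_fixedBy_eq_card_orbits_mul_card_group (Subgroup.zpowers g) X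
  rw [← (finEquivZPowers hfin).sum_comp] at h
  have hc : Fintype.card (Subgroup.zpowers g) = n := by
    rw [Fintype.card_eq_nat_card, Nat.card_zpowers, hn]
  rw [hc, Fintype.card_eq_nat_card] at h
  rw [orbitRel.Quotient, ← h]
  subst hn
  rw [Finset.sum_range]
  refine Finset.sum_congr rfl fun k _ => ?_
  rw [Fintype.card_eq_nat_card]
  rfl

variable (N : ℕ)

theorem inv_mul_apply_one_zero (g g' : SL(2, ℤ)) :
    (g⁻¹ * g') 1 0 = g 0 0 * g' 1 0 - g 1 0 * g' 0 0 := by
  have h := (Matrix.two_mul_expl (g⁻¹).1 g'.1).2.2.1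
  rw [Matrix.SpecialLinearGroup.coe_mul, h, Matrix.SpecialLinearGroup.SL2_inv_expl]
  simp
  ring

theorem coset_eq_iff (g g' : SL(2, ℤ)) :
    ((g : SL(2, ℤ) ⧸ Gamma0 N) = g') ↔ ((g 0 0 * g' 1 0 - g 1 0 * g' 0 0 : ℤ) : ZMod N) = 0 := by
  rw [QuotientGroup.eq, Gamma0_mem, inv_mul_apply_one_zero]

theorem det_eq (g : SL(2, ℤ)) : g 0 0 * g 1 1 - g 0 1 * g 1 0 = 1 := by
  have := g.2
  rwa [Matrix.det_fin_two] at this

theorem smul_coset (a g : SL(2, ℤ)) : a • (g : SL(2, ℤ) ⧸ Gamma0 N) = ((a * g : SL(2, ℤ)) : SL(2, ℤ) ⧸ Gamma0 N) := rfl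

theorem neg_one_smul_coset (x : SL(2, ℤ) ⧸ Gamma0 N) : (-1 : SL(2, ℤ)) • x = x := by
  induction x using QuotientGroup.induction_on with
  | H g =>
    rw [smul_coset, coset_eq_iff]
    simp
    ring_nf

theorem orderOf_S : orderOf S = 4 := by
  have : Fact (Nat.Prime 2) := ⟨Nat.prime_two⟩
  exact orderOf_eq_prime_pow (p := 2) (n := 1) (by decide) (by decide)

theorem orderOf_ST : orderOf (S * T) = 6 := by
  rw [orderOf_eq_iff (by norm_num)]
  refine ⟨by decide, fun m hm hm0 => ?_⟩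
  interval_cases m <;> decide

theorem S_mul_apply (g : SL(2, ℤ)) : (S * g) 0 0 = - g 1 0 ∧ (S * g) 1 0 = g 0 0 := by
  have h := Matrix.two_mul_expl S.1 g.1
  rw [Matrix.SpecialLinearGroup.coe_mul, h.1, h.2.2.1]
  simp [coe_S]

theorem ST_mul_apply (g : SL(2, ℤ)) : (S * T * g) 0 0 = - g 1 0 ∧ (S * T * g) 1 0 = g 0 0 + g 1 0 := by
  have h := Matrix.two_mul_expl (S * T).1 g.1
  have h00 : (S * T).1 0 0 = 0 := by decide
  have h01 : (S * T).1 0 1 = -1 := by decide
  have h10 : (S * T).1 1 0 = 1 := by decide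
  have h11 : (S * T).1 1 1 = 1 := by decide
  rw [Matrix.SpecialLinearGroup.coe_mul, h.1, h.2.2.1, h00, h01, h10, h11]
  simp



/-- the matrix `[[u, -1], [1, 0]]` -/
def colMat (u : ℤ) : SL(2, ℤ) := ⟨!![u, -1; 1, 0], by simp [Matrix.det_fin_two_of]⟩

@[simp] theorem colMat_00 (u : ℤ) : colMat u 0 0 = u := rfl
@[simp] theorem colMat_10 (u : ℤ) : colMat u 1 0 = 1 := rfl

theorem mem_fixedBy_S_iff (g : SL(2, ℤ)) :
    (g : SL(2, ℤ) ⧸ Gamma0 N) ∈ MulAction.fixedBy (SL(2, ℤ) ⧸ Gamma0 N) S ↔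
      ((g 0 0 : ZMod N)) ^ 2 + (g 1 0 : ZMod N) ^ 2 = 0 := by
  rw [MulAction.mem_fixedBy, smul_coset, coset_eq_iff, (S_mul_apply g).1, (S_mul_apply g).2]
  push_cast
  constructor <;> intro h <;> linear_combination -h

theorem mem_fixedBy_ST_iff (g : SL(2, ℤ)) :
    (g : SL(2, ℤ) ⧸ Gamma0 N) ∈ MulAction.fixedBy (SL(2, ℤ) ⧸ Gamma0 N) (S * T) ↔
      ((g 0 0 : ZMod N)) ^ 2 + (g 0 0 : ZMod N) * (g 1 0 : ZMod N) + (g 1 0 : ZMod N) ^ 2 = 0 := by
  rw [MulAction.mem_fixedBy, smul_coset, coset_eq_iff, (ST_mul_apply g).1, (ST_mul_apply g).2]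
  push_cast
  constructor <;> intro h <;> linear_combination -h

theorem det_eq_zmod (g : SL(2, ℤ)) :
    (g 0 0 : ZMod N) * (g 1 1 : ZMod N) - (g 0 1 : ZMod N) * (g 1 0 : ZMod N) = 1 := by
  have := congrArg (Int.cast : ℤ → ZMod N) (det_eq g)
  push_cast at this
  exact this

theorem card_fixedBy_S [NeZero N] :
    Nat.card (MulAction.fixedBy (SL(2, ℤ) ⧸ Gamma0 N) S) = ModularCurve.nuTwo N := by
  rw [ModularCurve.nuTwo]
  symm
  refine Nat.card_congr (Equiv.ofBijective
    (fun u : {x : ZMod N // x ^ 2 + 1 = 0} =>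
      (⟨(colMat (u.1.cast : ℤ) : SL(2, ℤ) ⧸ Gamma0 N), ?_⟩ :
        MulAction.fixedBy (SL(2, ℤ) ⧸ Gamma0 N) S)) ⟨?_, ?_⟩)
  · rw [mem_fixedBy_S_iff]
    simpa using u.2
  · intro u v h
    have h' := (coset_eq_iff N _ _).mp (congrArg Subtype.val h)
    simp at h'
    exact Subtype.ext (sub_eq_zero.mp h')
  · rintro ⟨x, hx⟩
    induction x using QuotientGroup.induction_on with
    | H g =>
      rw [mem_fixedBy_S_iff] at hx
      have hd := det_eq_zmod N g
      set a : ZMod N := (g 0 0 : ZMod N)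
      set b : ZMod N := (g 0 1 : ZMod N)
      set c : ZMod N := (g 1 0 : ZMod N)
      set d : ZMod N := (g 1 1 : ZMod N)
      refine ⟨⟨-(c * d + a * b), ?_⟩, ?_⟩
      · linear_combination (b ^ 2 + d ^ 2) * hx - (a * d - b * c + 1) * hd
      · apply Subtype.ext
        show (colMat _ : SL(2, ℤ) ⧸ Gamma0 N) = g
        rw [coset_eq_iff]
        simp
        linear_combination (-d) * hx + a * hd

theorem card_fixedBy_ST [NeZero N] :
    Nat.card (MulAction.fixedBy (SL(2, ℤ) ⧸ Gamma0 N) (S * T)) = ModularCurve.nuThree N := by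
  rw [ModularCurve.nuThree]
  symm
  refine Nat.card_congr (Equiv.ofBijective
    (fun u : {x : ZMod N // x ^ 2 + x + 1 = 0} =>
      (⟨(colMat (u.1.cast : ℤ) : SL(2, ℤ) ⧸ Gamma0 N), ?_⟩ :
        MulAction.fixedBy (SL(2, ℤ) ⧸ Gamma0 N) (S * T))) ⟨?_, ?_⟩)
  · rw [mem_fixedBy_ST_iff]
    simpa using u.2
  · intro u v h
    have h' := (coset_eq_iff N _ _).mp (congrArg Subtype.val h)
    simp at h'
    exact Subtype.ext (sub_eq_zero.mp h')
  · rintro ⟨x, hx⟩
    induction x using QuotientGroup.induction_on with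
    | H g =>
      rw [mem_fixedBy_ST_iff] at hx
      have hd := det_eq_zmod N g
      set a : ZMod N := (g 0 0 : ZMod N)
      set b : ZMod N := (g 0 1 : ZMod N)
      set c : ZMod N := (g 1 0 : ZMod N)
      set d : ZMod N := (g 1 1 : ZMod N)
      refine ⟨⟨-(a * d + c * d + a * b), ?_⟩, ?_⟩
      · linear_combination (b ^ 2 + b * d + d ^ 2) * hx + ((a * d + c * d + a * b) - 1 - (a * d - b * c)) * hd
      · apply Subtype.ext
        show (colMat _ : SL(2, ℤ) ⧸ Gamma0 N) = g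
        rw [coset_eq_iff]
        simp
        linear_combination (-d) * hx + a * hd



theorem orbitCount_eq (g : SL(2, ℤ)) : orbitCount N g =
    Nat.card (@MulAction.orbitRel.Quotient (Subgroup.zpowers g) (SL(2, ℤ) ⧸ Gamma0 N) _
      (Subgroup.instMulAction (S := Subgroup.zpowers g) (α := SL(2, ℤ) ⧸ Gamma0 N))) := rfl

theorem fixedBy_neg (g : SL(2, ℤ)) :
    MulAction.fixedBy (SL(2, ℤ) ⧸ Gamma0 N) (-g) = MulAction.fixedBy (SL(2, ℤ) ⧸ Gamma0 N) g := by
  ext x
  have : -g = (-1 : SL(2, ℤ)) * g := by simp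
  rw [MulAction.mem_fixedBy, MulAction.mem_fixedBy, this, mul_smul, neg_one_smul_coset]

theorem card_fixedBy_one :
    Nat.card (MulAction.fixedBy (SL(2, ℤ) ⧸ Gamma0 N) (1 : SL(2, ℤ))) =
      Nat.card (SL(2, ℤ) ⧸ Gamma0 N) := by
  rw [MulAction.fixedBy_one_eq_univ]
  exact Nat.card_congr (Equiv.Set.univ _)

theorem two_mul_orbitCount_S [NeZero N] :
    2 * orbitCount N S = Nat.card (SL(2, ℤ) ⧸ Gamma0 N) + ModularCurve.nuTwo N := by
  have h := burnside_zpowers (X := SL(2, ℤ) ⧸ Gamma0 N) S orderOf_S (by norm_num)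
  have h2 : S ^ 2 = -1 := by decide
  have h3 : S ^ 3 = -S := by decide
  simp only [Finset.sum_range_succ, Finset.sum_range_zero, pow_zero, pow_one, h2, h3, fixedBy_neg,
    card_fixedBy_one, card_fixedBy_S] at h
  rw [orbitCount_eq]
  omega

theorem three_mul_orbitCount_ST [NeZero N] :
    3 * orbitCount N (S * T) = Nat.card (SL(2, ℤ) ⧸ Gamma0 N) + 2 * ModularCurve.nuThree N := by
  have h := burnside_zpowers (X := SL(2, ℤ) ⧸ Gamma0 N) (S * T) orderOf_ST (by norm_num)
  have h2 : (S * T) ^ 2 = -(S * T)⁻¹ := by decide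
  have h3 : (S * T) ^ 3 = -1 := by decide
  have h4 : (S * T) ^ 4 = -(S * T) := by decide
  have h5 : (S * T) ^ 5 = (S * T)⁻¹ := by decide
  simp only [Finset.sum_range_succ, Finset.sum_range_zero, pow_zero, pow_one, h2, h3, h4, h5,
    fixedBy_neg, MulAction.fixedBy_inv, card_fixedBy_one, card_fixedBy_ST] at h
  rw [orbitCount_eq]
  omega



theorem card_quotient_of_surjective {G Y : Type*} [Group G] (H : Subgroup G) (f : G → Y)
    (hs : Function.Surjective f) (h : ∀ a b, f a = f b ↔ a⁻¹ * b ∈ H) :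
    Nat.card (G ⧸ H) = Nat.card Y := by
  refine Nat.card_congr (Equiv.ofBijective
    (Quotient.lift f fun a b hab => (h a b).mpr (QuotientGroup.leftRel_apply.mp hab)) ⟨?_, ?_⟩)
  · intro x y
    induction x using QuotientGroup.induction_on with
    | H a =>
      induction y using QuotientGroup.induction_on with
      | H b =>
        intro hab
        exact QuotientGroup.eq.mpr ((h a b).mp hab)
  · intro y
    obtain ⟨a, rfl⟩ := hs y
    exact ⟨(a : G ⧸ H), rfl⟩

theorem Gamma0_mul_le (p a : ℕ) : Gamma0 (p * a) ≤ Gamma0 a := by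
  intro g hg
  rw [Gamma0_mem, ZMod.intCast_zmod_eq_zero_iff_dvd] at hg ⊢
  exact (Dvd.intro_left (p : ℤ) (by push_cast; ring)).trans hg

/-- `c / a` for `γ = [[*, *], [c, *]] ∈ Γ₀(a)`. -/
def lowerQuot (a : ℕ) (γ : Gamma0 a) : ℤ := (γ.1 1 0) / a

theorem mul_lowerQuot (a : ℕ) (γ : Gamma0 a) : (a : ℤ) * lowerQuot a γ = γ.1 1 0 := by
  have := γ.2
  rw [Gamma0_mem, ZMod.intCast_zmod_eq_zero_iff_dvd] at this
  exact Int.mul_ediv_cancel' this

theorem mem_subgroupOf_iff {p a : ℕ} (ha : a ≠ 0) (γ γ' : Gamma0 a) :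
    γ⁻¹ * γ' ∈ (Gamma0 (p * a)).subgroupOf (Gamma0 a) ↔
      ((γ.1 0 0 : ZMod p) * (lowerQuot a γ' : ZMod p) - (lowerQuot a γ : ZMod p) * (γ'.1 0 0 : ZMod p)) = 0 := by
  rw [Subgroup.mem_subgroupOf]
  show (γ.1⁻¹ * γ'.1) ∈ Gamma0 (p * a) ↔ _
  rw [Gamma0_mem, inv_mul_apply_one_zero, ← mul_lowerQuot a γ, ← mul_lowerQuot a γ',
    ZMod.intCast_zmod_eq_zero_iff_dvd]
  have h1 : γ.1 0 0 * ((a : ℤ) * lowerQuot a γ') - (a : ℤ) * lowerQuot a γ * γ'.1 0 0 =
      (γ.1 0 0 * lowerQuot a γ' - lowerQuot a γ * γ'.1 0 0) * a := by ring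
  have ha' : (a : ℤ) ≠ 0 := by exact_mod_cast ha
  rw [h1]
  push_cast
  rw [Int.mul_dvd_mul_iff_right ha']
  rw [← ZMod.intCast_zmod_eq_zero_iff_dvd]
  push_cast
  rfl

theorem det_zmod_lowerQuot (p a : ℕ) (γ : Gamma0 a) :
    (γ.1 0 0 : ZMod p) * (γ.1 1 1 : ZMod p) - (γ.1 0 1 : ZMod p) * ((a : ZMod p) * (lowerQuot a γ : ZMod p)) = 1 := by
  have h := det_eq_zmod p γ.1
  rw [← mul_lowerQuot a γ] at h
  push_cast at h
  exact h



/-- the matrix `[[1, 0], [c, 1]]` -/
def lowMat (c : ℤ) : SL(2, ℤ) := ⟨!![1, 0; c, 1], by simp [Matrix.det_fin_two_of]⟩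

@[simp] theorem lowMat_00 (c : ℤ) : lowMat c 0 0 = 1 := rfl
@[simp] theorem lowMat_10 (c : ℤ) : lowMat c 1 0 = c := rfl

theorem lowMat_mem (a : ℕ) (t : ℤ) : lowMat (a * t) ∈ Gamma0 a := by
  rw [Gamma0_mem]; simp

theorem lowerQuot_lowMat {a : ℕ} (ha : a ≠ 0) (t : ℤ) :
    lowerQuot a ⟨lowMat (a * t), lowMat_mem a t⟩ = t := by
  have ha' : (a : ℤ) ≠ 0 := by exact_mod_cast ha
  exact Int.mul_ediv_cancel_left t ha'

/-- the matrix `[[a, b], [c, d]]` of determinant one -/
def mkSL (a b c d : ℤ) (h : a * d - b * c = 1) : SL(2, ℤ) :=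
  ⟨!![a, b; c, d], by rw [Matrix.det_fin_two_of]; exact h⟩

@[simp] theorem mkSL_00 (a b c d : ℤ) (h : a * d - b * c = 1) : mkSL a b c d h 0 0 = a := rfl
@[simp] theorem mkSL_10 (a b c d : ℤ) (h : a * d - b * c = 1) : mkSL a b c d h 1 0 = c := rfl

theorem relIndex_of_dvd {p a : ℕ} [Fact p.Prime] (ha : a ≠ 0) (hpa : p ∣ a) :
    (Gamma0 (p * a)).relIndex (Gamma0 a) = p := by
  have ha0 : (a : ZMod p) = 0 := (ZMod.natCast_eq_zero_iff a p).mpr hpa
  have hA : ∀ γ : Gamma0 a, (γ.1 0 0 : ZMod p) ≠ 0 := by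
    intro γ h0
    have := det_zmod_lowerQuot p a γ
    rw [h0, ha0] at this
    simp at this
  rw [Subgroup.relIndex, Subgroup.index,
    card_quotient_of_surjective _ (fun γ : Gamma0 a => (lowerQuot a γ : ZMod p) / (γ.1 0 0 : ZMod p)),
    Nat.card_zmod]
  · intro t
    refine ⟨⟨lowMat (a * (t.cast : ℤ)), lowMat_mem a _⟩, ?_⟩
    simp only [lowerQuot_lowMat ha]
    simp
  · intro γ γ'
    rw [mem_subgroupOf_iff ha, div_eq_div_iff (hA γ) (hA γ'), sub_eq_zero]
    constructor <;> intro h <;> linear_combination -h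

theorem relIndex_of_not_dvd {p a : ℕ} [hp : Fact p.Prime] (ha : a ≠ 0) (hpa : ¬ p ∣ a) :
    (Gamma0 (p * a)).relIndex (Gamma0 a) = p + 1 := by
  classical
  have hAC : ∀ γ : Gamma0 a, (γ.1 0 0 : ZMod p) = 0 → (lowerQuot a γ : ZMod p) ≠ 0 := by
    intro γ h0 h1
    have := det_zmod_lowerQuot p a γ
    rw [h0, h1] at this
    simp at this
  rw [Subgroup.relIndex, Subgroup.index,
    card_quotient_of_surjective _ (fun γ : Gamma0 a => if (γ.1 0 0 : ZMod p) = 0 then none else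
      some ((lowerQuot a γ : ZMod p) / (γ.1 0 0 : ZMod p))),
    Nat.card_eq_fintype_card, Fintype.card_option, ZMod.card]
  · intro t
    cases t with
    | none =>
      have hcop : IsCoprime (p : ℤ) (a : ℤ) := by
        rw [Nat.isCoprime_iff_coprime]
        exact (Nat.Prime.coprime_iff_not_dvd hp.out).mpr hpa
      obtain ⟨r, s, hrs⟩ := hcop
      refine ⟨⟨mkSL (p : ℤ) (-s) (a : ℤ) r (by linarith), ?_⟩, ?_⟩
      · rw [Gamma0_mem]; simp
      · simp
    | some t =>
      refine ⟨⟨lowMat (a * (t.cast : ℤ)), lowMat_mem a _⟩, ?_⟩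
      simp only [lowerQuot_lowMat ha]
      simp
  · intro γ γ'
    rw [mem_subgroupOf_iff ha]
    by_cases h : (γ.1 0 0 : ZMod p) = 0 <;> by_cases h' : (γ'.1 0 0 : ZMod p) = 0
    · simp [h, h']
    · simp [h, h', hAC γ h]
    · simp [h, h', hAC γ' h']
    · simp only [h, h', if_false, Option.some_inj]
      rw [div_eq_div_iff h h', sub_eq_zero]
      constructor <;> intro h <;> linear_combination -h


section psi
open ModularCurve


theorem dedekindPsi_mul_of_dvd {p a : ℕ} (ha : a ≠ 0) (hpa : p ∣ a) (hp : p ≠ 0) :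
    dedekindPsi (p * a) = p * dedekindPsi a := by
  unfold dedekindPsi
  have hfil : (p * a).divisors.filter Squarefree = a.divisors.filter Squarefree := by
    ext d
    simp only [Finset.mem_filter, Nat.mem_divisors]
    constructor
    · rintro ⟨⟨hd, -⟩, hsq⟩
      refine ⟨⟨?_, ha⟩, hsq⟩
      have : d ∣ a ^ 2 := hd.trans (by rw [sq]; exact Nat.mul_dvd_mul_right hpa a)
      exact (hsq.dvd_pow_iff_dvd (by norm_num)).mp this
    · rintro ⟨⟨hd, -⟩, hsq⟩
      exact ⟨⟨hd.mul_left p, mul_ne_zero hp ha⟩, hsq⟩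
  rw [hfil, Finset.mul_sum]
  refine Finset.sum_congr rfl fun d hd => ?_
  simp only [Finset.mem_filter, Nat.mem_divisors] at hd
  exact Nat.mul_div_assoc p hd.1.1

theorem dedekindPsi_eq_sum_powerset {n : ℕ} (hn : n ≠ 0) :
    dedekindPsi n = ∑ t ∈ n.primeFactors.powerset, n / t.prod id := by
  unfold dedekindPsi
  rw [Nat.sum_divisors_filter_squarefree hn]
  have : (UniqueFactorizationMonoid.normalizedFactors n).toFinset = n.primeFactors := by
    rw [Nat.factors_eq]
    ext q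
    simp
  rw [this]
  refine Finset.sum_congr rfl fun t _ => ?_
  rw [Finset.prod_val]

theorem dedekindPsi_mul_of_not_dvd {p a : ℕ} (hp : p.Prime) (ha : a ≠ 0) (hpa : ¬ p ∣ a) :
    dedekindPsi (p * a) = (p + 1) * dedekindPsi a := by
  rw [dedekindPsi_eq_sum_powerset (mul_ne_zero hp.ne_zero ha),
    dedekindPsi_eq_sum_powerset ha, Nat.primeFactors_mul hp.ne_zero ha,
    hp.primeFactors, Finset.singleton_union, Finset.sum_powerset_insert (by
      simp [Nat.mem_primeFactors, hpa]), add_mul, one_mul, Finset.mul_sum]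
  have hdvd : ∀ t ∈ a.primeFactors.powerset, t.prod id ∣ a := by
    intro t ht
    exact (Finset.prod_dvd_prod_of_subset _ _ _ (Finset.mem_powerset.mp ht)).trans
      (Nat.prod_primeFactors_dvd a)
  congr 1
  · refine Finset.sum_congr rfl fun t ht => ?_
    exact Nat.mul_div_assoc p (hdvd t ht)
  · refine Finset.sum_congr rfl fun t ht => ?_
    have hpt : p ∉ t := fun h => hpa (Nat.dvd_of_mem_primeFactors (Finset.mem_powerset.mp ht h))
    rw [Finset.prod_insert hpt]
    exact Nat.mul_div_mul_left _ _ hp.pos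


end psi

theorem index_Gamma0 (n : ℕ) : n ≠ 0 → (Gamma0 n).index = ModularCurve.dedekindPsi n := by
  induction n using induction_on_primes with
  | zero => intro h; exact absurd rfl h
  | one =>
    intro _
    have h1 : Gamma0 1 = ⊤ := by
      ext g
      simp only [Gamma0_mem, Subgroup.mem_top, iff_true]
      exact Subsingleton.elim _ _
    rw [h1, Subgroup.index_top]
    simp [ModularCurve.dedekindPsi, Finset.filter_singleton]
  | prime_mul p a hp ih =>
    intro hpa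
    have ha : a ≠ 0 := fun h => hpa (by simp [h])
    have : Fact p.Prime := ⟨hp⟩
    rw [← Subgroup.relIndex_mul_index (Gamma0_mul_le p a), ih ha]
    by_cases hd : p ∣ a
    · rw [relIndex_of_dvd ha hd, dedekindPsi_mul_of_dvd ha hd hp.ne_zero]
    · rw [relIndex_of_not_dvd ha hd, dedekindPsi_mul_of_not_dvd hp ha hd]

theorem card_quot (N : ℕ) [NeZero N] :
    Nat.card (SL(2, ℤ) ⧸ Gamma0 N) = ModularCurve.dedekindPsi N :=
  index_Gamma0 N (NeZero.ne N)


/-- Orbits of the cyclic group generated by the permutation attached to `g` are the orbits of the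
cyclic group generated by `g`. -/
theorem card_orbits_toPerm {G X : Type*} [Group G] [MulAction G X] (g : G) :
    Nat.card (MulAction.orbitRel.Quotient
      (Subgroup.zpowers (MulAction.toPerm g : Equiv.Perm X)) X) =
    Nat.card (MulAction.orbitRel.Quotient (Subgroup.zpowers g) X) := by
  have hpow : ∀ (k : ℤ) (y : X), ((MulAction.toPerm g : Equiv.Perm X) ^ k) y = g ^ k • y := by
    intro k y
    have : (MulAction.toPerm g : Equiv.Perm X) ^ k = MulAction.toPerm (g ^ k) :=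
      (map_zpow (MulAction.toPermHom G X) g k).symm
    rw [this]
    rfl
  have h : MulAction.orbitRel (Subgroup.zpowers (MulAction.toPerm g : Equiv.Perm X)) X =
      MulAction.orbitRel (Subgroup.zpowers g) X := by
    ext x y
    simp only [MulAction.orbitRel_apply, MulAction.mem_orbit_iff]
    constructor
    · rintro ⟨⟨_, k, rfl⟩, hk⟩
      exact ⟨⟨g ^ k, k, rfl⟩, (hpow k y).symm.trans hk⟩
    · rintro ⟨⟨_, k, rfl⟩, hk⟩
      exact ⟨⟨(MulAction.toPerm g : Equiv.Perm X) ^ k, k, rfl⟩, (hpow k y).trans hk⟩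
  unfold MulAction.orbitRel.Quotient
  rw [h]

/-- `twoGenus` in terms of the genus formula, given the count of the `T`-orbits. -/
theorem twoGenus_eq_of (N : ℕ) [NeZero N] (hT : orbitCount N T = ModularCurve.cuspCount N) :
    (twoGenus N : ℚ) = 2 * ModularCurve.genusFormula N := by
  have h1 := card_quot N
  have h2 := two_mul_orbitCount_S N
  have h3 := three_mul_orbitCount_ST N
  rw [h1] at h2 h3
  unfold twoGenus ModularCurve.genusFormula
  rw [h1, hT]
  have e2 : (2 * (orbitCount N S : ℚ)) = ModularCurve.dedekindPsi N + ModularCurve.nuTwo N := by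
    exact_mod_cast h2
  have e3 : (3 * (orbitCount N (S * T) : ℚ))
      = ModularCurve.dedekindPsi N + 2 * ModularCurve.nuThree N := by
    exact_mod_cast h3
  push_cast
  linarith

end Fermat.Agent.S20.AR

namespace Fermat.Agent.S20

theorem orbCount_cos_eq (N : ℕ) (g : SL(2, ℤ)) :
    orbCount (Cos N) g = Fermat.Agent.S21.orbitCount N g := rfl

theorem card_cos (N : ℕ) [NeZero N] : Nat.card (Cos N) = ModularCurve.dedekindPsi N :=
  AR.card_quot N

theorem orbCount_S (N : ℕ) [NeZero N] :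
    2 * orbCount (Cos N) S = ModularCurve.dedekindPsi N + ModularCurve.nuTwo N := by
  rw [orbCount_cos_eq, AR.two_mul_orbitCount_S, AR.card_quot]

theorem orbCount_U (N : ℕ) [NeZero N] :
    3 * orbCount (Cos N) Umat = ModularCurve.dedekindPsi N + 2 * ModularCurve.nuThree N := by
  rw [orbCount_cos_eq, Umat, AR.three_mul_orbitCount_ST, AR.card_quot]

end Fermat.Agent.S20
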