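import Fermat.Agent.S20.Defs

set_option autoImplicit false

namespace Fermat.Agent.S20

open MatrixGroups ModularGroup CongruenceSubgroup

namespace OrbitT


/-- arithmetic criterion -/
def Crit (N : ℕ) (g g' : SL(2, ℤ)) : Prop :=
  ∃ k : ℤ, (N : ℤ) ∣ (g 0 0 + k * g 1 0) * g' 1 0 - g 1 0 * g' 0 0

theorem isCoprime_col (M : SL(2, ℤ)) : IsCoprime (M 0 0) (M 1 0) := by
  have h := M.det_coe
  rw [Matrix.det_fin_two] at h
  exact ⟨M 1 1, -M 0 1, by linarith⟩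

theorem entry (k : ℤ) (g g' : SL(2, ℤ)) :
    ((T ^ k * g)⁻¹ * g') 1 0 = (g 0 0 + k * g 1 0) * g' 1 0 - g 1 0 * g' 0 0 := by
  rw [Matrix.SpecialLinearGroup.coe_mul, Matrix.SpecialLinearGroup.SL2_inv_expl, Matrix.mul_apply,
    Fin.sum_univ_two]
  simp only [Matrix.SpecialLinearGroup.coe_mul, ModularGroup.coe_T_zpow, Matrix.mul_apply, Fin.sum_univ_two]
  simp
  ring

theorem mk_eq_iff (N : ℕ) (g g' : SL(2, ℤ)) :
    (Quotient.mk'' (g' : Cos N) : MulAction.orbitRel.Quotient (Subgroup.zpowers T) (Cos N))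
      = Quotient.mk'' (g : Cos N) ↔ Crit N g g' := by
  rw [Quotient.eq'', MulAction.orbitRel_apply, MulAction.mem_orbit_iff]
  constructor
  · rintro ⟨⟨t, k, rfl⟩, ht⟩
    refine ⟨k, ?_⟩
    have h1 : ((T ^ k * g : SL(2, ℤ)) : Cos N) = (g' : Cos N) := ht
    rw [QuotientGroup.eq, Gamma0_mem, ZMod.intCast_zmod_eq_zero_iff_dvd, entry] at h1
    exact h1
  · rintro ⟨k, hk⟩
    refine ⟨⟨T ^ k, k, rfl⟩, ?_⟩
    show ((T ^ k * g : SL(2, ℤ)) : Cos N) = (g' : Cos N)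
    rw [QuotientGroup.eq, Gamma0_mem, ZMod.intCast_zmod_eq_zero_iff_dvd, entry]
    exact hk

/-- index set -/
def idx (N : ℕ) : Finset (Σ _ : ℕ, ℕ) :=
  N.divisors.sigma fun d =>
    (Finset.range (Nat.gcd d (N / d))).filter fun e => (Nat.gcd d (N / d)).Coprime e

theorem card_idx (N : ℕ) : (idx N).card = ModularCurve.cuspCount N := by
  rw [idx, Finset.card_sigma]; rfl

theorem exists_rep {N d e : ℕ} (hN : N ≠ 0) (hd : d ∣ N) (he : (Nat.gcd d (N / d)).Coprime e) :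
    ∃ M : SL(2, ℤ), M 1 0 = (d : ℤ) ∧ ((Nat.gcd d (N / d) : ℕ) : ℤ) ∣ M 0 0 - e := by
  have hd0 : d ≠ 0 := fun h => hN (by simpa [h] using hd)
  have : NeZero d := ⟨hd0⟩
  set g := Nat.gcd d (N / d) with hg
  have hgd : g ∣ d := Nat.gcd_dvd_left _ _
  obtain ⟨v, hv⟩ := ZMod.unitsMap_surjective hgd (ZMod.unitOfCoprime e he.symm)
  have hcop : Nat.Coprime (v : ZMod d).val d := ZMod.val_coe_unit_coprime v
  have hv' : (((v : ZMod d).val : ℕ) : ZMod g) = (e : ZMod g) := by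
    have h1 := congrArg (fun u : (ZMod g)ˣ => (u : ZMod g)) hv
    simp only [ZMod.unitsMap_val, ZMod.coe_unitOfCoprime] at h1
    rw [← h1, ZMod.natCast_val]
  obtain ⟨x, y, hxy⟩ := Nat.isCoprime_iff_coprime.mpr hcop
  refine ⟨⟨!![((v : ZMod d).val : ℤ), -y; (d : ℤ), x], ?_⟩, ?_, ?_⟩
  · rw [Matrix.det_fin_two_of]; linarith
  · simp
  · have : (((v : ZMod d).val : ℤ) - (e : ℤ) : ℤ) = (((v : ZMod d).val : ℤ) - (e : ℤ)) := rfl
    simp only [Matrix.of_apply, Matrix.cons_val', Matrix.cons_val_zero, Matrix.cons_val_fin_one]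
    rw [← ZMod.intCast_zmod_eq_zero_iff_dvd]
    push_cast
    rw [hv', sub_self]

theorem rep_inj {N d d' e e' : ℕ} (hN : N ≠ 0) (hd : d ∣ N) (hd' : d' ∣ N)
    (he : e < Nat.gcd d (N / d)) (he' : e' < Nat.gcd d' (N / d'))
    {M M' : SL(2, ℤ)} (hM : M 1 0 = (d : ℤ)) (hMe : ((Nat.gcd d (N / d) : ℕ) : ℤ) ∣ M 0 0 - e)
    (hM' : M' 1 0 = (d' : ℤ)) (hMe' : ((Nat.gcd d' (N / d') : ℕ) : ℤ) ∣ M' 0 0 - e')
    (h : Crit N M M') : d = d' ∧ e = e' := by
  obtain ⟨k, hk⟩ := h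
  have hc := isCoprime_col M
  have hc' := isCoprime_col M'
  rw [hM] at hc hk
  rw [hM'] at hc' hk
  have hdN : (d : ℤ) ∣ (N : ℤ) := Int.natCast_dvd_natCast.mpr hd
  have hd'N : (d' : ℤ) ∣ (N : ℤ) := Int.natCast_dvd_natCast.mpr hd'
  have h1 : (d : ℤ) ∣ M 0 0 * d' := by
    have h2 := hdN.trans hk
    have h3 : M 0 0 * (d' : ℤ) = ((M 0 0 + k * d) * d' - d * M' 0 0) - d * (k * d' - M' 0 0) := by ring
    rw [h3]
    exact dvd_sub h2 (Dvd.intro _ rfl)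
  have h2 : (d' : ℤ) ∣ M' 0 0 * d := by
    have h2 := hd'N.trans hk
    have h3 : M' 0 0 * (d : ℤ) = d' * (M 0 0 + k * d) - ((M 0 0 + k * d) * d' - d * M' 0 0) := by ring
    rw [h3]
    exact dvd_sub (Dvd.intro _ rfl) h2
  have h3 : d ∣ d' := Int.natCast_dvd_natCast.mp (hc.symm.dvd_of_dvd_mul_left h1)
  have h4 : d' ∣ d := Int.natCast_dvd_natCast.mp (hc'.symm.dvd_of_dvd_mul_left h2)
  have hdd : d = d' := Nat.dvd_antisymm h3 h4
  subst hdd
  refine ⟨rfl, ?_⟩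
  have hd0 : d ≠ 0 := fun h => hN (by simpa [h] using hd)
  have hNd : (N : ℤ) = d * ((N / d : ℕ) : ℤ) := by
    exact_mod_cast (Nat.mul_div_cancel' hd).symm
  have h5 : ((N / d : ℕ) : ℤ) ∣ M 0 0 + k * d - M' 0 0 := by
    have h6 : (d : ℤ) * ((N / d : ℕ) : ℤ) ∣ d * (M 0 0 + k * d - M' 0 0) := by
      rw [← hNd]
      have : (d : ℤ) * (M 0 0 + k * d - M' 0 0) = (M 0 0 + k * d) * d - d * M' 0 0 := by ring
      rw [this]; exact hk
    exact (mul_dvd_mul_iff_left (by exact_mod_cast hd0)).mp h6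
  set g := Nat.gcd d (N / d) with hg
  have hg1 : (g : ℤ) ∣ (d : ℤ) := Int.natCast_dvd_natCast.mpr (Nat.gcd_dvd_left _ _)
  have hg2 : (g : ℤ) ∣ ((N / d : ℕ) : ℤ) := Int.natCast_dvd_natCast.mpr (Nat.gcd_dvd_right _ _)
  have h7 : (g : ℤ) ∣ (e : ℤ) - e' := by
    have h8 : (e : ℤ) - e' = (M 0 0 + k * d - M' 0 0) - (M 0 0 - e) + (M' 0 0 - e') - k * d := by ring
    rw [h8]
    exact dvd_sub (dvd_add (dvd_sub (hg2.trans h5) hMe) hMe') (Dvd.dvd.mul_left hg1 k)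
  have h9 : e' ≡ e [MOD g] := (Nat.modEq_iff_dvd).mpr h7
  exact (Nat.ModEq.eq_of_lt_of_lt h9 he' he).symm

theorem exists_idx {N : ℕ} (hN : N ≠ 0) (h : SL(2, ℤ)) :
    ∃ d e : ℕ, d ∣ N ∧ e < Nat.gcd d (N / d) ∧ (Nat.gcd d (N / d)).Coprime e ∧
      ∀ M : SL(2, ℤ), M 1 0 = (d : ℤ) → ((Nat.gcd d (N / d) : ℕ) : ℤ) ∣ M 0 0 - e →
        Crit N M h := by
  have hac := isCoprime_col h
  set a := h 0 0 with ha
  set c := h 1 0 with hc
  have hpos : 0 < Int.gcd c (N : ℤ) := Int.gcd_pos_of_ne_zero_right _ (by exact_mod_cast hN)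
  obtain ⟨c1, n1, h1, hc1, hn1⟩ := Int.exists_gcd_one hpos
  set d := Int.gcd c (N : ℤ) with hd
  have hdN : d ∣ N := Int.natCast_dvd_natCast.mp (Int.gcd_dvd_right c (N : ℤ))
  have hd0 : d ≠ 0 := hpos.ne'
  have hNd : (N : ℤ) = ((N / d : ℕ) : ℤ) * d := by
    exact_mod_cast (Nat.div_mul_cancel hdN).symm
  have hn1' : n1 = ((N / d : ℕ) : ℤ) := by
    have : n1 * (d : ℤ) = ((N / d : ℕ) : ℤ) * d := by rw [← hn1, ← hNd]
    exact mul_right_cancel₀ (by exact_mod_cast hd0) this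
  subst hn1'
  obtain ⟨x, y, hxy⟩ := Int.isCoprime_iff_gcd_eq_one.mpr h1
  set g := Nat.gcd d (N / d) with hg
  have hgpos : 0 < g := Nat.gcd_pos_of_pos_left _ hpos
  have hg1 : (g : ℤ) ∣ (d : ℤ) := Int.natCast_dvd_natCast.mpr (Nat.gcd_dvd_left _ _)
  have hg2 : (g : ℤ) ∣ ((N / d : ℕ) : ℤ) := Int.natCast_dvd_natCast.mpr (Nat.gcd_dvd_right _ _)
  have hbez : (g : ℤ) = d * Nat.gcdA d (N / d) + ((N / d : ℕ) : ℤ) * Nat.gcdB d (N / d) :=
    Nat.gcd_eq_gcd_ab d (N / d)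
  have hemod_nonneg : 0 ≤ (a * x) % (g : ℤ) := Int.emod_nonneg _ (by exact_mod_cast hgpos.ne')
  have hemod_lt : (a * x) % (g : ℤ) < g := Int.emod_lt_of_pos _ (by exact_mod_cast hgpos)
  obtain ⟨e, he⟩ := Int.eq_ofNat_of_zero_le hemod_nonneg
  have hge : (g : ℤ) ∣ a * x - e := by
    rw [← he]; exact Int.dvd_self_sub_emod
  refine ⟨d, e, hdN, ?_, ?_, ?_⟩
  · rw [he] at hemod_lt; exact_mod_cast hemod_lt
  · -- coprimality
    have hga : IsCoprime (g : ℤ) a := by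
      have : (g : ℤ) ∣ c := hg1.trans ⟨c1, by rw [hc1]; ring⟩
      exact (hac.symm).of_isCoprime_of_dvd_left this
    have hgx : IsCoprime (g : ℤ) x := by
      have h2 : IsCoprime ((N / d : ℕ) : ℤ) x := ⟨y, c1, by linarith⟩
      exact h2.of_isCoprime_of_dvd_left hg2
    have hgax : IsCoprime (g : ℤ) (a * x) := hga.mul_right hgx
    obtain ⟨t, ht⟩ := hge
    have : IsCoprime (g : ℤ) (e : ℤ) := by
      have h3 : (e : ℤ) = a * x + g * (-t) := by linarith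
      rw [h3]
      exact (IsCoprime.add_mul_left_right_iff).mpr hgax
    exact Nat.isCoprime_iff_coprime.mp this
  · intro M hM hMe
    have h4 : (g : ℤ) ∣ a * x - M 0 0 := by
      have : a * x - M 0 0 = (a * x - e) - (M 0 0 - e) := by ring
      rw [this]; exact dvd_sub hge hMe
    obtain ⟨t, ht⟩ := h4
    refine ⟨Nat.gcdA d (N / d) * t, -a * y - t * Nat.gcdB d (N / d) * c1, ?_⟩
    rw [hM]
    show (M 0 0 + Nat.gcdA d (N / d) * t * d) * c - d * a = _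
    linear_combination (M 0 0 + Nat.gcdA d (N / d) * t * d) * hc1 - (-a * y - t * Nat.gcdB d (N / d) * c1) * hNd
      - d * t * c1 * hbez + d * a * hxy - d * c1 * ht

end OrbitT

open OrbitT in
theorem orbCount_T (N : ℕ) [NeZero N] : orbCount (Cos N) T = ModularCurve.cuspCount N := by
  classical
  have hN : N ≠ 0 := NeZero.ne N
  rw [← card_idx, orbCount]
  have hmem : ∀ p : idx N, p.1.1 ∣ N ∧ p.1.2 < Nat.gcd p.1.1 (N / p.1.1) ∧
      (Nat.gcd p.1.1 (N / p.1.1)).Coprime p.1.2 := by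
    rintro ⟨⟨d, e⟩, hp⟩
    simp only [idx, Finset.mem_sigma, Nat.mem_divisors, Finset.mem_filter, Finset.mem_range] at hp
    exact ⟨hp.1.1, hp.2.1, hp.2.2⟩
  choose rep hrep1 hrep2 using fun p : idx N => exists_rep hN (hmem p).1 (hmem p).2.2
  let R : idx N → MulAction.orbitRel.Quotient (Subgroup.zpowers T) (Cos N) :=
    fun p => Quotient.mk'' ((rep p : SL(2, ℤ)) : Cos N)
  have hbij : Function.Bijective R := by
    constructor
    · intro p p' hpp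
      have hcrit : Crit N (rep p') (rep p) := (mk_eq_iff N (rep p') (rep p)).mp hpp
      obtain ⟨h1, h2⟩ := rep_inj hN (hmem p').1 (hmem p).1 (hmem p').2.1 (hmem p).2.1
        (hrep1 p') (hrep2 p') (hrep1 p) (hrep2 p) hcrit
      apply Subtype.ext
      exact (Sigma.ext h1 (heq_of_eq h2)).symm
    · intro q
      induction q using Quotient.inductionOn' with
      | h x =>
        induction x using QuotientGroup.induction_on with
        | H h =>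
          obtain ⟨d, e, hd, he1, he2, hM⟩ := exists_idx hN h
          have hp : (⟨d, e⟩ : Σ _ : ℕ, ℕ) ∈ idx N := by
            simp only [idx, Finset.mem_sigma, Nat.mem_divisors, Finset.mem_filter, Finset.mem_range]
            exact ⟨⟨hd, hN⟩, he1, he2⟩
          refine ⟨⟨⟨d, e⟩, hp⟩, ?_⟩
          exact ((mk_eq_iff N (rep ⟨⟨d, e⟩, hp⟩) h).mpr
            (hM _ (hrep1 ⟨⟨d, e⟩, hp⟩) (hrep2 ⟨⟨d, e⟩, hp⟩))).symm
  exact (Nat.card_congr (Equiv.ofBijective R hbij)).symm.trans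
    (by rw [Nat.card_eq_fintype_card, Fintype.card_coe])

end Fermat.Agent.S20
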