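import Fermat.Agent.S20.Defs

set_option autoImplicit false

namespace Fermat.Agent.S20

open UpperHalfPlane ModularForm MatrixGroups ModularGroup
open scoped Manifold

/-! ## EIG : eigenspaces of permutation operators

Helper lemmas live in the sub-namespace `Fermat.Agent.S20.Eig`; the skeleton statements
(`finrank_invariants`, `linearIndependent_of_det`, `card_four_dvd_le`, `card_six_le`) in
`Fermat.Agent.S20`. -/

namespace Eig

section perm

variable (X : Type) [MulAction SL(2, ℤ) X]

/-- The permutation operator of `g` on functions on `X`. -/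
noncomputable def permOp (g : SL(2, ℤ)) : Module.End ℂ (X → ℂ) :=
  LinearMap.funLeft ℂ ℂ (fun x => g⁻¹ • x)

variable {X}

lemma mem_eigenspace_permOp {g : SL(2, ℤ)} {μ : ℂ} {v : X → ℂ} :
    v ∈ Module.End.eigenspace (permOp X g) μ ↔ ∀ x, v (g⁻¹ • x) = μ * v x := by
  rw [Module.End.mem_eigenspace_iff, funext_iff]
  rfl

lemma invariant_zpow {g : SL(2, ℤ)} {v : X → ℂ} (h : ∀ x, v (g⁻¹ • x) = v x) (n : ℤ) (x : X) :
    v (g ^ n • x) = v x := by
  have h' : ∀ x, v (g • x) = v x := fun x => by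
    have := h (g • x)
    rw [inv_smul_smul] at this
    exact this.symm
  induction n using Int.induction_on generalizing x with
  | zero => simp
  | succ n ih => rw [zpow_add_one, mul_smul, ih, h']
  | pred n ih => rw [zpow_sub_one, mul_smul, ih, h]

lemma finrank_eigenspace_one [Fintype X] (g : SL(2, ℤ)) :
    Module.finrank ℂ (Module.End.eigenspace (permOp X g) 1) = orbCount X g := by
  classical
  set Q := MulAction.orbitRel.Quotient (Subgroup.zpowers g) X with hQ
  let mk : X → Q := Quotient.mk''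
  have hmk : Function.Surjective mk := Quotient.mk''_surjective
  let L : (Q → ℂ) →ₗ[ℂ] (X → ℂ) := LinearMap.funLeft ℂ ℂ mk
  have hL : Function.Injective L := LinearMap.funLeft_injective_of_surjective ℂ ℂ mk hmk
  have hrange : Module.End.eigenspace (permOp X g) 1 = LinearMap.range L := by
    ext v
    rw [mem_eigenspace_permOp]
    simp only [one_mul]
    constructor
    · intro hv
      refine ⟨fun q => Quotient.liftOn' q v ?_, ?_⟩
      · rintro a b ⟨⟨_, n, rfl⟩, rfl⟩
        exact invariant_zpow hv n b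
      · ext x
        rfl
    · rintro ⟨f, rfl⟩ x
      show f (mk (g⁻¹ • x)) = f (mk x)
      congr 1
      apply Quotient.sound'
      exact ⟨⟨g⁻¹, Subgroup.inv_mem _ (Subgroup.mem_zpowers g)⟩, rfl⟩
  rw [hrange, LinearMap.finrank_range_of_inj hL]
  have : Fintype Q := Fintype.ofFinite Q
  rw [Module.finrank_fintype_fun_eq_card, orbCount, Nat.card_eq_fintype_card]

end perm

end Eig

open Eig

theorem finrank_invariants {X : Type} [Fintype X] [MulAction SL(2, ℤ) X] (g : SL(2, ℤ)) :
    Module.finrank ℂ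
      ({ carrier := {v : X → ℂ | ∀ x, v (g⁻¹ • x) = v x}
         add_mem' := fun {a b} ha hb x => by simp [ha x, hb x]
         zero_mem' := fun x => rfl
         smul_mem' := fun c a ha x => by simp [ha x] } : Submodule ℂ (X → ℂ)) = orbCount X g := by
  rw [← finrank_eigenspace_one g]
  refine congrArg (fun W : Submodule ℂ (X → ℂ) => Module.finrank ℂ W) ?_
  ext v
  rw [mem_eigenspace_permOp]
  simp only [one_mul]
  rfl

namespace Eig

/-- Three eigenspaces for distinct eigenvalues fit into the whole space. -/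
lemma finrank_three_eigenspaces {V : Type} [AddCommGroup V] [Module ℂ V] [FiniteDimensional ℂ V]
    (f : Module.End ℂ V) {a b c : ℂ} (hab : a ≠ b) (hac : a ≠ c) (hbc : b ≠ c) :
    Module.finrank ℂ (f.eigenspace a) + Module.finrank ℂ (f.eigenspace b)
      + Module.finrank ℂ (f.eigenspace c) ≤ Module.finrank ℂ V := by
  have hind := Module.End.eigenspaces_iSupIndep f
  have h1 : Disjoint (f.eigenspace a) (f.eigenspace b) := hind.pairwiseDisjoint hab
  have h2 : Disjoint (f.eigenspace c) (f.eigenspace a ⊔ f.eigenspace b) :=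
    (hind c).mono_right (sup_le (le_iSup₂_of_le a hac le_rfl) (le_iSup₂_of_le b hbc le_rfl))
  have h3 := Submodule.finrank_sup_add_finrank_inf_eq (f.eigenspace a) (f.eigenspace b)
  rw [h1.eq_bot, finrank_bot, add_zero] at h3
  have h4 := Submodule.finrank_add_finrank_le_of_disjoint h2
  omega

/-- Complex conjugation preserves linear independence. -/
lemma linearIndependent_conj {ι X : Type} {v : ι → X → ℂ} (h : LinearIndependent ℂ v) :
    LinearIndependent ℂ (fun i x => (starRingEnd ℂ) (v i x)) := by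
  let j : (X → ℂ) →+ (X → ℂ) :=
    { toFun := fun w x => (starRingEnd ℂ) (w x)
      map_zero' := by ext x; simp
      map_add' := fun a b => by ext x; simp }
  refine h.map_of_injective_injective (starRingEnd ℂ) j (fun r hr => by simpa using hr) ?_ ?_
  · intro a ha
    ext x
    simpa [j] using congrFun ha x
  · intro r m
    ext x
    simp [j]

section core

variable {X : Type} [Fintype X] [DecidableEq X] [MulAction SL(2, ℤ) X]

omit [MulAction SL(2, ℤ) X] in
lemma linearIndependent_eval (Φ : X → X → ℍ → ℂ) (z : ℍ) (hdet : detFn Φ z ≠ 0) :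
    LinearIndependent ℂ (fun i x => Φ i x z) :=
  Matrix.linearIndependent_rows_of_det_ne_zero hdet

omit [Fintype X] [DecidableEq X] in
lemma eval_mem_eigenspace {k : ℤ} {Φ : X → ℍ → ℂ} (h : IsVM X k Φ) (g : SL(2, ℤ)) (z : ℍ)
    (hz : g • z = z) :
    (fun x => Φ x z) ∈ Module.End.eigenspace (permOp X g) (denom g z ^ (-k)) := by
  rw [mem_eigenspace_permOp]
  intro x
  have := congrFun (h.equiv g x) z
  rw [SL_slash_apply, hz] at this
  rw [← this, mul_comm]

omit [Fintype X] [DecidableEq X] in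
lemma conj_mem_eigenspace {g : SL(2, ℤ)} {μ : ℂ} {v : X → ℂ}
    (h : v ∈ Module.End.eigenspace (permOp X g) μ) :
    (fun x => (starRingEnd ℂ) (v x)) ∈
      Module.End.eigenspace (permOp X g) ((starRingEnd ℂ) μ) := by
  rw [mem_eigenspace_permOp] at h ⊢
  intro x
  rw [h x, map_mul]

omit [DecidableEq X] [MulAction SL(2, ℤ) X] in
lemma card_le_finrank_of_mem {v : X → X → ℂ} (hv : LinearIndependent ℂ v)
    (W : Submodule ℂ (X → ℂ)) (s : Finset X) (hs : ∀ i ∈ s, v i ∈ W) :
    s.card ≤ Module.finrank ℂ W := by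
  have h1 : LinearIndependent ℂ (fun i : s => (⟨v i, hs i i.2⟩ : W)) := by
    refine LinearIndependent.of_comp W.subtype ?_
    exact hv.comp _ Subtype.val_injective
  simpa using h1.fintype_card_le_finrank

lemma card_le_finrank_eigenspace (k : X → ℤ) (Φ : X → X → ℍ → ℂ) (hΦ : ∀ i, IsVM X (k i) (Φ i))
    (g : SL(2, ℤ)) (z : ℍ) (hz : g • z = z) (hdet : detFn Φ z ≠ 0) (μ : ℂ) (s : Finset X)
    (hs : ∀ i ∈ s, denom g z ^ (-(k i)) = μ) :
    s.card ≤ Module.finrank ℂ (Module.End.eigenspace (permOp X g) μ) ∧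
    s.card ≤ Module.finrank ℂ (Module.End.eigenspace (permOp X g) ((starRingEnd ℂ) μ)) := by
  have hli := linearIndependent_eval Φ z hdet
  refine ⟨card_le_finrank_of_mem hli _ s fun i hi => ?_,
    card_le_finrank_of_mem (linearIndependent_conj hli) _ s fun i hi => ?_⟩
  · rw [← hs i hi]
    exact eval_mem_eigenspace (hΦ i) g z hz
  · rw [← hs i hi]
    exact conj_mem_eigenspace (eval_mem_eigenspace (hΦ i) g z hz)

lemma eig_S_smul_I : S • (I : ℍ) = I := stabilizer_I.mpr (by simp)

lemma Umat_smul_rho : Umat • (ρ : ℍ) = ρ := stabilizer_ρ.mpr (by simp [Umat])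

lemma denom_Umat_rho : denom Umat ρ = (ρ : ℂ) + 1 := by
  rw [ModularGroup.denom_apply, Umat, Matrix.SpecialLinearGroup.coe_mul, coe_S, coe_T,
    Matrix.mul_fin_two]
  simp

lemma rho_cube : (ρ : ℂ) ^ 3 = 1 := by
  have h := ρ_sq
  linear_combination ((ρ : ℂ) - 1) * h

lemma denom_Umat_rho_sq : ((ρ : ℂ) + 1) ^ 2 = ρ := by
  have h := ρ_sq
  linear_combination h

end core

end Eig

section main

variable {X : Type} [Fintype X] [DecidableEq X] [MulAction SL(2, ℤ) X]

set_option linter.unusedSectionVars false in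
/-- CORE-f -/
theorem linearIndependent_of_det (Φ : X → X → ℍ → ℂ) (z : ℍ) (hdet : detFn Φ z ≠ 0) :
    LinearIndependent ℂ Φ := by
  let L : (X → ℍ → ℂ) →ₗ[ℂ] (X → ℂ) :=
    { toFun := fun F x => F x z
      map_add' := fun _ _ => rfl
      map_smul' := fun _ _ => rfl }
  exact LinearIndependent.of_comp L (linearIndependent_eval Φ z hdet)

set_option linter.unusedVariables false in
/-- CORE-d1 -/
theorem card_four_dvd_le (hneg : ∀ x : X, (-1 : SL(2, ℤ)) • x = x)
    (k : X → ℤ) (Φ : X → X → ℍ → ℂ) (hΦ : ∀ i, IsVM X (k i) (Φ i))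
    (hdet : ∀ z, detFn Φ z ≠ 0) :
    (Finset.univ.filter fun i => (4 : ℤ) ∣ k i).card ≤ orbCount X S := by
  rw [← finrank_eigenspace_one S]
  refine (card_le_finrank_eigenspace k Φ hΦ S I eig_S_smul_I (hdet I) 1 _ fun i hi => ?_).1
  obtain ⟨m, hm⟩ := (Finset.mem_filter.mp hi).2
  rw [denom_S, hm, zpow_neg, zpow_mul]
  have : ((I : ℍ) : ℂ) ^ (4 : ℤ) = 1 := by
    rw [coe_I]
    exact_mod_cast Complex.I_pow_four
  rw [this, one_zpow, inv_one]

set_option linter.unusedVariables false in
/-- CORE-d2 -/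
theorem card_six_le (hneg : ∀ x : X, (-1 : SL(2, ℤ)) • x = x)
    (k : X → ℤ) (Φ : X → X → ℍ → ℂ) (hΦ : ∀ i, IsVM X (k i) (Φ i))
    (hdet : ∀ z, detFn Φ z ≠ 0) :
    2 * (2 * (Finset.univ.filter fun i => (6 : ℤ) ∣ k i).card
      + (Finset.univ.filter fun i => k i % 6 = 4).card) ≤ Fintype.card X + 3 * orbCount X Umat := by
  have hw6 : ((ρ : ℂ) + 1) ^ (6 : ℤ) = 1 := by
    have : ((ρ : ℂ) + 1) ^ 6 = 1 := by
      rw [show (6 : ℕ) = 2 * 3 by norm_num, pow_mul, denom_Umat_rho_sq, rho_cube]
    exact_mod_cast this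
  have hw0 : (ρ : ℂ) + 1 ≠ 0 := by
    intro h
    rw [h] at hw6
    norm_num at hw6
  have h0 := (card_le_finrank_eigenspace k Φ hΦ Umat ρ Umat_smul_rho (hdet ρ) 1
    (Finset.univ.filter fun i => (6 : ℤ) ∣ k i) fun i hi => by
      obtain ⟨m, hm⟩ := (Finset.mem_filter.mp hi).2
      rw [denom_Umat_rho, hm, zpow_neg, zpow_mul, hw6, one_zpow, inv_one]).1
  have h4 := card_le_finrank_eigenspace k Φ hΦ Umat ρ Umat_smul_rho (hdet ρ) (ρ : ℂ)
    (Finset.univ.filter fun i => k i % 6 = 4) fun i hi => by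
      have hm : k i = 6 * (k i / 6) + 4 := by
        have := (Finset.mem_filter.mp hi).2
        omega
      rw [denom_Umat_rho, hm, zpow_neg, zpow_add₀ hw0, zpow_mul, hw6, one_zpow, one_mul]
      have h4' : ((ρ : ℂ) + 1) ^ (4 : ℤ) = (ρ : ℂ) ^ 2 := by
        have : ((ρ : ℂ) + 1) ^ 4 = (ρ : ℂ) ^ 2 := by
          rw [show (4 : ℕ) = 2 * 2 by norm_num, pow_mul, denom_Umat_rho_sq]
        exact_mod_cast this
      rw [h4']
      apply inv_eq_of_mul_eq_one_left
      rw [← rho_cube]
      ring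
  have him : ((ρ : ℍ) : ℂ).im ≠ 0 := by
    rw [coe_im]
    exact (ρ : ℍ).im_pos.ne'
  have h1ρ : (1 : ℂ) ≠ (ρ : ℂ) := by
    intro h
    apply him
    rw [← h]
    simp
  have h1ρ' : (1 : ℂ) ≠ (starRingEnd ℂ) (ρ : ℂ) := by
    intro h
    apply him
    have := congrArg Complex.im h
    simpa using this.symm
  have hρρ' : (ρ : ℂ) ≠ (starRingEnd ℂ) (ρ : ℂ) := by
    intro h
    apply him
    have := congrArg Complex.im h
    simp only [Complex.conj_im] at this
    linarith
  have h3 := finrank_three_eigenspaces (permOp X Umat) h1ρ h1ρ' hρρ'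
  rw [finrank_eigenspace_one, Module.finrank_fintype_fun_eq_card] at h3
  rw [finrank_eigenspace_one] at h0
  have h41 := h4.1
  have h42 := h4.2
  omega

end main

end Fermat.Agent.S20
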