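import Fermat.Agent.S20.Basic
import Fermat.Agent.S20.Eig
import Fermat.Prelude.Thm_ModularForm_sturm_bound_Gamma0
import Fermat.Prelude.Thm_CongruenceSubgroup_one_mem_strictPeriods_Gamma0

set_option autoImplicit false

namespace Fermat.Agent.S20

open UpperHalfPlane ModularForm MatrixGroups ModularGroup CongruenceSubgroup Filter Topology
open scoped Manifold

instance instFiniteCos (N : ℕ) [NeZero N] : Finite (Cos N) := Subgroup.finite_quotient_of_finiteIndex

theorem neg_one_smul_cos (N : ℕ) (x : Cos N) : (-1 : SL(2, ℤ)) • x = x := by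
  induction x using QuotientGroup.induction_on with
  | H g =>
    rw [MulAction.Quotient.smul_mk, QuotientGroup.eq]
    have : ((-1 : SL(2, ℤ)) • g)⁻¹ * g = -1 := by
      simp
    rw [this, Gamma0_mem]
    simp

namespace Bridge

section periodic

variable {X : Type} [MulAction SL(2, ℤ) X]

theorem exists_T_pow_smul [Finite X] : ∃ n : ℕ, 0 < n ∧ ∀ x : X, (T ^ n) • x = x := by
  classical
  let σ : Equiv.Perm X := MulAction.toPermHom SL(2, ℤ) X T
  refine ⟨orderOf σ, orderOf_pos σ, fun x => ?_⟩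
  have h : (MulAction.toPermHom SL(2, ℤ) X (T ^ orderOf σ)) = 1 := by
    rw [map_pow]; exact pow_orderOf_eq_one σ
  have := congrArg (fun e : Equiv.Perm X => e x) h
  simpa using this

theorem slash_T_pow_apply (f : ℍ → ℂ) (k : ℤ) (n : ℕ) (z : ℍ) :
    (f ∣[k] (T ^ n : SL(2, ℤ))) z = f ((n : ℝ) +ᵥ z) := by
  have h1 : (T ^ n : SL(2, ℤ)) = T ^ (n : ℤ) := (zpow_natCast T n).symm
  have : denom ((T ^ (n : ℤ) : SL(2, ℤ)) : GL (Fin 2) ℝ) z = 1 := by
    rw [ModularGroup.denom_apply, coe_T_zpow]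
    simp
  rw [h1, SL_slash_apply, modular_T_zpow_smul, this]
  simp

theorem vm_vadd_apply {k : ℤ} {Φ : X → ℍ → ℂ} (h : IsVM X k Φ) (n : ℕ) (x : X) (z : ℍ) :
    Φ x ((n : ℝ) +ᵥ z) = Φ ((T ^ n)⁻¹ • x) z := by
  rw [← slash_T_pow_apply (Φ x) k n z, h.equiv]

theorem vm_periodic {k : ℤ} {Φ : X → ℍ → ℂ} (h : IsVM X k Φ) {n : ℕ}
    (hn : ∀ x : X, (T ^ n) • x = x) (x : X) :
    Function.Periodic (Φ x ∘ ofComplex) (n : ℝ) := by
  intro w
  by_cases hw : 0 < w.im
  · have hw' : 0 < (w + (n : ℝ)).im := by simpa using hw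
    simp only [Function.comp_apply, ofComplex_apply_of_im_pos hw', ofComplex_apply_of_im_pos hw]
    have h1 := vm_vadd_apply h n x ⟨w, hw⟩
    have h2 : (T ^ n)⁻¹ • x = x := by
      rw [inv_smul_eq_iff, hn]
    rw [h2] at h1
    rw [← h1]
    congr 1
    ext
    simp [add_comm]
  · have hw1 : w.im ≤ 0 := not_lt.mp hw
    have hw' : (w + (n : ℝ)).im ≤ 0 := by simpa using hw1
    rw [Function.comp_apply, Function.comp_apply, ofComplex_apply_of_im_nonpos hw',
      ofComplex_apply_of_im_nonpos hw1]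

theorem vm_tendsto [Finite X] {k : ℤ} {Φ : X → ℍ → ℂ} (h : IsVM X k Φ) (x : X) :
    Tendsto (Φ x) atImInfty (𝓝 (valueAtInfty (Φ x))) := by
  obtain ⟨n, hn0, hn⟩ := exists_T_pow_smul (X := X)
  have hh : (0 : ℝ) < n := by exact_mod_cast hn0
  have hper := vm_periodic h hn x
  have han := analyticAt_cuspFunction_zero hh hper (h.holo x) (h.bdd x)
  have h0 := cuspFunction_apply_zero hh han hper
  have : (cuspFunction (n : ℝ) (Φ x) ∘ fun τ : ℍ ↦ Function.Periodic.qParam (n : ℝ) τ) = Φ x := by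
    funext τ
    simpa using eq_cuspFunction τ hh.ne' hper
  rw [← h0]
  simpa [this] using han.continuousAt.tendsto.comp (qParam_tendsto_atImInfty hh)

end periodic

section limits

variable {X : Type} [MulAction SL(2, ℤ) X]

theorem tendsto_vadd_atImInfty (a : ℝ) :
    Tendsto (fun z : ℍ => a +ᵥ z) atImInfty atImInfty := by
  rw [atImInfty, tendsto_comap_iff]
  have : (im ∘ fun z : ℍ => a +ᵥ z) = im := by funext z; simp
  rw [this]; exact tendsto_comap

theorem vm_value_T_inv [Finite X] {k : ℤ} {Φ : X → ℍ → ℂ} (h : IsVM X k Φ) (x : X) :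
    valueAtInfty (Φ (T⁻¹ • x)) = valueAtInfty (Φ x) := by
  have h1 := (vm_tendsto h x).comp (tendsto_vadd_atImInfty 1)
  have h2 : (Φ x ∘ fun z : ℍ => (1 : ℝ) +ᵥ z) = Φ (T⁻¹ • x) := by
    funext z
    have := vm_vadd_apply h 1 x z
    simpa using this
  rw [h2] at h1
  exact tendsto_nhds_unique (vm_tendsto h _) h1

theorem vm_sum_slash [Fintype X] {k : ℤ} {Φ : X → ℍ → ℂ} (h : IsVM X k Φ) (γ : SL(2, ℤ)) :
    (∑ x, Φ x) ∣[k] γ = ∑ x, Φ x := by
  rw [SlashAction.sum_slash]
  simp_rw [h.equiv]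
  exact Equiv.sum_comp (MulAction.toPerm γ⁻¹) Φ

theorem vm_sum_eq_zero [Fintype X] {Φ : X → ℍ → ℂ} (h : IsVM X 2 Φ) (z : ℍ) :
    ∑ x, Φ x z = 0 := by
  have hb : IsBoundedAtImInfty (∑ x, Φ x) := by
    rw [IsBoundedAtImInfty, Filter.BoundedAtFilter, Finset.sum_fn]
    exact Asymptotics.IsBigO.fun_sum fun x _ => h.bdd x
  let F : ModularForm 𝒮ℒ 2 :=
    { toFun := ∑ x, Φ x
      slash_action_eq' := by
        rintro _ ⟨g, rfl⟩
        exact vm_sum_slash h g
      holo' := .sum fun x _ => h.holo x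
      bdd_at_cusps' := by
        intro c hc
        rw [OnePoint.isBoundedAt_iff_forall_SL2Z hc]
        intro γ _
        rw [vm_sum_slash h γ]
        exact hb }
  have hF : F = 0 := by
    have h0 := levelOne_weight_two_rank_zero
    rw [rank_zero_iff] at h0
    exact Subsingleton.elim _ _
  have h1 : F z = 0 := by rw [hF]; rfl
  have h2 : F z = (∑ x, Φ x) z := rfl
  rw [h2, Finset.sum_apply] at h1
  exact h1

theorem vm_sum_value_eq_zero [Fintype X] {Φ : X → ℍ → ℂ} (h : IsVM X 2 Φ) :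
    ∑ x, valueAtInfty (Φ x) = 0 := by
  have h1 : Tendsto (fun z => ∑ x, Φ x z) atImInfty (𝓝 (∑ x, valueAtInfty (Φ x))) :=
    tendsto_finsetSum _ fun x _ => vm_tendsto h x
  simp_rw [vm_sum_eq_zero h] at h1
  exact tendsto_nhds_unique h1 tendsto_const_nhds

end limits

section linear

variable (X : Type) [MulAction SL(2, ℤ) X]

/-- The space of vector valued forms. -/
def vmSub (k : ℤ) : Submodule ℂ (X → ℍ → ℂ) where
  carrier := {Φ | IsVM X k Φ}
  add_mem' := fun ha hb => ha.add hb
  zero_mem' := IsVM.zero k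
  smul_mem' := fun c _ ha => ha.smul c

/-- The constant terms. -/
noncomputable def cst [Finite X] (k : ℤ) : vmSub X k →ₗ[ℂ] (X → ℂ) where
  toFun Φ x := valueAtInfty (Φ.1 x)
  map_add' Φ Ψ := by
    funext x
    exact tendsto_nhds_unique (vm_tendsto (Φ + Ψ).2 x)
      ((vm_tendsto Φ.2 x).add (vm_tendsto Ψ.2 x))
  map_smul' c Φ := by
    funext x
    exact tendsto_nhds_unique (vm_tendsto (c • Φ).2 x) ((vm_tendsto Φ.2 x).const_smul c)

end linear

section cusp

variable (N : ℕ)

/-- The base coset. -/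
def base : Cos N := QuotientGroup.mk 1

theorem smul_base {g : SL(2, ℤ)} (hg : g ∈ Gamma0 N) : g • base N = base N := by
  rw [base, MulAction.Quotient.smul_mk, QuotientGroup.eq]
  simpa using (Gamma0 N).inv_mem hg

theorem exists_smul_base (x : Cos N) : ∃ g : SL(2, ℤ), g • base N = x := by
  induction x using QuotientGroup.induction_on with
  | H g => exact ⟨g, by rw [base, MulAction.Quotient.smul_mk]; simp⟩

variable {N}

theorem eq_of_base {k : ℤ} {Φ Ψ : Cos N → ℍ → ℂ} (h : IsVM (Cos N) k Φ) (h' : IsVM (Cos N) k Ψ)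
    (h0 : Φ (base N) = Ψ (base N)) : Φ = Ψ := by
  funext x
  obtain ⟨g, rfl⟩ := exists_smul_base N x
  have h1 := h.equiv g⁻¹ (base N)
  have h2 := h'.equiv g⁻¹ (base N)
  rw [inv_inv] at h1 h2
  rw [← h1, ← h2, h0]

/-- A vector valued form vanishing at infinity in all components gives a cusp form. -/
noncomputable def toCusp [NeZero N] (Φ : Cos N → ℍ → ℂ) (h : IsVM (Cos N) 2 Φ)
    (h0 : ∀ x, valueAtInfty (Φ x) = 0) : CuspForm (Gamma0 N) 2 where
  toFun := Φ (base N)
  slash_action_eq' := by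
    rintro _ ⟨g, hg, rfl⟩
    have h1 : g⁻¹ • base N = base N := smul_base N ((Gamma0 N).inv_mem hg)
    have h2 := h.equiv g (base N)
    rw [h1] at h2
    exact h2
  holo' := h.holo _
  zero_at_cusps' := by
    intro c hc
    have hc' : IsCusp c 𝒮ℒ := hc.mono (by
      rintro _ ⟨γ, -, rfl⟩
      exact ⟨γ, rfl⟩)
    rw [OnePoint.isZeroAt_iff_forall_SL2Z hc']
    intro γ _
    have h2 := h.equiv γ (base N)
    show IsZeroAtImInfty (Φ (base N) ∣[(2 : ℤ)] γ)
    rw [h2]
    have h3 := vm_tendsto h (γ⁻¹ • base N)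
    rw [h0] at h3
    exact h3

end cusp

section findim

variable (N : ℕ) [NeZero N]

/-- The first `q`-expansion coefficients. -/
noncomputable def coeffMap (B : ℕ) : CuspForm (Gamma0 N) 2 →ₗ[ℂ] (Fin (B + 1) → ℂ) where
  toFun f n := (qExpansion 1 f).coeff n
  map_add' f g := by
    funext n
    have := ModularForm.qExpansion_add one_pos (one_mem_strictPeriods_Gamma0 N) f g
    show (qExpansion 1 (⇑f + ⇑g)).coeff n = _
    rw [this]
    rfl
  map_smul' c f := by
    funext n
    have := ModularForm.qExpansion_smul one_pos (one_mem_strictPeriods_Gamma0 N) c f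
    show (qExpansion 1 (c • ⇑f)).coeff n = _
    rw [this]
    rfl

theorem coeffMap_injective :
    Function.Injective (coeffMap N (((2 : ℤ) * (Gamma0 N).index).toNat / 12)) := by
  rw [← LinearMap.ker_eq_bot, LinearMap.ker_eq_bot']
  intro f hf
  have hF : (ModularFormClass.modularForm f : ModularForm (Gamma0 N) 2) = 0 := by
    apply ModularForm.sturm_bound_Gamma0 N
    intro n hn
    exact congrFun hf ⟨n, Nat.lt_succ_of_le hn⟩
  ext z
  have := congrArg (fun g : ModularForm (Gamma0 N) 2 => g z) hF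
  simpa using this

theorem finiteDimensional_cuspForm : FiniteDimensional ℂ (CuspForm (Gamma0 N) 2) :=
  FiniteDimensional.of_injective _ (coeffMap_injective N)

end findim

section ker

variable (N : ℕ) [NeZero N]

/-- The kernel of the constant term map consists of cusp forms. -/
noncomputable def kerToCusp : LinearMap.ker (cst (Cos N) 2) →ₗ[ℂ] CuspForm (Gamma0 N) 2 where
  toFun Φ := toCusp Φ.1.1 Φ.1.2 (fun x => congrFun (LinearMap.mem_ker.mp Φ.2) x)
  map_add' Φ Ψ := by ext z; rfl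
  map_smul' c Φ := by ext z; rfl

theorem kerToCusp_injective : Function.Injective (kerToCusp N) := by
  intro Φ Ψ hΦ
  apply Subtype.ext
  apply Subtype.ext
  apply eq_of_base Φ.1.2 Ψ.1.2
  funext z
  exact congrArg (fun g : CuspForm (Gamma0 N) 2 => g z) hΦ

end ker

section count

variable (X : Type) [MulAction SL(2, ℤ) X]

/-- The `T`-invariant vectors. -/
def invSub : Submodule ℂ (X → ℂ) :=
  { carrier := {v : X → ℂ | ∀ x, v (T⁻¹ • x) = v x}
    add_mem' := fun {a b} ha hb x => by simp [ha x, hb x]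
    zero_mem' := fun x => rfl
    smul_mem' := fun c a ha x => by simp [ha x] }

/-- The `T`-invariant vectors of sum zero. -/
def invSub0 [Fintype X] : Submodule ℂ (X → ℂ) :=
  { carrier := {v : X → ℂ | (∀ x, v (T⁻¹ • x) = v x) ∧ ∑ x, v x = 0}
    add_mem' := fun {a b} ha hb =>
      ⟨fun x => by simp [ha.1 x, hb.1 x], by simp [Finset.sum_add_distrib, ha.2, hb.2]⟩
    zero_mem' := ⟨fun x => rfl, by simp⟩
    smul_mem' := fun c a ha => ⟨fun x => by simp [ha.1 x], by simp [← Finset.mul_sum, ha.2]⟩ }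

theorem finrank_invSub0_lt [Fintype X] [Nonempty X] :
    Module.finrank ℂ (invSub0 X) < orbCount X T := by
  have h1 : Module.finrank ℂ (invSub X) = orbCount X T := finrank_invariants T
  rw [← h1]
  apply Submodule.finrank_lt_finrank_of_lt
  refine lt_of_le_of_ne (fun v hv => hv.1) ?_
  intro h
  have h2 : (fun _ => 1 : X → ℂ) ∈ invSub X := fun x => rfl
  rw [← h] at h2
  have h3 := h2.2
  simp at h3

end count

end Bridge

open Bridge in
theorem bridge_cusp (N : ℕ) [NeZero N] {ι : Type} [Fintype ι] (Φ : ι → Cos N → ℍ → ℂ)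
    (h : ∀ i, IsVM (Cos N) 2 (Φ i)) (hli : LinearIndependent ℂ Φ) :
    Fintype.card ι + 1 ≤ Module.finrank ℂ (CuspForm (Gamma0 N) 2) + orbCount (Cos N) T := by
  classical
  have : Fintype (Cos N) := Fintype.ofFinite _
  have : Nonempty (Cos N) := ⟨base N⟩
  have := finiteDimensional_cuspForm N
  let S : Submodule ℂ (Cos N → ℍ → ℂ) := Submodule.span ℂ (Set.range Φ)
  have hS : Module.finrank ℂ S = Fintype.card ι := finrank_span_eq_card hli
  have : FiniteDimensional ℂ S := FiniteDimensional.span_of_finite ℂ (Set.finite_range Φ)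
  have hle : S ≤ vmSub (Cos N) 2 := by
    rw [Submodule.span_le]
    rintro _ ⟨i, rfl⟩
    exact h i
  let f : S →ₗ[ℂ] (Cos N → ℂ) := (cst (Cos N) 2) ∘ₗ Submodule.inclusion hle
  have h1 := LinearMap.finrank_range_add_finrank_ker f
  have h2 : Module.finrank ℂ (LinearMap.range f) ≤ Module.finrank ℂ (invSub0 (Cos N)) := by
    apply Submodule.finrank_mono
    rintro _ ⟨s, rfl⟩
    exact ⟨fun x => vm_value_T_inv (hle s.2) x, vm_sum_value_eq_zero (hle s.2)⟩
  have h3 : Module.finrank ℂ (LinearMap.ker f) ≤ Module.finrank ℂ (CuspForm (Gamma0 N) 2) := by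
    let g : LinearMap.ker f →ₗ[ℂ] LinearMap.ker (cst (Cos N) 2) :=
      (Submodule.inclusion hle ∘ₗ (LinearMap.ker f).subtype).codRestrict _ (fun s => s.2)
    have hg : Function.Injective g := by
      intro a b hab
      apply Subtype.ext
      apply Subtype.ext
      exact congrArg (fun t : LinearMap.ker (cst (Cos N) 2) => t.1.1) hab
    exact LinearMap.finrank_le_finrank_of_injective
      (f := (kerToCusp N) ∘ₗ g) ((kerToCusp_injective N).comp hg)
  have h4 := finrank_invSub0_lt (Cos N)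
  omega

end Fermat.Agent.S20
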