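import Fermat.Agent.S20.Defs
import Fermat.Agent.S20.InitStab

/-!
BR2: an initial family of vector valued forms on `Cos N` with nonvanishing determinant
(Vandermonde in the powers of the conjugates of `Δ(Nτ)`).
-/

set_option autoImplicit false

namespace Fermat.Agent.S20

open UpperHalfPlane ModularForm MatrixGroups ModularGroup CongruenceSubgroup
open scoped Manifold

namespace Init

/-- The conjugates of `N¹¹ Δ(Nτ)`, indexed by cosets. -/
noncomputable def conj (N : ℕ) [NeZero N] (x : Cos N) : ℍ → ℂ :=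
  ⇑(InitStab.levelRaise N) ∣[(12 : ℤ)] (x.out)⁻¹

theorem slash_of_mem (N : ℕ) [NeZero N] {h : SL(2, ℤ)} (hh : h ∈ Gamma0 N) :
    ⇑(InitStab.levelRaise N) ∣[(12 : ℤ)] h = ⇑(InitStab.levelRaise N) :=
  SlashInvariantFormClass.slash_action_eq (InitStab.levelRaise N) _ ⟨h, hh, rfl⟩

theorem conj_mk (N : ℕ) [NeZero N] (g : SL(2, ℤ)) :
    conj N (QuotientGroup.mk g : Cos N) = ⇑(InitStab.levelRaise N) ∣[(12 : ℤ)] g⁻¹ := by
  obtain ⟨h, hh⟩ := QuotientGroup.mk_out_eq_mul (Gamma0 N) g
  unfold conj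
  rw [hh, mul_inv_rev, SlashAction.slash_mul, slash_of_mem N (inv_mem h.2)]

theorem conj_slash (N : ℕ) [NeZero N] (γ : SL(2, ℤ)) (x : Cos N) :
    conj N x ∣[(12 : ℤ)] γ = conj N (γ⁻¹ • x) := by
  induction x using QuotientGroup.induction_on with
  | H g =>
    rw [show γ⁻¹ • (QuotientGroup.mk g : Cos N) = QuotientGroup.mk (γ⁻¹ * g) from rfl,
      conj_mk, conj_mk, ← SlashAction.slash_mul, mul_inv_rev, inv_inv]

theorem conj_injective (N : ℕ) [NeZero N] : Function.Injective (conj N) := by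
  intro x y hxy
  induction x using QuotientGroup.induction_on with
  | H g =>
  induction y using QuotientGroup.induction_on with
  | H g' =>
    rw [conj_mk, conj_mk] at hxy
    have h1 := congrArg (fun F : ℍ → ℂ => F ∣[(12 : ℤ)] g') hxy
    simp only [← SlashAction.slash_mul, inv_mul_cancel, SlashAction.slash_one] at h1
    exact QuotientGroup.eq.mpr (InitStab.mem_Gamma0_of_slash_eq N _ h1)

theorem conj_holo (N : ℕ) [NeZero N] (x : Cos N) : MDiff (conj N x) :=
  (ModularFormClass.holo (InitStab.levelRaise N)).slash _ _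

theorem conj_bdd (N : ℕ) [NeZero N] (x : Cos N) : IsBoundedAtImInfty (conj N x) :=
  ModularFormClass.bdd_at_infty_slash (InitStab.levelRaise N) _

theorem isVM_pow (N : ℕ) [NeZero N] (m : ℕ) :
    IsVM (Cos N) (12 * (m : ℤ)) (fun x => conj N x ^ m) where
  equiv γ x := by
    ext z
    have h := congrFun (conj_slash N γ x) z
    rw [ModularForm.SL_slash_apply] at h
    rw [ModularForm.SL_slash_apply, Pi.pow_apply, Pi.pow_apply, ← h, mul_pow, ← zpow_natCast,
      ← zpow_natCast, ← zpow_mul, neg_mul]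
  holo x := (conj_holo N x).pow m
  bdd x := by
    induction m with
    | zero =>
      rw [pow_zero]
      exact Filter.const_boundedAtFilter _ (1 : ℂ)
    | succ m ih => rw [pow_succ]; exact ih.mul (conj_bdd N x)

theorem exists_injective (N : ℕ) [NeZero N] [Fintype (Cos N)] [DecidableEq (Cos N)] :
    ∃ z : ℍ, Function.Injective (fun x : Cos N => conj N x z) := by
  have h : ∏ p ∈ (Finset.univ : Finset (Cos N)).offDiag, (conj N p.1 - conj N p.2) ≠ 0 := by
    rw [Ne, UpperHalfPlane.prod_eq_zero_iff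
      (fun p _ => (conj_holo N p.1).sub (conj_holo N p.2))]
    rintro ⟨p, hp, h0⟩
    exact (Finset.mem_offDiag.mp hp).2.2 (conj_injective N (sub_eq_zero.mp h0))
  obtain ⟨z, hz⟩ := Function.ne_iff.mp h
  refine ⟨z, fun x y hxy => ?_⟩
  by_contra hne
  apply hz
  rw [Finset.prod_apply]
  exact Finset.prod_eq_zero (i := (x, y)) (by simp [hne]) (by simpa [sub_eq_zero] using hxy)

end Init

theorem exists_init (N : ℕ) [NeZero N] [Fintype (Cos N)] [DecidableEq (Cos N)] :
    ∃ (k : Cos N → ℤ) (Φ : Cos N → Cos N → ℍ → ℂ),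
      (∀ i, IsVM (Cos N) (k i) (Φ i)) ∧ ∃ z, detFn Φ z ≠ 0 := by
  set e := Fintype.equivFin (Cos N) with he
  refine ⟨fun i => 12 * ((e i : ℕ) : ℤ), fun i x => Init.conj N x ^ (e i : ℕ),
    fun i => Init.isVM_pow N _, ?_⟩
  obtain ⟨z, hz⟩ := Init.exists_injective N
  refine ⟨z, ?_⟩
  have h1 : (Matrix.of fun i x : Cos N => (Init.conj N x ^ (e i : ℕ)) z) =
      ((Matrix.vandermonde (fun j => Init.conj N (e.symm j) z)).transpose).submatrix e e := by
    ext i x
    simp [Matrix.vandermonde_apply]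
  unfold detFn
  rw [h1, Matrix.det_submatrix_equiv_self, Matrix.det_transpose,
    Matrix.det_vandermonde_ne_zero_iff]
  exact hz.comp e.symm.injective

end Fermat.Agent.S20
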