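import Fermat.Agent.S20.Core
import Fermat.Agent.S20.Bridge
import Fermat.Agent.S20.Init
import Fermat.Agent.S21.Defs

set_option autoImplicit false

namespace Fermat.Agent.S20

open UpperHalfPlane ModularForm MatrixGroups ModularGroup CongruenceSubgroup

/-- The lower bound `2 g ≤ 2 dim S₂(Γ₀(N))` in orbit count form. -/
theorem lower (N : ℕ) [NeZero N] :
    2 + Nat.card (Cos N) ≤ 2 * Module.finrank ℂ (CuspForm (Gamma0 N) 2) + orbCount (Cos N) S
      + orbCount (Cos N) Umat + orbCount (Cos N) T := by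
  classical
  have : Finite (Cos N) := Subgroup.finite_quotient_of_finiteIndex
  have : Fintype (Cos N) := Fintype.ofFinite _
  obtain ⟨s, Φ, h1, h2, h3⟩ := core_lower (X := Cos N) (neg_one_smul_cos N) (exists_init N)
  have h4 := bridge_cusp N (fun i : s => Φ i) (fun i => h1 i i.2) h2
  rw [Fintype.card_coe] at h4
  rw [Nat.card_eq_fintype_card]
  omega

/-- The same statement in the form used by `S21`. -/
theorem twoGenus_le (N : ℕ) [NeZero N] :
    Fermat.Agent.S21.twoGenus N ≤ 2 * (Module.finrank ℂ (CuspForm (Gamma0 N) 2) : ℤ) := by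
  have h := lower N
  have e1 : Fermat.Agent.S21.orbitCount N S = orbCount (Cos N) S := rfl
  have e2 : Fermat.Agent.S21.orbitCount N (S * T) = orbCount (Cos N) Umat := rfl
  have e3 : Fermat.Agent.S21.orbitCount N T = orbCount (Cos N) T := rfl
  have e4 : Nat.card (SL(2, ℤ) ⧸ Gamma0 N) = Nat.card (Cos N) := rfl
  unfold Fermat.Agent.S21.twoGenus
  rw [e1, e2, e3, e4]
  zify at h
  linarith

end Fermat.Agent.S20
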