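import Fermat.Agent.S20.Defs

set_option autoImplicit false

namespace Fermat.Agent.S20

open UpperHalfPlane ModularForm MatrixGroups ModularGroup
open scoped Manifold

variable {X : Type} [MulAction SL(2, ℤ) X]

lemma IsL1.slash {k : ℤ} {φ : ℍ → ℂ} (h : IsL1 k φ) (γ : SL(2, ℤ)) : φ ∣[k] γ = φ := by
  obtain ⟨f, rfl⟩ := h
  exact SlashInvariantForm.slash_action_eqn f _ ⟨γ, rfl⟩

lemma IsL1.holo {k : ℤ} {φ : ℍ → ℂ} (h : IsL1 k φ) : MDiff φ := by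
  obtain ⟨f, rfl⟩ := h
  exact f.holo'

lemma IsL1.bdd {k : ℤ} {φ : ℍ → ℂ} (h : IsL1 k φ) : IsBoundedAtImInfty φ := by
  obtain ⟨f, rfl⟩ := h
  exact ModularFormClass.bdd_at_infty f

lemma IsL1.mul {k l : ℤ} {φ ψ : ℍ → ℂ} (h : IsL1 k φ) (h' : IsL1 l ψ) :
    IsL1 (k + l) (fun z => φ z * ψ z) := by
  obtain ⟨f, rfl⟩ := h
  obtain ⟨g, rfl⟩ := h'
  exact ⟨f.mul g, rfl⟩

lemma IsL1.pow {k : ℤ} {φ : ℍ → ℂ} (h : IsL1 k φ) (n : ℕ) :
    IsL1 (n * k) (fun z => φ z ^ n) := by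
  obtain ⟨f, rfl⟩ := h
  refine ⟨ModularForm.mcast (by simp) (f.pow n), ?_⟩
  ext z
  simp [ModularForm.coe_pow]

lemma IsL1.smul {k : ℤ} {φ : ℍ → ℂ} (h : IsL1 k φ) (c : ℂ) : IsL1 k (fun z => c * φ z) := by
  obtain ⟨f, rfl⟩ := h
  exact ⟨c • f, rfl⟩

lemma IsL1.congr_wt {k l : ℤ} {φ : ℍ → ℂ} (h : IsL1 k φ) (e : k = l) : IsL1 l φ := e ▸ h

lemma isL1_E4 : IsL1 4 E₄ := ⟨E₄, rfl⟩
lemma isL1_E6 : IsL1 6 E₆ := ⟨E₆, rfl⟩
lemma isL1_disc : IsL1 12 ModularForm.discriminant := ⟨CuspForm.discriminant, rfl⟩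

namespace IsVM

lemma congr_wt {k l : ℤ} {Φ : X → ℍ → ℂ} (h : IsVM X k Φ) (e : k = l) : IsVM X l Φ := e ▸ h

lemma zero (k : ℤ) : IsVM X k (fun _ _ => 0) where
  equiv γ x := by
    show (0 : ℍ → ℂ) ∣[k] γ = 0
    exact SlashAction.zero_slash _ _
  holo x := mdifferentiable_const
  bdd x := by
    show IsBoundedAtImInfty (0 : ℍ → ℂ)
    exact (Filter.zero_zeroAtFilter _).boundedAtFilter

lemma add {k : ℤ} {Φ Ψ : X → ℍ → ℂ} (h : IsVM X k Φ) (h' : IsVM X k Ψ) :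
    IsVM X k (fun x z => Φ x z + Ψ x z) where
  equiv γ x := by
    show (Φ x + Ψ x) ∣[k] γ = Φ (γ⁻¹ • x) + Ψ (γ⁻¹ • x)
    rw [SlashAction.add_slash, h.equiv, h'.equiv]
  holo x := (h.holo x).add (h'.holo x)
  bdd x := (h.bdd x).add (h'.bdd x)

lemma smul {k : ℤ} {Φ : X → ℍ → ℂ} (h : IsVM X k Φ) (c : ℂ) :
    IsVM X k (fun x z => c * Φ x z) where
  equiv γ x := by
    show (c • Φ x) ∣[k] γ = c • Φ (γ⁻¹ • x)
    rw [SL_smul_slash, h.equiv]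
  holo x := mdifferentiable_const.mul (h.holo x)
  bdd x := by
    have := (h.bdd x).const_smul_left c
    exact this

lemma sum {ι : Type} (s : Finset ι) {k : ℤ} {Φ : ι → X → ℍ → ℂ} (h : ∀ i ∈ s, IsVM X k (Φ i)) :
    IsVM X k (fun x z => ∑ i ∈ s, Φ i x z) := by
  classical
  induction s using Finset.induction_on with
  | empty => simpa using zero k
  | insert a s ha ih =>
    simp only [Finset.sum_insert ha]
    exact (h a (Finset.mem_insert_self a s)).add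
      (ih fun i hi => h i (Finset.mem_insert_of_mem hi))

lemma mul_L1 {n k : ℤ} {φ : ℍ → ℂ} {Φ : X → ℍ → ℂ} (hφ : IsL1 n φ) (h : IsVM X k Φ) :
    IsVM X (n + k) (fun x z => φ z * Φ x z) where
  equiv γ x := by
    show (φ * Φ x) ∣[n + k] γ = φ * Φ (γ⁻¹ • x)
    rw [mul_slash_SL2, hφ.slash, h.equiv]
  holo x := hφ.holo.mul (h.holo x)
  bdd x := hφ.bdd.mul (h.bdd x)

lemma apply_smul {k : ℤ} {Φ : X → ℍ → ℂ} (h : IsVM X k Φ) (γ : SL(2, ℤ)) (x : X) (z : ℍ) :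
    Φ x (γ • z) = denom γ z ^ k * Φ (γ⁻¹ • x) z := by
  have := congrFun (h.equiv γ x) z
  rw [SL_slash_apply] at this
  rw [← this, zpow_neg, mul_comm, mul_assoc, inv_mul_cancel₀ (zpow_ne_zero k (denom_ne_zero γ z)),
    mul_one]

lemma vanish_orbit {k : ℤ} {Φ : X → ℍ → ℂ} (h : IsVM X k Φ) {z : ℍ} (hz : ∀ x, Φ x z = 0)
    (γ : SL(2, ℤ)) (x : X) : Φ x (γ • z) = 0 := by
  rw [h.apply_smul, hz, mul_zero]

end IsVM

end Fermat.Agent.S20
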