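import Fermat.Agent.S20.Defs

set_option autoImplicit false
set_option linter.unusedSectionVars false

namespace Fermat.Agent.S20

open UpperHalfPlane ModularForm MatrixGroups ModularGroup

section abstractDFT

variable {𝔄 : Type*} [Ring 𝔄] [Algebra ℂ 𝔄]

/-- The spectral projector of `R` (with `R ^ n = 1`) for the eigenvalue `ζ ^ m`. -/
noncomputable def dftProj (n : ℕ) (ζ : ℂ) (R : 𝔄) (m : ℕ) : 𝔄 :=
  (n : ℂ)⁻¹ • ∑ a ∈ Finset.range n, (ζ⁻¹) ^ (a * m) • R ^ a

lemma sum_range_shift {V : Type*} [AddCommGroup V] (n : ℕ) (f : ℕ → V) (h : f n = f 0) :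
    ∑ a ∈ Finset.range n, f (a + 1) = ∑ a ∈ Finset.range n, f a := by
  have h1 := Finset.sum_range_succ' f n
  have h2 := Finset.sum_range_succ f n
  rw [h1, h] at h2
  exact add_right_cancel h2

lemma geom_sum_root {n : ℕ} (hn : 0 < n) (x : ℂ) (hx : x ^ n = 1) :
    (n : ℂ)⁻¹ * ∑ a ∈ Finset.range n, x ^ a = if x = 1 then 1 else 0 := by
  have hn' : (n : ℂ) ≠ 0 := Nat.cast_ne_zero.mpr hn.ne'
  split_ifs with h
  · subst h
    simp [hn']
  · rw [geom_sum_eq h, hx, sub_self, zero_div, mul_zero]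

variable {n : ℕ} {ζ : ℂ} {R : 𝔄}

lemma mul_dftProj (hζ : ζ ^ n = 1) (hζ0 : ζ ≠ 0) (hR : R ^ n = 1) (m : ℕ) :
    R * dftProj n ζ R m = ζ ^ m • dftProj n ζ R m := by
  unfold dftProj
  rw [mul_smul_comm, smul_comm (ζ ^ m)]
  congr 1
  rw [Finset.mul_sum, Finset.smul_sum]
  have key := sum_range_shift n (fun a => ζ ^ m • (ζ⁻¹) ^ (a * m) • R ^ a) (by
    simp only [hR, pow_zero, zero_mul]
    rw [pow_mul, inv_pow, hζ, inv_one, one_pow])
  rw [← key]
  refine Finset.sum_congr rfl fun a _ => ?_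
  rw [mul_smul_comm, ← pow_succ', smul_smul]
  congr 1
  rw [add_mul, one_mul, pow_add, inv_pow ζ m]
  field_simp

lemma dftProj_mul_of_eigen (hn : 0 < n) (hζ : ζ ^ n = 1) (m : ℕ) {Q : 𝔄} {c : ℂ}
    (hc : c ^ n = 1) (hQ : R * Q = c • Q) :
    dftProj n ζ R m * Q = if c = ζ ^ m then Q else 0 := by
  have hpow : ∀ a : ℕ, R ^ a * Q = c ^ a • Q := by
    intro a
    induction a with
    | zero => simp
    | succ a ih => rw [pow_succ, mul_assoc, hQ, mul_smul_comm, ih, smul_smul, pow_succ, mul_comm]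
  have hζ0 : ζ ≠ 0 := by
    rintro rfl
    rw [zero_pow hn.ne'] at hζ
    exact zero_ne_one hζ
  unfold dftProj
  rw [smul_mul_assoc, Finset.sum_mul]
  have h1 : ∀ a ∈ Finset.range n, ((ζ⁻¹) ^ (a * m) • R ^ a) * Q = ((ζ⁻¹) ^ m * c) ^ a • Q := by
    intro a _
    rw [smul_mul_assoc, hpow, smul_smul, mul_pow, ← pow_mul, mul_comm m a]
  rw [Finset.sum_congr rfl h1, ← Finset.sum_smul, smul_smul,
    geom_sum_root hn _ (by rw [mul_pow, hc, mul_one, ← pow_mul, mul_comm, pow_mul, inv_pow, hζ,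
      inv_one, one_pow])]
  have h2 : ((ζ⁻¹) ^ m * c = 1) ↔ c = ζ ^ m := by
    rw [inv_pow]
    constructor
    · intro h
      field_simp at h
      exact h
    · intro h
      rw [h]
      field_simp
  simp only [h2]
  split_ifs <;> simp

lemma sum_dftProj (hζ : IsPrimitiveRoot ζ n) (hn : 0 < n) :
    ∑ m ∈ Finset.range n, dftProj n ζ R m = 1 := by
  unfold dftProj
  rw [← Finset.smul_sum, Finset.sum_comm]
  have h1 : ∀ a ∈ Finset.range n, ∑ m ∈ Finset.range n, (ζ⁻¹) ^ (a * m) • R ^ a =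
      (if a = 0 then (n : ℂ) else 0) • R ^ a := by
    intro a ha
    rw [← Finset.sum_smul]
    congr 1
    have h2 := geom_sum_root hn ((ζ⁻¹) ^ a) (by
      rw [← pow_mul, mul_comm, pow_mul, inv_pow, hζ.pow_eq_one, inv_one, one_pow])
    have hn' : (n : ℂ) ≠ 0 := Nat.cast_ne_zero.mpr hn.ne'
    have h3 : ((ζ⁻¹) ^ a = 1) ↔ a = 0 := by
      rw [inv_pow, inv_eq_one]
      constructor
      · intro h
        have := hζ.dvd_of_pow_eq_one a h
        by_contra h0
        exact absurd (Nat.le_of_dvd (Nat.pos_of_ne_zero h0) this)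
          (not_le.mpr (Finset.mem_range.mp ha))
      · rintro rfl
        simp
    simp only [h3] at h2
    simp only [pow_mul]
    have h4 : ∑ m ∈ Finset.range n, ((ζ⁻¹) ^ a) ^ m = (n : ℂ) * (if a = 0 then 1 else 0) := by
      rw [← h2, ← mul_assoc, mul_inv_cancel₀ hn', one_mul]
    rw [h4]
    split_ifs <;> simp
  rw [Finset.sum_congr rfl h1, Finset.sum_eq_single 0]
  · have hn' : (n : ℂ) ≠ 0 := Nat.cast_ne_zero.mpr hn.ne'
    simp [smul_smul, hn']
  · intro b _ hb
    simp [hb]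
  · intro h
    exact absurd (Finset.mem_range.mpr hn) h

end abstractDFT

section perm

variable {X : Type} [Fintype X] [DecidableEq X] [MulAction SL(2, ℤ) X]

/-- The permutation matrix of `g`, acting on row vectors by `(v * permMat g) x = v (g⁻¹ • x)`. -/
def permMat (g : SL(2, ℤ)) : Matrix X X ℂ := fun y x => if g • y = x then 1 else 0

lemma permMat_apply (g : SL(2, ℤ)) (y x : X) :
    (permMat g : Matrix X X ℂ) y x = if g • y = x then 1 else 0 := rfl

lemma permMat_one : (permMat 1 : Matrix X X ℂ) = 1 := by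
  ext y x
  simp [permMat_apply, Matrix.one_apply]

lemma permMat_eq_one_of_smul {g : SL(2, ℤ)} (hg : ∀ x : X, g • x = x) :
    (permMat g : Matrix X X ℂ) = 1 := by
  ext y x
  simp [permMat_apply, Matrix.one_apply, hg]

lemma mul_permMat_apply {ι : Type*} (M : Matrix ι X ℂ) (g : SL(2, ℤ)) (i : ι) (x : X) :
    (M * (permMat g : Matrix X X ℂ)) i x = M i (g⁻¹ • x) := by
  rw [Matrix.mul_apply, Finset.sum_eq_single (g⁻¹ • x)]
  · simp [permMat_apply]
  · intro y _ hy
    rw [permMat_apply, if_neg, mul_zero]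
    intro h
    apply hy
    rw [← h, inv_smul_smul]
  · intro h
    exact absurd (Finset.mem_univ _) h

lemma permMat_mul_apply {ι : Type*} (M : Matrix X ι ℂ) (g : SL(2, ℤ)) (y : X) (i : ι) :
    ((permMat g : Matrix X X ℂ) * M) y i = M (g • y) i := by
  rw [Matrix.mul_apply, Finset.sum_eq_single (g • y)]
  · simp [permMat_apply]
  · intro x _ hx
    rw [permMat_apply, if_neg (fun h => hx h.symm), zero_mul]
  · intro h
    exact absurd (Finset.mem_univ _) h

lemma permMat_mul (g h : SL(2, ℤ)) :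
    (permMat g : Matrix X X ℂ) * permMat h = permMat (h * g) := by
  ext y x
  rw [permMat_mul_apply, permMat_apply, permMat_apply, mul_smul]

lemma permMat_transpose (g : SL(2, ℤ)) :
    (permMat g : Matrix X X ℂ).transpose = permMat g⁻¹ := by
  ext y x
  rw [Matrix.transpose_apply, permMat_apply, permMat_apply]
  congr 1
  rw [eq_iff_iff, inv_smul_eq_iff, eq_comm]

lemma permMat_pow (g : SL(2, ℤ)) (a : ℕ) :
    (permMat g : Matrix X X ℂ) ^ a = permMat (g ^ a) := by
  induction a with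
  | zero => rw [pow_zero, pow_zero, permMat_one]
  | succ a ih => rw [pow_succ, ih, permMat_mul, pow_succ']

variable (X)

/-- A positive integer `n` such that `T ^ n` acts trivially on `X`. -/
def cuspN : ℕ := Fintype.card (Equiv.Perm X)

lemma cuspN_pos : 0 < cuspN X := Fintype.card_pos

variable {X}

lemma T_pow_cuspN_smul (x : X) : T ^ cuspN X • x = x := by
  have h : (MulAction.toPermHom SL(2, ℤ) X T) ^ cuspN X = 1 := pow_card_eq_one
  rw [← map_pow] at h
  have := congrArg (fun σ : Equiv.Perm X => σ x) h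
  simpa using this

variable (X)

/-- The primitive `n`-th root of unity used in the discrete Fourier transform. -/
noncomputable def cuspZeta : ℂ := Complex.exp (2 * Real.pi * Complex.I / cuspN X)

lemma cuspZeta_isPrimitiveRoot : IsPrimitiveRoot (cuspZeta X) (cuspN X) :=
  Complex.isPrimitiveRoot_exp _ (cuspN_pos X).ne'

lemma cuspZeta_pow : cuspZeta X ^ cuspN X = 1 := (cuspZeta_isPrimitiveRoot X).pow_eq_one

lemma cuspZeta_ne_zero : cuspZeta X ≠ 0 := Complex.exp_ne_zero _

lemma norm_cuspZeta : ‖cuspZeta X‖ = 1 :=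
  (cuspZeta_isPrimitiveRoot X).norm'_eq_one (cuspN_pos X).ne'

/-- The projector on the `ζ ^ m`-eigenspace of the permutation matrix of `T`. -/
noncomputable def Pm (m : ℕ) : Matrix X X ℂ :=
  dftProj (cuspN X) (cuspZeta X) (permMat T : Matrix X X ℂ) m

/-- The transposed projectors. -/
noncomputable def Pm' (m : ℕ) : Matrix X X ℂ :=
  dftProj (cuspN X) (cuspZeta X) (permMat T⁻¹ : Matrix X X ℂ) m

/-- `∑ u ^ (-m) P_m`. -/
noncomputable def Aneg (u : ℂ) : Matrix X X ℂ :=
  ∑ m ∈ Finset.range (cuspN X), (u⁻¹) ^ m • Pm X m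

/-- `∑ u ^ m P_m`. -/
noncomputable def Apos (u : ℂ) : Matrix X X ℂ :=
  ∑ m ∈ Finset.range (cuspN X), u ^ m • Pm X m

variable {X}

lemma permMat_T_pow : (permMat T : Matrix X X ℂ) ^ cuspN X = 1 := by
  rw [permMat_pow]
  exact permMat_eq_one_of_smul T_pow_cuspN_smul

lemma permMat_T_inv_pow : (permMat T⁻¹ : Matrix X X ℂ) ^ cuspN X = 1 := by
  rw [permMat_pow]
  refine permMat_eq_one_of_smul fun x => ?_
  rw [inv_pow, inv_smul_eq_iff, T_pow_cuspN_smul]

lemma Pm_transpose (m : ℕ) : (Pm X m).transpose = Pm' X m := by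
  unfold Pm Pm' dftProj
  rw [Matrix.transpose_smul, Matrix.transpose_sum]
  congr 1
  refine Finset.sum_congr rfl fun a _ => ?_
  rw [Matrix.transpose_smul, Matrix.transpose_pow, permMat_transpose]

lemma permMat_T_mul_Pm (m : ℕ) :
    (permMat T : Matrix X X ℂ) * Pm X m = cuspZeta X ^ m • Pm X m :=
  mul_dftProj (cuspZeta_pow X) (cuspZeta_ne_zero X) permMat_T_pow m

lemma permMat_T_mul_Pm' (m : ℕ) :
    (permMat T : Matrix X X ℂ) * Pm' X m = ((cuspZeta X)⁻¹) ^ m • Pm' X m := by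
  have h : (permMat T⁻¹ : Matrix X X ℂ) * Pm' X m = cuspZeta X ^ m • Pm' X m :=
    mul_dftProj (cuspZeta_pow X) (cuspZeta_ne_zero X) permMat_T_inv_pow m
  have h2 : (permMat T : Matrix X X ℂ) * permMat T⁻¹ = 1 := by
    rw [permMat_mul, inv_mul_cancel, permMat_one]
  have h3 := congrArg (fun Y => (permMat T : Matrix X X ℂ) * Y) h
  simp only [← mul_assoc, h2, one_mul, mul_smul_comm] at h3
  conv_rhs => rw [h3]
  rw [smul_smul, inv_pow, inv_mul_cancel₀ (pow_ne_zero _ (cuspZeta_ne_zero X)), one_smul]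

lemma Pm_mul_Pm {m m' : ℕ} (hm : m < cuspN X) (hm' : m' < cuspN X) :
    Pm X m * Pm X m' = if m = m' then Pm X m' else 0 := by
  have h := dftProj_mul_of_eigen (R := (permMat T : Matrix X X ℂ)) (cuspN_pos X) (cuspZeta_pow X) m
    (c := cuspZeta X ^ m') (by rw [← pow_mul, mul_comm, pow_mul, cuspZeta_pow, one_pow])
    (permMat_T_mul_Pm m')
  rw [Pm, h]
  have h2 : cuspZeta X ^ m' = cuspZeta X ^ m ↔ m = m' :=
    ⟨fun h => ((cuspZeta_isPrimitiveRoot X).pow_inj hm' hm h).symm, fun h => by rw [h]⟩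
  simp only [h2]

lemma Pm_mul_Pm' (m m' : ℕ) :
    Pm X m * Pm' X m' = if cuspN X ∣ m + m' then Pm' X m' else 0 := by
  have h := dftProj_mul_of_eigen (R := (permMat T : Matrix X X ℂ)) (cuspN_pos X) (cuspZeta_pow X) m
    (c := ((cuspZeta X)⁻¹) ^ m')
    (by rw [← pow_mul, mul_comm, pow_mul, inv_pow, cuspZeta_pow, inv_one, one_pow])
    (permMat_T_mul_Pm' m')
  rw [Pm, h]
  have h2 : ((cuspZeta X)⁻¹) ^ m' = cuspZeta X ^ m ↔ cuspN X ∣ m + m' := by
    rw [← (cuspZeta_isPrimitiveRoot X).pow_eq_one_iff_dvd, pow_add, inv_pow]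
    have h0 := pow_ne_zero m' (cuspZeta_ne_zero X)
    constructor
    · intro h
      rw [← h]
      field_simp
    · intro h
      field_simp
      rw [mul_comm, h]
  simp only [h2]

lemma sum_Pm : ∑ m ∈ Finset.range (cuspN X), Pm X m = 1 :=
  sum_dftProj (cuspZeta_isPrimitiveRoot X) (cuspN_pos X)

lemma sum_Pm' : ∑ m ∈ Finset.range (cuspN X), Pm' X m = 1 :=
  sum_dftProj (cuspZeta_isPrimitiveRoot X) (cuspN_pos X)

theorem Aneg_mul_Apos {u : ℂ} (hu : u ≠ 0) : Aneg X u * Apos X u = 1 := by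
  unfold Aneg Apos
  rw [Finset.sum_mul]
  have h1 : ∀ m ∈ Finset.range (cuspN X),
      ((u⁻¹) ^ m • Pm X m) * ∑ m' ∈ Finset.range (cuspN X), u ^ m' • Pm X m' = Pm X m := by
    intro m hm
    rw [Finset.mul_sum, Finset.sum_eq_single m]
    · rw [smul_mul_smul_comm, Pm_mul_Pm (Finset.mem_range.mp hm) (Finset.mem_range.mp hm),
        if_pos rfl, inv_pow, inv_mul_cancel₀ (pow_ne_zero _ hu), one_smul]
    · intro m' hm' hne
      rw [smul_mul_smul_comm, Pm_mul_Pm (Finset.mem_range.mp hm) (Finset.mem_range.mp hm'),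
        if_neg (fun h => hne h.symm), smul_zero]
    · intro h
      exact absurd hm h
  rw [Finset.sum_congr rfl h1, sum_Pm]

lemma mul_Pm_apply {ι : Type*} (M : Matrix ι X ℂ) (m : ℕ) (i : ι) (x : X) :
    (M * Pm X m) i x = (cuspN X : ℂ)⁻¹ * ∑ a ∈ Finset.range (cuspN X),
      ((cuspZeta X)⁻¹) ^ (a * m) * M i ((T ^ a)⁻¹ • x) := by
  unfold Pm dftProj
  rw [Matrix.mul_smul, Matrix.smul_apply, smul_eq_mul, Matrix.mul_sum, Matrix.sum_apply]
  congr 1
  refine Finset.sum_congr rfl fun a _ => ?_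
  rw [Matrix.mul_smul, Matrix.smul_apply, smul_eq_mul, permMat_pow, mul_permMat_apply]

theorem mul_Aneg_apply {ι : Type*} (M : Matrix ι X ℂ) (u : ℂ) (i : ι) (x : X) :
    (M * Aneg X u) i x = ∑ m ∈ Finset.range (cuspN X), (u⁻¹) ^ m *
      ((cuspN X : ℂ)⁻¹ * ∑ a ∈ Finset.range (cuspN X),
        ((cuspZeta X)⁻¹) ^ (a * m) * M i ((T ^ a)⁻¹ • x)) := by
  unfold Aneg
  rw [Matrix.mul_sum, Matrix.sum_apply]
  refine Finset.sum_congr rfl fun m _ => ?_
  rw [Matrix.mul_smul, Matrix.smul_apply, smul_eq_mul, mul_Pm_apply]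

lemma norm_Pm_apply_le (m : ℕ) (y x : X) : ‖Pm X m y x‖ ≤ 1 := by
  have h := mul_Pm_apply (1 : Matrix X X ℂ) m y x
  rw [one_mul] at h
  rw [h, norm_mul, norm_inv, Complex.norm_natCast]
  have hn : (0 : ℝ) < cuspN X := Nat.cast_pos.mpr (cuspN_pos X)
  rw [inv_mul_le_iff₀ hn, mul_one]
  refine (norm_sum_le _ _).trans ?_
  have h2 : ∀ a ∈ Finset.range (cuspN X),
      ‖((cuspZeta X)⁻¹) ^ (a * m) * (1 : Matrix X X ℂ) y ((T ^ a)⁻¹ • x)‖ ≤ 1 := by
    intro a _
    rw [norm_mul, norm_pow, norm_inv, norm_cuspZeta, inv_one, one_pow, one_mul,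
      Matrix.one_apply]
    split_ifs <;> simp
  refine (Finset.sum_le_sum h2).trans ?_
  simp

theorem norm_Apos_apply_le {u : ℂ} (hu : ‖u‖ ≤ 1) (y x : X) : ‖Apos X u y x‖ ≤ cuspN X := by
  unfold Apos
  rw [Matrix.sum_apply]
  refine (norm_sum_le _ _).trans ?_
  have h2 : ∀ m ∈ Finset.range (cuspN X), ‖(u ^ m • Pm X m) y x‖ ≤ 1 := by
    intro m _
    rw [Matrix.smul_apply, smul_eq_mul, norm_mul, norm_pow]
    exact mul_le_one₀ (pow_le_one₀ (norm_nonneg _) hu) (norm_nonneg _) (norm_Pm_apply_le m y x)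
  refine (Finset.sum_le_sum h2).trans ?_
  simp

theorem Aneg_mul_transpose {u : ℂ} :
    Aneg X u * (Aneg X u).transpose = Pm' X 0 + (u⁻¹) ^ cuspN X • (1 - Pm' X 0) := by
  have hn := cuspN_pos X
  have htr : (Aneg X u).transpose = ∑ m ∈ Finset.range (cuspN X), (u⁻¹) ^ m • Pm' X m := by
    unfold Aneg
    rw [Matrix.transpose_sum]
    refine Finset.sum_congr rfl fun m _ => ?_
    rw [Matrix.transpose_smul, Pm_transpose]
  rw [htr, Finset.mul_sum]
  have h1 : ∀ m' ∈ Finset.range (cuspN X), Aneg X u * ((u⁻¹) ^ m' • Pm' X m') =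
      (if m' = 0 then 1 else (u⁻¹) ^ cuspN X) • Pm' X m' := by
    intro m' hm'
    have hm'' := Finset.mem_range.mp hm'
    unfold Aneg
    rw [Finset.sum_mul, Finset.sum_eq_single ((cuspN X - m') % cuspN X)]
    · rw [smul_mul_smul_comm, Pm_mul_Pm', ← pow_add]
      by_cases h0 : m' = 0
      · subst h0
        simp
      · have h3 : (cuspN X - m') % cuspN X = cuspN X - m' := Nat.mod_eq_of_lt (by omega)
        rw [h3, Nat.sub_add_cancel hm''.le, if_pos dvd_rfl, if_neg h0]
    · intro m hm hne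
      have hm2 := Finset.mem_range.mp hm
      rw [smul_mul_smul_comm, Pm_mul_Pm', if_neg, smul_zero]
      intro hdvd
      apply hne
      obtain ⟨c, hc⟩ := hdvd
      by_cases h0 : m' = 0
      · subst h0
        have : c = 0 := by
          by_contra hc0
          have : cuspN X ≤ cuspN X * c := Nat.le_mul_of_pos_right _ (Nat.pos_of_ne_zero hc0)
          omega
        subst this
        simp at hc
        subst hc
        simp
      · have h3 : (cuspN X - m') % cuspN X = cuspN X - m' := Nat.mod_eq_of_lt (by omega)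
        rw [h3]
        have hc1 : c = 1 := by
          have hlt : cuspN X * c < cuspN X * 2 := by omega
          have hc2 : c < 2 := Nat.lt_of_mul_lt_mul_left hlt
          have hc0 : c ≠ 0 := by
            rintro rfl
            omega
          omega
        subst hc1
        omega
    · intro h
      exact absurd (Finset.mem_range.mpr (Nat.mod_lt _ hn)) h
  rw [Finset.sum_congr rfl h1]
  have h2 : (1 : Matrix X X ℂ) - Pm' X 0 =
      ∑ m' ∈ Finset.range (cuspN X), (if m' = 0 then (0 : ℂ) else 1) • Pm' X m' := by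
    rw [← sum_Pm', sub_eq_iff_eq_add]
    have h3 : Pm' X 0 = ∑ m' ∈ Finset.range (cuspN X), (if m' = 0 then (1 : ℂ) else 0) • Pm' X m' := by
      rw [Finset.sum_eq_single 0]
      · simp
      · intro b _ hb
        simp [hb]
      · intro h
        exact absurd (Finset.mem_range.mpr hn) h
    conv_rhs => rw [h3]
    rw [← Finset.sum_add_distrib]
    refine Finset.sum_congr rfl fun m' _ => ?_
    split_ifs <;> simp
  have h3 : Pm' X 0 = ∑ m' ∈ Finset.range (cuspN X), (if m' = 0 then (1 : ℂ) else 0) • Pm' X m' := by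
    rw [Finset.sum_eq_single 0]
    · simp
    · intro b _ hb
      simp [hb]
    · intro h
      exact absurd (Finset.mem_range.mpr hn) h
  rw [h2, Finset.smul_sum]
  conv_rhs => rw [h3]
  rw [← Finset.sum_add_distrib]
  refine Finset.sum_congr rfl fun m' _ => ?_
  split_ifs <;> simp

/-- The space of `T`-orbits. -/
abbrev OrbT (X : Type) [MulAction SL(2, ℤ) X] : Type :=
  MulAction.orbitRel.Quotient (Subgroup.zpowers T) X

/-- The class of a point in the orbit space. -/
def orbMk (x : X) : OrbT X := Quotient.mk (MulAction.orbitRel (Subgroup.zpowers T) X) x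

lemma orbMk_out (o : OrbT X) : orbMk (Quotient.out o) = o := Quotient.out_eq o

lemma orbMk_smul (a : ℤ) (x : X) : orbMk (T ^ a • x) = orbMk x := by
  apply Quotient.sound
  change MulAction.orbitRel (Subgroup.zpowers T) X _ _
  rw [MulAction.orbitRel_apply, MulAction.mem_orbit_iff]
  exact ⟨⟨T ^ a, Subgroup.zpow_mem_zpowers T a⟩, rfl⟩

lemma eq_of_orbMk_eq {V : Type*} (f : X → V) (hf : ∀ y, f (T • y) = f y) {y y' : X}
    (h : orbMk y = orbMk y') : f y = f y' := by
  have h1 : MulAction.orbitRel (Subgroup.zpowers T) X y y' := Quotient.exact h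
  rw [MulAction.orbitRel_apply, MulAction.mem_orbit_iff] at h1
  obtain ⟨⟨g, hg⟩, rfl⟩ := h1
  obtain ⟨a, rfl⟩ := Subgroup.mem_zpowers_iff.mp hg
  change f (T ^ a • y') = f y'
  clear h hg
  induction a using Int.induction_on with
  | zero => simp
  | succ i ih =>
    rw [add_comm, zpow_add, zpow_one, mul_smul, hf]
    exact ih
  | pred i ih =>
    have h2 := hf (T ^ (-(i : ℤ) - 1) • y')
    rw [← mul_smul, ← zpow_one_add] at h2
    rw [← h2]
    have h3 : (1 : ℤ) + (-(i : ℤ) - 1) = -(i : ℤ) := by ring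
    rw [h3]
    exact ih

open Classical in
/-- Indicator matrix of the orbits. -/
noncomputable def Bmat (X : Type) [MulAction SL(2, ℤ) X] : Matrix X (OrbT X) ℂ :=
  fun x o => if orbMk x = o then 1 else 0

/-- Rows of the averaging projector at chosen representatives. -/
noncomputable def Cmat (X : Type) [Fintype X] [DecidableEq X] [MulAction SL(2, ℤ) X] :
    Matrix (OrbT X) X ℂ :=
  fun o x => Pm' X 0 (Quotient.out o) x

noncomputable instance : Fintype (OrbT X) := Fintype.ofFinite _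

lemma Bmat_mul_apply {ι : Type*} (Y : Matrix (OrbT X) ι ℂ) (y : X) (i : ι) :
    (Bmat X * Y) y i = Y (orbMk y) i := by
  rw [Matrix.mul_apply, Finset.sum_eq_single (orbMk y)]
  · simp [Bmat]
  · intro o _ ho
    rw [Bmat, if_neg (fun h => ho h.symm), zero_mul]
  · intro h
    exact absurd (Finset.mem_univ _) h

lemma Pm'_zero_smul (y x : X) : Pm' X 0 (T • y) x = Pm' X 0 y x := by
  have h : (permMat T : Matrix X X ℂ) * Pm' X 0 = Pm' X 0 := by
    rw [permMat_T_mul_Pm', pow_zero, one_smul]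
  have h2 := congrFun (congrFun h y) x
  rwa [permMat_mul_apply] at h2

lemma Bmat_mul_Cmat : Bmat X * Cmat X = Pm' X 0 := by
  ext y x
  rw [Bmat_mul_apply, Cmat]
  exact eq_of_orbMk_eq (fun y => Pm' X 0 y x) (fun y => Pm'_zero_smul y x) (orbMk_out _)

lemma Pm'_zero_mul_Bmat : Pm' X 0 * Bmat X = Bmat X := by
  have hn' : (cuspN X : ℂ) ≠ 0 := Nat.cast_ne_zero.mpr (cuspN_pos X).ne'
  unfold Pm' dftProj
  rw [Matrix.smul_mul, Matrix.sum_mul]
  have h1 : ∀ a ∈ Finset.range (cuspN X),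
      (((cuspZeta X)⁻¹) ^ (a * 0) • (permMat T⁻¹ : Matrix X X ℂ) ^ a) * Bmat X = Bmat X := by
    intro a _
    rw [mul_zero, pow_zero, one_smul, permMat_pow]
    ext y o
    rw [permMat_mul_apply, Bmat, Bmat]
    have : orbMk ((T⁻¹) ^ a • y) = orbMk y := by
      have := orbMk_smul (-(a : ℤ)) y
      rwa [zpow_neg, zpow_natCast, ← inv_pow] at this
    rw [this]
  rw [Finset.sum_congr rfl h1, Finset.sum_const, Finset.card_range, ← Nat.cast_smul_eq_nsmul ℂ,
    smul_smul, inv_mul_cancel₀ hn', one_smul]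

open Classical in
lemma Cmat_mul_Bmat : Cmat X * Bmat X = 1 := by
  have h : Bmat X * (Cmat X * Bmat X) = Bmat X * (1 : Matrix (OrbT X) (OrbT X) ℂ) := by
    rw [← Matrix.mul_assoc, Bmat_mul_Cmat, Pm'_zero_mul_Bmat, Matrix.mul_one]
  ext o o'
  have h2 := congrFun (congrFun h (Quotient.out o)) o'
  rwa [Bmat_mul_apply, Bmat_mul_apply, orbMk_out] at h2

open Classical in
theorem det_Aneg_sq {u : ℂ} (hu : u ≠ 0) :
    (Aneg X u).det ^ 2 * (u ^ cuspN X) ^ Fintype.card X = (u ^ cuspN X) ^ orbCount X T := by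
  have h1 : (Aneg X u).det ^ 2 = (Aneg X u * (Aneg X u).transpose).det := by
    rw [Matrix.det_mul, Matrix.det_transpose, sq]
  set w := u ^ cuspN X with hw
  have hw0 : w ≠ 0 := pow_ne_zero _ hu
  have ht : (u⁻¹) ^ cuspN X = w⁻¹ := by rw [inv_pow]
  have h2 : Pm' X 0 + w⁻¹ • (1 - Pm' X 0) =
      w⁻¹ • (1 + Bmat X * ((w - 1) • Cmat X)) := by
    rw [Matrix.mul_smul, Bmat_mul_Cmat, smul_add, smul_smul, smul_sub]
    have : w⁻¹ * (w - 1) = 1 - w⁻¹ := by
      field_simp
    rw [this, sub_smul, one_smul]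
    abel
  rw [h1, Aneg_mul_transpose, ht, h2, Matrix.det_smul, Matrix.det_one_add_mul_comm,
    Matrix.smul_mul, Cmat_mul_Bmat]
  have h3 : (1 : Matrix (OrbT X) (OrbT X) ℂ) + (w - 1) • 1 = w • 1 := by
    rw [sub_smul, one_smul]
    abel
  rw [h3, Matrix.det_smul, Matrix.det_one, mul_one, orbCount, Nat.card_eq_fintype_card,
    mul_right_comm, ← mul_pow, inv_mul_cancel₀ hw0, one_pow, one_mul]

end perm

end Fermat.Agent.S20
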