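import Fermat.Agent.S20.Basic
import Fermat.Agent.S20.CuspLA

set_option autoImplicit false
set_option linter.unusedSectionVars false

/-! # S20, piece CUSP : the determinant of a saturated family at the cusp -/

namespace Fermat.Agent.S20.Cusp

open UpperHalfPlane ModularForm MatrixGroups ModularGroup Filter Asymptotics
open scoped Manifold Topology Real

lemma periodic_comp_ofComplex_of_vadd {E : ℍ → ℂ} (hper : ∀ z : ℍ, E ((1 : ℝ) +ᵥ z) = E z) :
    Function.Periodic (E ∘ ofComplex) (1 : ℝ) := by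
  intro w
  by_cases! hw : 0 < Complex.im w
  · have : 0 < Complex.im (w + (1 : ℝ)) := by simp [hw]
    simp only [Function.comp_apply, ofComplex_apply_of_im_pos this, ofComplex_apply_of_im_pos hw]
    rw [← hper ⟨w, hw⟩]
    congr 1
    ext
    simp [add_comm]
  · have : Complex.im (w + (1 : ℝ)) ≤ 0 := by simpa using hw
    simp only [Function.comp_apply, ofComplex_apply_of_im_nonpos this,
      ofComplex_apply_of_im_nonpos hw]

lemma mdiff_cexp_mul (c : ℂ) : MDiff (fun z : ℍ => Complex.exp (c * z)) := by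
  intro z
  rw [UpperHalfPlane.mdifferentiableAt_iff]
  have h1 : DifferentiableAt ℂ (fun w : ℂ => Complex.exp (c * w)) (z : ℂ) := by fun_prop
  refine h1.congr_of_eventuallyEq ?_
  filter_upwards [(Complex.continuous_im.isOpen_preimage _ isOpen_Ioi).mem_nhds z.im_pos] with w hw
  simp only [Function.comp_apply]
  rw [ofComplex_apply_of_im_pos hw]

lemma norm_cexp_two_pi (z : ℍ) :
    ‖Complex.exp (2 * π * Complex.I * z)‖ = Real.exp (-2 * π * z.im) := by
  rw [Complex.norm_exp]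
  congr 1
  simp

theorem periodic_exp_decay {E : ℍ → ℂ} (hol : MDiff E) (hper : ∀ z : ℍ, E ((1 : ℝ) +ᵥ z) = E z)
    (hz : IsZeroAtImInfty (fun z : ℍ => Complex.exp (2 * π * Complex.I * z) * E z)) :
    ∃ L : ℂ, (fun z => E z - L) =O[atImInfty] fun z : ℍ => Real.exp (-2 * π * z.im) := by
  set E1 : ℍ → ℂ := fun z : ℍ => Complex.exp (2 * π * Complex.I * z) * E z with hE1
  have hol1 : MDiff E1 := (mdiff_cexp_mul _).mul hol
  have hper1 : ∀ z : ℍ, E1 ((1 : ℝ) +ᵥ z) = E1 z := by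
    intro z
    simp only [hE1, hper]
    congr 1
    rw [UpperHalfPlane.coe_vadd, mul_add, Complex.exp_add]
    have : Complex.exp (2 * π * Complex.I * ((1 : ℝ) : ℂ)) = 1 := by
      simp
    rw [this, one_mul]
  have hO1 := hz.exp_decay_atImInfty one_pos (periodic_comp_ofComplex_of_vadd hper1) hol1
    hz.isBoundedAtImInfty
  have hbd : IsBoundedAtImInfty E := by
    rw [UpperHalfPlane.IsBoundedAtImInfty, BoundedAtFilter]
    obtain ⟨C, hC⟩ := hO1.bound
    refine IsBigO.of_bound C ?_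
    filter_upwards [hC] with z hz
    simp only [hE1, norm_mul, norm_cexp_two_pi, div_one, Real.norm_eq_abs, Real.abs_exp] at hz
    simp only [Pi.one_apply, norm_one, mul_one]
    rw [mul_comm] at hz
    exact le_of_mul_le_mul_right hz (Real.exp_pos _)
  refine ⟨valueAtInfty E, ?_⟩
  simpa using exp_decay_sub_atImInfty one_pos (periodic_comp_ofComplex_of_vadd hper) hol hbd

lemma tendsto_rexp_atImInfty :
    Tendsto (fun z : ℍ => Real.exp (-2 * π * z.im)) atImInfty (𝓝 0) := by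
  have h1 : Tendsto (fun t : ℝ => -2 * π * t) atTop atBot :=
    tendsto_id.const_mul_atTop_of_neg (by nlinarith [Real.pi_pos])
  exact (Real.tendsto_exp_atBot.comp h1).comp tendsto_comap

section

variable (X : Type) [Fintype X] [DecidableEq X] [MulAction SL(2, ℤ) X]

/-- The local parameter `exp (2 π i z / n)` at the cusp. -/
noncomputable def cuspU (z : ℍ) : ℂ := Complex.exp (2 * π * Complex.I / cuspN X * z)

variable {X}

lemma cuspU_ne_zero (z : ℍ) : cuspU X z ≠ 0 := Complex.exp_ne_zero _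

lemma cuspU_vadd (z : ℍ) : cuspU X ((1 : ℝ) +ᵥ z) = cuspZeta X * cuspU X z := by
  unfold cuspU cuspZeta
  rw [UpperHalfPlane.coe_vadd, mul_add, Complex.exp_add]
  simp

lemma cuspU_pow (z : ℍ) : cuspU X z ^ cuspN X = Complex.exp (2 * π * Complex.I * z) := by
  unfold cuspU
  rw [← Complex.exp_nat_mul]
  congr 1
  have hn' : (cuspN X : ℂ) ≠ 0 := Nat.cast_ne_zero.mpr (cuspN_pos X).ne'
  field_simp

lemma norm_cuspU (z : ℍ) : ‖cuspU X z‖ = Real.exp (-2 * π * z.im / cuspN X) := by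
  unfold cuspU
  rw [Complex.norm_exp]
  congr 1
  have : (2 * (π : ℂ) * Complex.I / (cuspN X : ℂ) * (z : ℂ)) =
      ((2 * π / cuspN X : ℝ) : ℂ) * (Complex.I * z) := by
    push_cast
    ring
  rw [this, Complex.re_ofReal_mul]
  simp
  ring

lemma norm_cuspU_le_one (z : ℍ) : ‖cuspU X z‖ ≤ 1 := by
  rw [norm_cuspU, Real.exp_le_one_iff]
  have hn : (0 : ℝ) < cuspN X := Nat.cast_pos.mpr (cuspN_pos X)
  have := z.im_pos
  have h2 := Real.pi_pos
  apply div_nonpos_of_nonpos_of_nonneg _ hn.le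
  nlinarith [mul_pos h2 this]

lemma tendsto_cuspU : Tendsto (cuspU X) atImInfty (𝓝 0) := by
  rw [tendsto_zero_iff_norm_tendsto_zero]
  simp only [norm_cuspU]
  have hn : (0 : ℝ) < cuspN X := Nat.cast_pos.mpr (cuspN_pos X)
  have h1 : Tendsto (fun t : ℝ => -2 * π * t / cuspN X) atTop atBot := by
    have : Tendsto (fun t : ℝ => (-2 * π / cuspN X) * t) atTop atBot :=
      tendsto_id.const_mul_atTop_of_neg (div_neg_of_neg_of_pos (by nlinarith [Real.pi_pos]) hn)
    refine this.congr fun t => ?_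
    ring
  exact (Real.tendsto_exp_atBot.comp h1).comp tendsto_comap

lemma mdiff_cuspU_inv_pow (m : ℕ) : MDiff (fun z : ℍ => ((cuspU X z)⁻¹) ^ m) := by
  have h := mdiff_cexp_mul (-(m * (2 * π * Complex.I / cuspN X)))
  convert h using 2 with z
  unfold cuspU
  rw [← Complex.exp_neg, ← Complex.exp_nat_mul]
  congr 1
  ring

lemma permMat_T_mul_Aneg (u : ℂ) :
    (permMat T : Matrix X X ℂ) * Aneg X (cuspZeta X * u) = Aneg X u := by
  unfold Aneg
  rw [Finset.mul_sum]
  refine Finset.sum_congr rfl fun m _ => ?_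
  rw [mul_smul_comm, permMat_T_mul_Pm, smul_smul]
  congr 1
  rw [mul_inv, mul_pow, inv_pow (cuspZeta X), mul_right_comm,
    inv_mul_cancel₀ (pow_ne_zero _ (cuspZeta_ne_zero X)), one_mul]

/-- The matrix of values of the family. -/
def famMat (Φ : X → X → ℍ → ℂ) (z : ℍ) : Matrix X X ℂ := Matrix.of fun i x => Φ i x z

lemma famMat_apply (Φ : X → X → ℍ → ℂ) (z : ℍ) (i x : X) : famMat Φ z i x = Φ i x z := rfl

lemma famMat_vadd {k : X → ℤ} {Φ : X → X → ℍ → ℂ} (hΦ : ∀ i, IsVM X (k i) (Φ i)) (z : ℍ) :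
    famMat Φ ((1 : ℝ) +ᵥ z) = famMat Φ z * permMat T := by
  ext i x
  rw [mul_permMat_apply, famMat_apply, famMat_apply, ← UpperHalfPlane.modular_T_smul,
    (hΦ i).apply_smul]
  have : denom (T : SL(2, ℤ)) z = 1 := by
    rw [ModularGroup.denom_apply]
    simp [ModularGroup.T]
  rw [this, one_zpow, one_mul]

/-- The family, untwisted at the cusp. -/
noncomputable def twMat (Φ : X → X → ℍ → ℂ) (z : ℍ) : Matrix X X ℂ :=
  famMat Φ z * Aneg X (cuspU X z)

lemma twMat_vadd {k : X → ℤ} {Φ : X → X → ℍ → ℂ} (hΦ : ∀ i, IsVM X (k i) (Φ i)) (z : ℍ) :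
    twMat Φ ((1 : ℝ) +ᵥ z) = twMat Φ z := by
  unfold twMat
  rw [famMat_vadd hΦ, cuspU_vadd, mul_assoc, permMat_T_mul_Aneg]

lemma twMat_apply (Φ : X → X → ℍ → ℂ) (z : ℍ) (i x : X) :
    twMat Φ z i x = ∑ m ∈ Finset.range (cuspN X), ((cuspU X z)⁻¹) ^ m *
      ∑ y, Φ i y z * Pm X m y x := by
  unfold twMat Aneg
  rw [Matrix.mul_sum, Matrix.sum_apply]
  refine Finset.sum_congr rfl fun m _ => ?_
  rw [Matrix.mul_smul, Matrix.smul_apply, smul_eq_mul, Matrix.mul_apply]
  rfl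

lemma mdiff_finset_sum {ι : Type} (s : Finset ι) (f : ι → ℍ → ℂ) (h : ∀ i ∈ s, MDiff (f i)) :
    MDiff (fun z => ∑ i ∈ s, f i z) := by
  have := MDifferentiable.sum h
  convert this using 1
  ext z
  simp

lemma mdiff_twMat {k : X → ℤ} {Φ : X → X → ℍ → ℂ} (hΦ : ∀ i, IsVM X (k i) (Φ i)) (i x : X) :
    MDiff (fun z => twMat Φ z i x) := by
  simp only [twMat_apply]
  refine mdiff_finset_sum _ _ fun m _ => (mdiff_cuspU_inv_pow m).mul ?_
  refine mdiff_finset_sum _ _ fun y _ => ((hΦ i).holo y).mul mdifferentiable_const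

lemma zero_twMat {k : X → ℤ} {Φ : X → X → ℍ → ℂ} (hΦ : ∀ i, IsVM X (k i) (Φ i)) (i x : X) :
    IsZeroAtImInfty (fun z : ℍ => Complex.exp (2 * π * Complex.I * z) * twMat Φ z i x) := by
  rw [UpperHalfPlane.IsZeroAtImInfty, ZeroAtFilter]
  simp only [twMat_apply, Finset.mul_sum (Finset.range (cuspN X))]
  rw [show (0 : ℂ) = ∑ m ∈ Finset.range (cuspN X), 0 by simp]
  refine tendsto_finsetSum _ fun m hm => ?_
  have hm' := Finset.mem_range.mp hm
  have h1 : ∀ z : ℍ, Complex.exp (2 * π * Complex.I * z) * (((cuspU X z)⁻¹) ^ m *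
      ∑ y, Φ i y z * Pm X m y x) = cuspU X z ^ (cuspN X - m) * ∑ y, Φ i y z * Pm X m y x := by
    intro z
    rw [← cuspU_pow (X := X), ← mul_assoc]
    congr 1
    have h0 := cuspU_ne_zero (X := X) z
    rw [inv_pow, ← div_eq_mul_inv, div_eq_iff (pow_ne_zero _ h0), ← pow_add,
      Nat.sub_add_cancel hm'.le]
  simp only [h1]
  have h2 : Tendsto (fun z : ℍ => cuspU X z ^ (cuspN X - m)) atImInfty (𝓝 0) := by
    have := (tendsto_cuspU (X := X)).pow (cuspN X - m)
    rwa [zero_pow (by omega)] at this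
  have h3 : (fun z : ℍ => ∑ y, Φ i y z * Pm X m y x) =O[atImInfty] (fun _ => (1 : ℝ)) := by
    refine IsBigO.fun_sum fun y _ => ?_
    have h4 : Φ i y =O[atImInfty] (fun _ => (1 : ℝ)) := (hΦ i).bdd y
    have h5 : (fun _ : ℍ => Pm X m y x) =O[atImInfty] (fun _ => (1 : ℝ)) :=
      isBigO_const_const _ one_ne_zero _
    simpa using h4.mul h5
  have h6 : (fun z : ℍ => cuspU X z ^ (cuspN X - m)) =o[atImInfty] (fun _ => (1 : ℝ)) :=
    (isLittleO_one_iff ℝ).mpr h2
  have h7 := h6.mul_isBigO h3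
  simp only [mul_one] at h7
  exact (isLittleO_one_iff ℝ).mp h7

theorem exists_twMat_limit {k : X → ℤ} {Φ : X → X → ℍ → ℂ} (hΦ : ∀ i, IsVM X (k i) (Φ i)) :
    ∃ L : Matrix X X ℂ, ∀ i x, (fun z => twMat Φ z i x - L i x) =O[atImInfty]
      fun z : ℍ => Real.exp (-2 * π * z.im) := by
  have h : ∀ i x, ∃ L : ℂ, (fun z => twMat Φ z i x - L) =O[atImInfty]
      fun z : ℍ => Real.exp (-2 * π * z.im) := fun i x =>
    periodic_exp_decay (mdiff_twMat hΦ i x) (fun z => by rw [twMat_vadd hΦ]) (zero_twMat hΦ i x)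
  choose L hL using h
  exact ⟨L, hL⟩

lemma famMat_eq (Φ : X → X → ℍ → ℂ) (z : ℍ) : famMat Φ z = twMat Φ z * Apos X (cuspU X z) := by
  unfold twMat
  rw [mul_assoc, Aneg_mul_Apos (cuspU_ne_zero z), mul_one]

theorem det_limit_ne_zero {Φ : X → X → ℍ → ℂ} (hsat : SatInf Φ) {L : Matrix X X ℂ}
    (hL : ∀ i x, (fun z => twMat Φ z i x - L i x) =O[atImInfty]
      fun z : ℍ => Real.exp (-2 * π * z.im)) : L.det ≠ 0 := by
  intro hdet
  obtain ⟨c, hc0, hc⟩ := Matrix.exists_vecMul_eq_zero_iff.mpr hdet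
  apply hc0
  apply hsat
  intro x
  have h1 : ∀ z : ℍ, ∑ i, c i * Φ i x z =
      ∑ y, (∑ i, c i * (twMat Φ z i y - L i y)) * Apos X (cuspU X z) y x := by
    intro z
    have h2 : ∀ y, ∑ i, c i * (twMat Φ z i y - L i y) = ∑ i, c i * twMat Φ z i y := by
      intro y
      have h3 : ∑ i, c i * L i y = 0 := by
        have := congrFun hc y
        simpa [Matrix.vecMul, dotProduct] using this
      simp only [mul_sub, Finset.sum_sub_distrib, h3, sub_zero]
    simp only [h2]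
    have h4 : ∀ i, Φ i x z = ∑ y, twMat Φ z i y * Apos X (cuspU X z) y x := by
      intro i
      rw [← famMat_apply Φ z i x, famMat_eq, Matrix.mul_apply]
    simp only [h4, Finset.mul_sum, Finset.sum_mul]
    rw [Finset.sum_comm]
    refine Finset.sum_congr rfl fun y _ => Finset.sum_congr rfl fun i _ => ?_
    ring
  simp only [h1]
  refine IsBigO.fun_sum fun y _ => ?_
  have h5 : (fun z : ℍ => ∑ i, c i * (twMat Φ z i y - L i y)) =O[atImInfty]
      fun z : ℍ => Real.exp (-2 * π * z.im) :=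
    IsBigO.fun_sum fun i _ => (hL i y).const_mul_left (c i)
  have h6 : (fun z : ℍ => Apos X (cuspU X z) y x) =O[atImInfty] (fun _ => (1 : ℝ)) := by
    refine IsBigO.of_bound (cuspN X) (Eventually.of_forall fun z => ?_)
    simpa using norm_Apos_apply_le (norm_cuspU_le_one z) y x
  simpa using h5.mul h6

lemma tendsto_det_twMat {Φ : X → X → ℍ → ℂ} {L : Matrix X X ℂ}
    (hL : ∀ i x, (fun z => twMat Φ z i x - L i x) =O[atImInfty]
      fun z : ℍ => Real.exp (-2 * π * z.im)) :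
    Tendsto (fun z => (twMat Φ z).det) atImInfty (𝓝 L.det) := by
  have h1 : Tendsto (fun z => twMat Φ z) atImInfty (𝓝 L) := by
    refine tendsto_pi_nhds.mpr fun i => tendsto_pi_nhds.mpr fun x => ?_
    have h2 := (hL i x).trans_tendsto tendsto_rexp_atImInfty
    have h3 := h2.add_const (L i x)
    simpa using h3
  exact ((continuous_id.matrix_det).tendsto L).comp h1

lemma det_twMat_sq (Φ : X → X → ℍ → ℂ) (z : ℍ) :
    (twMat Φ z).det ^ 2 * Complex.exp (2 * π * Complex.I * z) ^ Fintype.card X =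
      detFn Φ z ^ 2 * Complex.exp (2 * π * Complex.I * z) ^ orbCount X T := by
  have h := det_Aneg_sq (X := X) (cuspU_ne_zero (X := X) z)
  rw [cuspU_pow] at h
  have h2 : (twMat Φ z).det = detFn Φ z * (Aneg X (cuspU X z)).det := by
    unfold twMat
    rw [Matrix.det_mul]
    rfl
  rw [h2, mul_pow, mul_assoc, h]

theorem main
    (k : X → ℤ) (Φ : X → X → ℍ → ℂ) (hΦ : ∀ i, IsVM X (k i) (Φ i)) (hsat : SatInf Φ) :
    (fun z : ℍ => Real.exp (-2 * Real.pi * ((Fintype.card X : ℝ) - orbCount X T) * z.im))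
      =O[atImInfty] fun z => detFn Φ z ^ 2 := by
  obtain ⟨L, hL⟩ := exists_twMat_limit hΦ
  have hdet := det_limit_ne_zero hsat hL
  have hpos : 0 < ‖L.det‖ := norm_pos_iff.mpr hdet
  have htend := (tendsto_det_twMat hL).norm
  have hev : ∀ᶠ z in atImInfty, ‖L.det‖ / 2 < ‖(twMat Φ z).det‖ :=
    htend.eventually (lt_mem_nhds (half_lt_self hpos))
  refine IsBigO.of_bound ((‖L.det‖ / 2) ^ 2)⁻¹ ?_
  filter_upwards [hev] with z hz
  have h1 := congrArg norm (det_twMat_sq Φ z)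
  simp only [norm_mul, norm_pow, norm_cexp_two_pi] at h1
  set r := Real.exp (-2 * π * z.im) with hr
  have hr0 : 0 < r := Real.exp_pos _
  have h2 : Real.exp (-2 * Real.pi * ((Fintype.card X : ℝ) - orbCount X T) * z.im) =
      r ^ Fintype.card X / r ^ orbCount X T := by
    rw [hr, ← Real.exp_nat_mul, ← Real.exp_nat_mul, ← Real.exp_sub]
    congr 1
    ring
  rw [Real.norm_eq_abs, Real.abs_exp, h2, norm_pow, div_le_iff₀ (pow_pos hr0 _),
    mul_assoc, ← h1, ← mul_assoc]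
  have h3 : (‖L.det‖ / 2) ^ 2 ≤ ‖(twMat Φ z).det‖ ^ 2 :=
    pow_le_pow_left₀ (by positivity) hz.le 2
  have h4 : 1 ≤ ((‖L.det‖ / 2) ^ 2)⁻¹ * ‖(twMat Φ z).det‖ ^ 2 := by
    rw [inv_mul_eq_div, one_le_div (by positivity)]
    exact h3
  exact le_mul_of_one_le_left (pow_pos hr0 _).le h4

end

end Fermat.Agent.S20.Cusp

namespace Fermat.Agent.S20

open UpperHalfPlane ModularForm MatrixGroups ModularGroup
open scoped Manifold

theorem exp_isBigO_detFn_sq {X : Type} [Fintype X] [DecidableEq X] [MulAction SL(2, ℤ) X]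
    (k : X → ℤ) (Φ : X → X → ℍ → ℂ) (hΦ : ∀ i, IsVM X (k i) (Φ i)) (hsat : SatInf Φ) :
    (fun z : ℍ => Real.exp (-2 * Real.pi * ((Fintype.card X : ℝ) - orbCount X T) * z.im))
      =O[atImInfty] fun z => detFn Φ z ^ 2 :=
  Cusp.main k Φ hΦ hsat

end Fermat.Agent.S20
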