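import Fermat.Agent.S20.Neg

set_option autoImplicit false

namespace Fermat.Agent.S20

open UpperHalfPlane ModularForm MatrixGroups ModularGroup Filter Asymptotics
open scoped Manifold

local notation "Δ" => ModularForm.discriminant

variable {X : Type} [Fintype X] [DecidableEq X] [MulAction SL(2, ℤ) X]

theorem ws_prod_zpow_eq_zpow_sum {ι : Type} (s : Finset ι) {a : ℂ} (ha : a ≠ 0) (f : ι → ℤ) :
    ∏ i ∈ s, a ^ f i = a ^ (∑ i ∈ s, f i) := by
  classical
  induction s using Finset.induction_on with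
  | empty => simp
  | insert b s hb ih => rw [Finset.prod_insert hb, Finset.sum_insert hb, ih, zpow_add₀ ha]

omit [MulAction SL(2, ℤ) X] in
theorem ws_mdiff_detFn (Φ : X → X → ℍ → ℂ) (h : ∀ i x, MDiff (Φ i x)) : MDiff (detFn Φ) := by
  have h1 : detFn Φ = ∑ σ : Equiv.Perm X,
      (fun _ : ℍ => ((Equiv.Perm.sign σ : ℤ) : ℂ)) * ∏ i : X, Φ (σ i) i := by
    funext z
    simp only [detFn, Matrix.det_apply, Finset.sum_apply, Pi.mul_apply, Finset.prod_apply,
      Matrix.of_apply]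
    refine Finset.sum_congr rfl fun σ _ => ?_
    rw [Units.smul_def, zsmul_eq_mul]
  rw [h1]
  exact MDifferentiable.sum fun σ _ =>
    mdifferentiable_const.mul (MDifferentiable.prod fun i _ => h _ _)

/-- Transformation of the square of the determinant. -/
theorem ws_detFn_sq_smul (k : X → ℤ) (Φ : X → X → ℍ → ℂ) (hΦ : ∀ i, IsVM X (k i) (Φ i))
    (γ : SL(2, ℤ)) (z : ℍ) :
    detFn Φ (γ • z) ^ 2 = denom γ z ^ (2 * ∑ i, k i) * detFn Φ z ^ 2 := by
  have h1 : (Matrix.of fun i x => Φ i x (γ • z)) =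
      Matrix.of fun i x => denom γ z ^ k i *
        ((Matrix.of fun i x => Φ i x z).submatrix id (MulAction.toPerm γ⁻¹)) i x := by
    ext i x
    simp only [Matrix.of_apply, Matrix.submatrix_apply, id_eq, MulAction.toPerm_apply]
    exact (hΦ i).apply_smul γ x z
  have h2 : detFn Φ (γ • z) = denom γ z ^ (∑ i, k i) *
      (((Equiv.Perm.sign (MulAction.toPerm γ⁻¹ : Equiv.Perm X) : ℤ) : ℂ) * detFn Φ z) := by
    unfold detFn
    rw [h1, Matrix.det_mul_column, Matrix.det_permute',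
      ws_prod_zpow_eq_zpow_sum _ (denom_ne_zero γ z)]
  have h3 : (((Equiv.Perm.sign (MulAction.toPerm γ⁻¹ : Equiv.Perm X) : ℤ) : ℂ)) ^ 2 = 1 := by
    rcases Int.units_eq_one_or (Equiv.Perm.sign (MulAction.toPerm γ⁻¹ : Equiv.Perm X)) with h | h <;>
      simp [h]
  rw [h2, mul_pow, mul_pow, h3, one_mul, two_mul, zpow_add₀ (denom_ne_zero γ z), sq]

omit [DecidableEq X] in
theorem ws_orbCount_le_card (g : SL(2, ℤ)) : orbCount X g ≤ Fintype.card X := by
  rw [← Nat.card_eq_fintype_card]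
  exact Nat.card_le_card_of_surjective _ Quotient.mk_surjective

theorem ws_disc_smul (γ : SL(2, ℤ)) (z : ℍ) : Δ (γ • z) = denom γ z ^ (12 : ℤ) * Δ z := by
  have := congrFun (isL1_disc.slash γ) z
  rw [SL_slash_apply] at this
  rw [← this, zpow_neg, mul_comm, mul_assoc,
    inv_mul_cancel₀ (zpow_ne_zero 12 (denom_ne_zero γ z)), mul_one]

theorem ws_disc_isBigO : (Δ : ℍ → ℂ) =O[atImInfty] fun z : ℍ => Real.exp (-2 * Real.pi * z.im) := by
  have := CuspFormClass.exp_decay_atImInfty (h := 1) CuspForm.discriminant one_pos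
    one_mem_strictPeriods_SL
  simpa using this

/-- CORE-c, with the behaviour of the determinant at infinity as a hypothesis. -/
theorem sum_weight_le_of (k : X → ℤ) (Φ : X → X → ℍ → ℂ) (hΦ : ∀ i, IsVM X (k i) (Φ i))
    (hdet : ∀ z, detFn Φ z ≠ 0)
    (hO : (fun z : ℍ => Real.exp (-2 * Real.pi * ((Fintype.card X : ℝ) - orbCount X T) * z.im))
      =O[atImInfty] fun z => detFn Φ z ^ 2) :
    ∑ i, k i ≤ 6 * ((Fintype.card X : ℤ) - orbCount X T) := by
  obtain ⟨m, hm⟩ := Nat.exists_eq_add_of_le (ws_orbCount_le_card (X := X) T)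
  have hmR : ((Fintype.card X : ℝ) - orbCount X T) = m := by
    rw [hm]; push_cast; ring
  have hmZ : ((Fintype.card X : ℤ) - orbCount X T) = m := by
    rw [hm]; push_cast; ring
  rw [hmR] at hO
  rw [hmZ]
  set w : ℤ := 12 * m - 2 * ∑ i, k i with hw
  set W : ℍ → ℂ := fun z => Δ z ^ m / detFn Φ z ^ 2 with hW
  have hD2 : ∀ z, detFn Φ z ^ 2 ≠ 0 := fun z => pow_ne_zero 2 (hdet z)
  have hWslash : ∀ γ : SL(2, ℤ), W ∣[w] γ = W := by
    intro γ
    funext z
    have hd := denom_ne_zero γ z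
    rw [SL_slash_apply]
    show Δ (γ • z) ^ m / detFn Φ (γ • z) ^ 2 * denom γ z ^ (-w) = Δ z ^ m / detFn Φ z ^ 2
    rw [ws_disc_smul, ws_detFn_sq_smul k Φ hΦ, mul_pow, ← zpow_natCast (denom γ z ^ (12 : ℤ)) m,
      ← zpow_mul, hw, zpow_neg, zpow_sub₀ hd]
    have h1 := zpow_ne_zero (12 * (m : ℤ)) hd
    have h2 := zpow_ne_zero (2 * ∑ i, k i) hd
    have h3 := hD2 z
    field_simp
  have hWholo : MDiff W := by
    have h1 : MDiff (fun z : ℍ => Δ z ^ m) := isL1_disc.holo.pow m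
    have h2 : MDiff (fun z : ℍ => detFn Φ z ^ 2) :=
      (ws_mdiff_detFn Φ fun i x => (hΦ i).holo x).pow 2
    exact h1.div h2 hD2
  have hWbdd : IsBoundedAtImInfty W := by
    have h1 : (fun z : ℍ => Δ z ^ m) =O[atImInfty]
        fun z : ℍ => Real.exp (-2 * Real.pi * m * z.im) := by
      have := ws_disc_isBigO.pow m
      refine this.congr_right fun z => ?_
      rw [← Real.exp_nat_mul]
      congr 1; ring
    have h2 := h1.trans hO
    obtain ⟨c, hc⟩ := h2.bound
    refine IsBigO.of_bound c ?_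
    filter_upwards [hc] with z hz
    simp only [hW, norm_div, Pi.one_apply, norm_one, mul_one]
    rw [div_le_iff₀ (norm_pos_iff.mpr (hD2 z))]
    exact hz
  obtain ⟨f, hf⟩ := isL1_of_slash hWslash hWholo hWbdd
  by_contra hlt
  have hwneg : w < 0 := by rw [hw]; omega
  have h0 := ModularFormClass.levelOne_neg_weight_eq_zero hwneg f
  rw [hf] at h0
  have h1 := congrFun h0 I
  simp only [hW, Pi.zero_apply, div_eq_zero_iff] at h1
  rcases h1 with h1 | h1
  · exact pow_ne_zero m (discriminant_ne_zero I) h1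
  · exact hD2 I h1

end Fermat.Agent.S20
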