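import Fermat.Agent.S20.Good
import Fermat.Agent.S20.Eig
import Fermat.Agent.S20.WeightSum
import Fermat.Agent.S20.Cusp

set_option autoImplicit false

namespace Fermat.Agent.S20

open UpperHalfPlane ModularForm MatrixGroups ModularGroup CongruenceSubgroup
open scoped Manifold

variable {X : Type} [Fintype X] [DecidableEq X] [MulAction SL(2, ℤ) X]

lemma termwise (k : ℤ) (h : Even k) (h0 : 0 ≤ k) :
    14 ≤ 12 * (if k = 2 then 1 else 0) + k + 6 * (if (4 : ℤ) ∣ k then 1 else 0)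
      + 4 * (2 * (if (6 : ℤ) ∣ k then 1 else 0) + (if k % 6 = 4 then 1 else 0)) := by
  obtain ⟨m, rfl⟩ := h
  split_ifs <;> omega

theorem core_lower
    (hneg : ∀ x : X, (-1 : SL(2, ℤ)) • x = x)
    (hinit : ∃ (k : X → ℤ) (Φ : X → X → ℍ → ℂ), (∀ i, IsVM X (k i) (Φ i)) ∧ ∃ z, detFn Φ z ≠ 0) :
    ∃ (s : Finset X) (Φ : X → X → ℍ → ℂ), (∀ i ∈ s, IsVM X 2 (Φ i)) ∧
      LinearIndependent ℂ (fun i : s => Φ i) ∧
      Fintype.card X + orbCount X T ≤ 2 * s.card + orbCount X S + orbCount X Umat := by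
  obtain ⟨k, Φ, hΦ, hdet, hsat⟩ := exists_good_family hneg hinit
  have hli := linearIndependent_of_det Φ I (hdet I)
  refine ⟨Finset.univ.filter fun i => k i = 2, Φ, ?_, ?_, ?_⟩
  · intro i hi
    have := hΦ i
    rw [(Finset.mem_filter.mp hi).2] at this
    exact this
  · exact hli.comp _ Subtype.val_injective
  · have h1 := sum_weight_le_of k Φ hΦ hdet (exp_isBigO_detFn_sq k Φ hΦ hsat)
    have h2 := card_four_dvd_le hneg k Φ hΦ hdet
    have h3 := card_six_le hneg k Φ hΦ hdet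
    have h4 : ∀ i, Even (k i) ∧ 0 ≤ k i := fun i =>
      weight_even_nonneg hneg (hΦ i) (hli.ne_zero i)
    have h5 := Finset.sum_le_sum (s := Finset.univ) fun i _ => termwise (k i) (h4 i).1 (h4 i).2
    simp only [Finset.sum_add_distrib, ← Finset.mul_sum, Finset.sum_boole, Finset.sum_const,
      Finset.card_univ, nsmul_eq_mul] at h5
    zify at h2 h3 ⊢
    linarith

end Fermat.Agent.S20
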