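import Mathlib
import Fermat.Prelude.Def_ModularCurve_GenusNumerics

set_option autoImplicit false

namespace Fermat.Agent.S20

open UpperHalfPlane ModularForm MatrixGroups
open scoped Manifold

/-- Number of orbits of the cyclic group generated by `g` on `X`. -/
noncomputable def orbCount (X : Type) [MulAction SL(2, ℤ) X] (g : SL(2, ℤ)) : ℕ :=
  Nat.card (MulAction.orbitRel.Quotient (Subgroup.zpowers g) X)

/-- Vector valued modular forms of weight `k` for the permutation representation on `X`. -/
structure IsVM (X : Type) [MulAction SL(2, ℤ) X] (k : ℤ) (Φ : X → ℍ → ℂ) : Prop where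
  equiv : ∀ (γ : SL(2, ℤ)) (x : X), Φ x ∣[k] γ = Φ (γ⁻¹ • x)
  holo : ∀ x, MDiff (Φ x)
  bdd : ∀ x, IsBoundedAtImInfty (Φ x)

/-- Level one modular forms, as a predicate on functions. -/
def IsL1 (k : ℤ) (φ : ℍ → ℂ) : Prop := ∃ f : ModularForm 𝒮ℒ k, ⇑f = φ

/-- The coset space on which everything is counted. -/
abbrev Cos (N : ℕ) : Type := SL(2, ℤ) ⧸ CongruenceSubgroup.Gamma0 N

/-- The determinant of a family of vector valued forms. -/
noncomputable def detFn {X : Type} [Fintype X] [DecidableEq X] (Φ : X → X → ℍ → ℂ) (z : ℍ) : ℂ :=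
  Matrix.det (Matrix.of fun i x => Φ i x z)

/-- No nontrivial constant combination of the family decays like `q` in all components. -/
def SatInf {X : Type} [Fintype X] (Φ : X → X → ℍ → ℂ) : Prop :=
  ∀ c : X → ℂ, (∀ x, (fun z : ℍ => ∑ i, c i * Φ i x z) =O[atImInfty]
    fun z : ℍ => Real.exp (-2 * Real.pi * z.im)) → c = 0

/-- The element `U = S * T` of order three in `PSL(2, ℤ)`. -/
def Umat : SL(2, ℤ) := ModularGroup.S * ModularGroup.T

end Fermat.Agent.S20
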