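import Fermat.Agent.S20.Defs

set_option autoImplicit false

namespace Fermat.Agent.S20

open UpperHalfPlane ModularForm MatrixGroups ModularGroup Filter Topology
open scoped Manifold Real

local notation "Δ" => ModularForm.discriminant

/-- Near a simple zero `z₀` of `l`, `l` does not vanish on a punctured neighbourhood, and the
quotient `f / l` is given by the quotient of the `dslope`s. -/
lemma div_local {f l : ℂ → ℂ} {z₀ : ℂ} {s : Set ℂ} (hs : s ∈ 𝓝 z₀) (hf : DifferentiableOn ℂ f s)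
    (hl : DifferentiableOn ℂ l s) (hl0 : l z₀ = 0) (hf0 : f z₀ = 0) (hd : deriv l z₀ ≠ 0) :
    DifferentiableAt ℂ (fun w => dslope f z₀ w / dslope l z₀ w) z₀ ∧
      ∀ᶠ w in 𝓝 z₀, dslope l z₀ w ≠ 0 ∧ (w ≠ z₀ → l w ≠ 0) ∧
        f w = l w * (dslope f z₀ w / dslope l z₀ w) := by
  have h1 : DifferentiableAt ℂ (dslope f z₀) z₀ :=
    ((Complex.differentiableOn_dslope hs).mpr hf).differentiableAt hs
  have h2 : DifferentiableAt ℂ (dslope l z₀) z₀ :=
    ((Complex.differentiableOn_dslope hs).mpr hl).differentiableAt hs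
  have h3 : dslope l z₀ z₀ ≠ 0 := by rwa [dslope_same]
  refine ⟨h1.div h2 h3, ?_⟩
  filter_upwards [h2.continuousAt.eventually_ne h3] with w hw
  have e1 : l w = (w - z₀) * dslope l z₀ w := by
    have := sub_smul_dslope l z₀ w
    rw [hl0, sub_zero, smul_eq_mul] at this
    exact this.symm
  have e2 : f w = (w - z₀) * dslope f z₀ w := by
    have := sub_smul_dslope f z₀ w
    rw [hf0, sub_zero, smul_eq_mul] at this
    exact this.symm
  refine ⟨hw, fun hne => ?_, ?_⟩
  · rw [e1]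
    exact mul_ne_zero (sub_ne_zero.mpr hne) hw
  · rw [e1, e2]
    field_simp

/-- Division of a holomorphic function on `ℍ` by one with simple zeros. -/
lemma exists_div {f l : ℍ → ℂ} (hf : MDiff f) (hl : MDiff l)
    (hsimple : ∀ z : ℍ, l z = 0 → deriv (l ∘ ofComplex) z ≠ 0)
    (hvan : ∀ z : ℍ, l z = 0 → f z = 0) :
    ∃ g : ℍ → ℂ, MDiff g ∧ ∀ z, f z = l z * g z := by
  classical
  rw [UpperHalfPlane.mdifferentiable_iff] at hf hl
  refine ⟨fun z => if l z = 0 then deriv (f ∘ ofComplex) z / deriv (l ∘ ofComplex) z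
    else f z / l z, ?_, ?_⟩
  · intro z₀
    rw [mdifferentiableAt_iff]
    have hs : upperHalfPlaneSet ∈ 𝓝 (z₀ : ℂ) := isOpen_upperHalfPlaneSet.mem_nhds z₀.im_pos
    by_cases h0 : l z₀ = 0
    · obtain ⟨hd, hev⟩ := div_local hs hf hl (by simpa using h0) (by simpa using hvan z₀ h0)
        (hsimple z₀ h0)
      refine hd.congr_of_eventuallyEq ?_
      filter_upwards [hev, hs] with w hw hws
      simp only [Function.comp_apply]
      by_cases hwz : w = z₀
      · subst hwz
        simp [h0, dslope_same]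
      · have hlw : l (ofComplex w) ≠ 0 := hw.2.1 hwz
        rw [if_neg hlw]
        have := hw.2.2
        simp only [Function.comp_apply] at this
        rw [this]
        field_simp
    · have hl' : DifferentiableAt ℂ (l ∘ ofComplex) z₀ := hl.differentiableAt hs
      have hf' : DifferentiableAt ℂ (f ∘ ofComplex) z₀ := hf.differentiableAt hs
      have hne : (l ∘ ofComplex) z₀ ≠ 0 := by simpa using h0
      refine (hf'.div hl' hne).congr_of_eventuallyEq ?_
      filter_upwards [hl'.continuousAt.eventually_ne hne] with w hw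
      simp only [Function.comp_apply] at hw
      simp [hw]
  · intro z
    by_cases h0 : l z = 0
    · simp [h0, hvan z h0]
    · simp only [h0, if_false]
      field_simp

/-- The non-vanishing locus of a function with simple zeros is dense. -/
lemma dense_ne_zero {l : ℍ → ℂ} (hl : MDiff l)
    (hsimple : ∀ z : ℍ, l z = 0 → deriv (l ∘ ofComplex) z ≠ 0) : Dense {z : ℍ | l z ≠ 0} := by
  rw [UpperHalfPlane.mdifferentiable_iff] at hl
  intro z₀
  by_cases h0 : l z₀ = 0
  · rw [mem_closure_iff_frequently]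
    have hs : upperHalfPlaneSet ∈ 𝓝 (z₀ : ℂ) := isOpen_upperHalfPlaneSet.mem_nhds z₀.im_pos
    obtain ⟨-, hev⟩ := div_local hs hl hl (by simpa using h0) (by simpa using h0) (hsimple z₀ h0)
    have h1 : ∀ᶠ w in 𝓝[≠] (z₀ : ℂ), l (ofComplex w) ≠ 0 := by
      rw [eventually_nhdsWithin_iff]
      filter_upwards [hev] with w hw hne
      exact hw.2.1 hne
    have h2 : ∃ᶠ w in 𝓝 (z₀ : ℂ), l (ofComplex w) ≠ 0 :=
      h1.frequently.filter_mono nhdsWithin_le_nhds
    rw [← UpperHalfPlane.isOpenEmbedding_coe.map_nhds_eq z₀, frequently_map] at h2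
    simpa using h2
  · exact subset_closure h0

theorem IsVM.div_of_simple {X : Type} [MulAction SL(2, ℤ) X] {k w : ℤ} {Φ : X → ℍ → ℂ}
    (hΦ : IsVM X k Φ) (l : ModularForm 𝒮ℒ w)
    (hsimple : ∀ z : ℍ, l z = 0 → deriv (l ∘ ofComplex) z ≠ 0)
    (hvan : ∀ z : ℍ, l z = 0 → ∀ x, Φ x z = 0)
    (hinf : valueAtInfty l ≠ 0) :
    ∃ Ψ : X → ℍ → ℂ, IsVM X (k - w) Ψ ∧ ∀ x z, Φ x z = l z * Ψ x z := by
  have hl : MDiff (l : ℍ → ℂ) := l.holo'
  choose Ψ hΨ1 hΨ2 using fun x => exists_div (hΦ.holo x) hl hsimple (fun z hz => hvan z hz x)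
  have hmul : ∀ x, Φ x = (l : ℍ → ℂ) * Ψ x := fun x => funext fun z => hΨ2 x z
  have hdense := dense_ne_zero hl hsimple
  refine ⟨Ψ, ⟨fun γ x => ?_, hΨ1, fun x => ?_⟩, hΨ2⟩
  · have hlγ : (l : ℍ → ℂ) ∣[w] γ = l := SlashInvariantForm.slash_action_eqn l _ ⟨γ, rfl⟩
    have h1 : (l : ℍ → ℂ) * (Ψ x ∣[k - w] γ) = (l : ℍ → ℂ) * Ψ (γ⁻¹ • x) := by
      rw [← hmul, ← hΦ.equiv γ x, hmul x]
      conv_rhs => rw [show k = w + (k - w) by ring, mul_slash_SL2, hlγ]
    have hc1 : Continuous (Ψ x ∣[k - w] γ) :=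
      ((hΨ1 x).slash (k - w) (γ : GL (Fin 2) ℝ)).continuous
    have hc2 : Continuous (Ψ (γ⁻¹ • x)) := (hΨ1 _).continuous
    refine hc1.ext_on hdense hc2 fun z hz => ?_
    exact mul_left_cancel₀ hz (congrFun h1 z)
  · have hper : Function.Periodic ((l : ℍ → ℂ) ∘ ofComplex) 1 :=
      SlashInvariantFormClass.periodic_comp_ofComplex l one_mem_strictPeriods_SL
    have han := ModularFormClass.analyticAt_cuspFunction_zero l one_pos one_mem_strictPeriods_SL
    have ht : Tendsto l atImInfty (𝓝 (valueAtInfty l)) := by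
      rw [← cuspFunction_apply_zero one_pos han hper]
      refine (han.continuousAt.tendsto.comp (qParam_tendsto_atImInfty one_pos)).congr fun z => ?_
      simpa using eq_cuspFunction z one_ne_zero hper
    have h1 : (fun z => (l z)⁻¹) =O[atImInfty] (1 : ℍ → ℝ) := (ht.inv₀ hinf).isBigO_one ℝ
    have h2 : Φ x =O[atImInfty] (1 : ℍ → ℝ) := hΦ.bdd x
    have h3 := h2.mul h1
    simp only [Pi.one_apply, mul_one] at h3
    refine (h3.congr' ?_ EventuallyEq.rfl : _)
    filter_upwards [ht.eventually_ne hinf] with z hz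
    rw [hΨ2 x z]
    field_simp

theorem IsVM.div_discriminant {X : Type} [MulAction SL(2, ℤ) X] {k : ℤ} {Φ : X → ℍ → ℂ}
    (hΦ : IsVM X k Φ)
    (hO : ∀ x, Φ x =O[atImInfty] fun z : ℍ => Real.exp (-2 * Real.pi * z.im)) :
    IsVM X (k - 12) (fun x z => Φ x z / Δ z) := by
  refine ⟨fun γ x => ?_, fun x => ?_, fun x => ?_⟩
  · have hΔ : (Δ : ℍ → ℂ) ∣[(12 : ℤ)] γ = Δ :=
      SlashInvariantForm.slash_action_eqn CuspForm.discriminant _ ⟨γ, rfl⟩
    change (Φ x / Δ) ∣[k - 12] γ = Φ (γ⁻¹ • x) / Δ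
    rw [div_slash_SL2, hΔ, hΦ.equiv]
  · exact (hΦ.holo x).div CuspForm.discriminant.holo' discriminant_ne_zero
  · rw [IsBoundedAtImInfty, BoundedAtFilter]
    exact (Asymptotics.div_isBoundedUnder_of_isBigO ((hO x).trans exp_isBigO_discriminant)).isBigO_one ℝ

end Fermat.Agent.S20
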