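import Fermat.Agent.S20.Basic

set_option autoImplicit false

namespace Fermat.Agent.S20

open UpperHalfPlane ModularForm MatrixGroups ModularGroup
open scoped Manifold

/-- The sixth root of unity `exp (2 π i / 6)`. -/
noncomputable def xi : ℂ := Complex.exp (2 * Real.pi * Complex.I / (6 : ℕ))

lemma xi_prim : IsPrimitiveRoot xi 6 := Complex.isPrimitiveRoot_exp 6 (by norm_num)

lemma xi_eq : xi = 1 / 2 + (Real.sqrt 3 / 2 : ℝ) * Complex.I := by
  have h : (2 * Real.pi * Complex.I / (6 : ℕ) : ℂ) = ((Real.pi / 3 : ℝ) : ℂ) * Complex.I := by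
    push_cast; ring
  rw [xi, h, Complex.exp_mul_I, ← Complex.ofReal_cos, ← Complex.ofReal_sin,
    Real.cos_pi_div_three, Real.sin_pi_div_three]
  push_cast; ring

/-- The elliptic point of order three. -/
noncomputable def rho : ℍ := ⟨xi - 1, by
  rw [xi_eq]
  simp⟩

lemma coe_rho : (rho : ℂ) = xi - 1 := rfl

lemma xi_sq : xi ^ 2 = xi - 1 := by
  rw [xi_eq]
  have h3 : ((Real.sqrt 3 : ℝ) : ℂ) ^ 2 = 3 := by
    rw [← Complex.ofReal_pow, Real.sq_sqrt (by norm_num)]; norm_num
  push_cast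
  ring_nf
  rw [h3, Complex.I_sq]
  ring

lemma S_smul_I : S • I = I := by
  rw [modular_S_smul]
  ext
  simp [Complex.inv_I]

lemma denom_S_I : denom S I = Complex.I := by
  rw [ModularGroup.denom_S]; rfl

lemma U_smul_rho : Umat • rho = rho := by
  rw [Umat, mul_smul, modular_T_smul, modular_S_smul]
  ext
  have hx : xi ≠ 0 := xi_prim.ne_zero (by norm_num)
  simp only [coe_vadd, coe_rho]
  have : ((1 : ℝ) : ℂ) + (xi - 1) = xi := by push_cast; ring
  rw [this]
  field_simp
  linear_combination (-1 : ℂ) * xi_sq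

lemma denom_U_rho : denom Umat rho = xi := by
  rw [ModularGroup.denom_apply, coe_rho]
  have h10 : (Umat 1 0 : ℤ) = 1 := by decide
  have h11 : (Umat 1 1 : ℤ) = 1 := by decide
  rw [h10, h11]
  push_cast; ring

lemma I_prim : IsPrimitiveRoot Complex.I 4 := by
  refine IsPrimitiveRoot.mk_of_lt _ (by norm_num) Complex.I_pow_four ?_
  intro l hl hl4
  interval_cases l
  · intro h
    have := congrArg Complex.im h
    simp at this
  · rw [Complex.I_sq]; norm_num
  · rw [pow_succ, Complex.I_sq]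
    intro h
    have := congrArg Complex.im h
    simp at this

variable {X : Type} [MulAction SL(2, ℤ) X]

/-- Evaluation at a fixed point gives an eigenvector of the permutation operator. -/
lemma IsVM.eval_fixed {k : ℤ} {Φ : X → ℍ → ℂ} (h : IsVM X k Φ) {g : SL(2, ℤ)} {z : ℍ}
    (hg : g • z = z) (x : X) : Φ x z = denom g z ^ k * Φ (g⁻¹ • x) z := by
  conv_lhs => rw [← hg]
  exact h.apply_smul g x z

lemma IsVM.eval_fixed_pow {k : ℤ} {Φ : X → ℍ → ℂ} (h : IsVM X k Φ) {g : SL(2, ℤ)} {z : ℍ}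
    (hg : g • z = z) (a : ℕ) (x : X) :
    Φ x z = (denom g z ^ k) ^ a * Φ ((g ^ a)⁻¹ • x) z := by
  induction a generalizing x with
  | zero => simp
  | succ a ih =>
    rw [ih x, h.eval_fixed hg ((g ^ a)⁻¹ • x), ← mul_assoc, ← pow_succ, smul_smul, ← mul_inv_rev,
      ← pow_succ]

end Fermat.Agent.S20
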