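import Fermat.Agent.S20.Basic
import Fermat.Agent.Lib.JInjective

set_option autoImplicit false

namespace Fermat.Agent.S20

open UpperHalfPlane ModularForm MatrixGroups ModularGroup

local notation "Δ" => ModularForm.discriminant

theorem j_inj (z w : ℍ) (h : E₄ z ^ 3 * Δ w = E₄ w ^ 3 * Δ z) : ∃ γ : SL(2, ℤ), γ • z = w :=
  Fermat.Agent.Lib.JInjective.exists_smul_eq_of_j_eq h

end Fermat.Agent.S20
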