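import Fermat.Agent.S20.Elliptic
import Fermat.Agent.S20.JInj

set_option autoImplicit false

namespace Fermat.Agent.S20

open UpperHalfPlane ModularForm MatrixGroups ModularGroup Filter Asymptotics
open scoped Manifold Topology

local notation "Δ" => ModularForm.discriminant

/-- The comparison function `|q|`. -/
noncomputable def qAbs (z : ℍ) : ℝ := Real.exp (-2 * Real.pi * z.im)

lemma tendsto_qAbs : Tendsto qAbs atImInfty (𝓝 0) := by
  have h1 : Tendsto (fun z : ℍ => z.im) atImInfty atTop := tendsto_comap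
  have h2 : Tendsto (fun z : ℍ => -(2 * Real.pi * z.im)) atImInfty atBot :=
    tendsto_neg_atTop_atBot.comp (h1.const_mul_atTop (by positivity))
  have := Real.tendsto_exp_atBot.comp h2
  refine this.congr fun z => ?_
  simp [qAbs]

lemma IsL1.sub_value_isBigO {k : ℤ} {φ : ℍ → ℂ} (h : IsL1 k φ) :
    (fun z => φ z - valueAtInfty φ) =O[atImInfty] qAbs := by
  obtain ⟨f, rfl⟩ := h
  have := exp_decay_sub_atImInfty (f := f) one_pos
    (SlashInvariantFormClass.periodic_comp_ofComplex f one_mem_strictPeriods_SL)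
    f.holo' (ModularFormClass.bdd_at_infty f)
  refine this.congr_right fun z => ?_
  simp [qAbs]

lemma valueAtInfty_E4 : valueAtInfty E₄ = 1 := by
  rw [← qExpansion_coeff_zero one_pos
    (ModularFormClass.analyticAt_cuspFunction_zero E₄ one_pos one_mem_strictPeriods_SL)
    (SlashInvariantFormClass.periodic_comp_ofComplex E₄ one_mem_strictPeriods_SL)]
  exact EisensteinSeries.E_qExpansion_coeff_zero _ ⟨2, rfl⟩

lemma valueAtInfty_E6 : valueAtInfty E₆ = 1 := by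
  rw [← qExpansion_coeff_zero one_pos
    (ModularFormClass.analyticAt_cuspFunction_zero E₆ one_pos one_mem_strictPeriods_SL)
    (SlashInvariantFormClass.periodic_comp_ofComplex E₆ one_mem_strictPeriods_SL)]
  exact EisensteinSeries.E_qExpansion_coeff_zero _ ⟨3, rfl⟩

/-- `φ = 1 + O(q)`. -/
def IsOneAtInf (φ : ℍ → ℂ) : Prop := (fun z => φ z - 1) =O[atImInfty] qAbs

lemma IsOneAtInf.tendsto {φ : ℍ → ℂ} (h : IsOneAtInf φ) : Tendsto φ atImInfty (𝓝 1) := by
  have := h.trans_tendsto tendsto_qAbs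
  have h2 := this.add_const 1
  simpa using h2

lemma IsOneAtInf.exists_ne {φ : ℍ → ℂ} (h : IsOneAtInf φ) : ∃ z, φ z ≠ 0 := by
  have := h.tendsto.eventually_ne (one_ne_zero)
  exact this.exists

lemma isOneAtInf_one : IsOneAtInf (fun _ => 1) := by
  simp [IsOneAtInf, isBigO_zero]

lemma isOneAtInf_E4 : IsOneAtInf E₄ := by
  have := isL1_E4.sub_value_isBigO
  rwa [valueAtInfty_E4] at this

lemma isOneAtInf_E6 : IsOneAtInf E₆ := by
  have := isL1_E6.sub_value_isBigO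
  rwa [valueAtInfty_E6] at this

lemma IsOneAtInf.mul {φ ψ : ℍ → ℂ} (h : IsOneAtInf φ) (h' : IsOneAtInf ψ) :
    IsOneAtInf (fun z => φ z * ψ z) := by
  have hb : ψ =O[atImInfty] (fun _ => (1 : ℝ)) := h'.tendsto.isBigO_one ℝ
  have h1 : (fun z => (φ z - 1) * ψ z) =O[atImInfty] (fun z => qAbs z * 1) :=
    IsBigO.mul h hb
  simp only [mul_one] at h1
  have h2 : (fun z => (φ z - 1) * ψ z + (ψ z - 1)) =O[atImInfty] (fun z => qAbs z) :=
    h1.add h'
  refine h2.congr_left fun z => ?_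
  ring

lemma IsOneAtInf.pow {φ : ℍ → ℂ} (h : IsOneAtInf φ) (n : ℕ) : IsOneAtInf (fun z => φ z ^ n) := by
  induction n with
  | zero => simpa using isOneAtInf_one
  | succ n ih => simpa [pow_succ] using ih.mul h

lemma IsL1.apply_smul {k : ℤ} {φ : ℍ → ℂ} (h : IsL1 k φ) (γ : SL(2, ℤ)) (z : ℍ) :
    φ (γ • z) = denom γ z ^ k * φ z := by
  have := congrFun (h.slash γ) z
  rw [SL_slash_apply] at this
  conv_rhs => rw [← this]
  rw [zpow_neg, mul_comm, mul_assoc, inv_mul_cancel₀ (zpow_ne_zero k (denom_ne_zero γ z)), mul_one]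

lemma E6_I : E₆ I = 0 := by
  have h := isL1_E6.apply_smul S I
  rw [S_smul_I, denom_S_I] at h
  have h6 : (Complex.I : ℂ) ^ (6 : ℤ) = -1 := by
    have : (Complex.I : ℂ) ^ (6 : ℕ) = -1 := by
      rw [show (6 : ℕ) = 2 * 3 by norm_num, pow_mul, Complex.I_sq]; norm_num
    exact_mod_cast this
  rw [h6] at h
  have : (2 : ℂ) * E₆ I = 0 := by linear_combination h
  simpa using this

lemma E4_rho : E₄ rho = 0 := by
  have h := isL1_E4.apply_smul Umat rho
  rw [U_smul_rho, denom_U_rho] at h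
  have h4 : xi ^ (4 : ℤ) ≠ 1 := by
    intro h1
    have := (xi_prim.zpow_eq_one_iff_dvd 4).mp h1
    norm_num at this
  have : (xi ^ (4 : ℤ) - 1) * E₄ rho = 0 := by linear_combination -h
  rcases mul_eq_zero.mp this with h0 | h0
  · exact absurd (sub_eq_zero.mp h0) h4
  · exact h0

lemma disc_eq (z : ℍ) : Δ z = (E₄ z ^ 3 - E₆ z ^ 2) / 1728 :=
  discriminant_eq_E₄_cube_sub_E₆_sq z

lemma E4_ne_of_E6 {z : ℍ} (h : E₆ z = 0) : E₄ z ≠ 0 := by
  intro h4
  apply discriminant_ne_zero z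
  rw [disc_eq, h, h4]; norm_num

lemma E6_ne_of_E4 {z : ℍ} (h : E₄ z = 0) : E₆ z ≠ 0 := by
  intro h6
  apply discriminant_ne_zero z
  rw [disc_eq, h, h6]; norm_num

lemma exists_smul_I_of_E6 {z : ℍ} (h : E₆ z = 0) : ∃ γ : SL(2, ℤ), γ • I = z := by
  apply j_inj
  rw [disc_eq, disc_eq, h, E6_I]; ring

lemma exists_smul_rho_of_E4 {z : ℍ} (h : E₄ z = 0) : ∃ γ : SL(2, ℤ), γ • rho = z := by
  apply j_inj
  rw [h, E4_rho]; ring

/-- The level one form of weight twelve vanishing on the orbit of `z₀`. -/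
noncomputable def ellForm (z₀ : ℍ) : ModularForm 𝒮ℒ 12 :=
  (Δ z₀) • ModularForm.mcast (by norm_num) (E₄.pow 3) -
    (E₄ z₀ ^ 3) • (CuspForm.discriminant : ModularForm 𝒮ℒ 12)

lemma ellForm_apply (z₀ z : ℍ) : ellForm z₀ z = Δ z₀ * E₄ z ^ 3 - E₄ z₀ ^ 3 * Δ z := by
  have h : (E₄.pow 3) z = E₄ z ^ 3 := by rw [ModularForm.coe_pow]; rfl
  simp [ellForm, h]

lemma coe_ellForm (z₀ : ℍ) :
    (ellForm z₀ : ℍ → ℂ) = fun z => Δ z₀ * E₄ z ^ 3 - E₄ z₀ ^ 3 * Δ z :=
  funext (ellForm_apply z₀)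

lemma valueAtInfty_ellForm (z₀ : ℍ) : valueAtInfty (ellForm z₀) = Δ z₀ := by
  apply Tendsto.limUnder_eq
  rw [coe_ellForm]
  have h1 : Tendsto (fun z => E₄ z ^ 3) atImInfty (𝓝 1) := (isOneAtInf_E4.pow 3).tendsto
  have h2 : Tendsto Δ atImInfty (𝓝 0) := discriminant_isZeroAtImInfty
  have := (h1.const_mul (Δ z₀)).sub (h2.const_mul (E₄ z₀ ^ 3))
  simpa using this

lemma exists_smul_of_ellForm {z₀ z : ℍ} (h : ellForm z₀ z = 0) : ∃ γ : SL(2, ℤ), γ • z₀ = z := by
  apply j_inj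
  rw [ellForm_apply] at h
  linear_combination -h

end Fermat.Agent.S20
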