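import Fermat.Agent.S20.Defs

set_option autoImplicit false

namespace Fermat.Agent.S20

open UpperHalfPlane ModularForm MatrixGroups ModularGroup Derivative Filter Topology EisensteinSeries
open scoped Manifold Real

local notation "Δ" => ModularForm.discriminant
local notation "𝕢" => Function.Periodic.qParam

/-- `D f = q * F'(q)` where `F` is the cusp function. -/
lemma D_eq_qParam_mul {f : ℍ → ℂ} (hper : Function.Periodic (f ∘ ofComplex) 1) (hhol : MDiff f)
    (hbdd : IsBoundedAtImInfty f) (z : ℍ) :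
    D f z = 𝕢 1 z * deriv (cuspFunction 1 f) (𝕢 1 z) := by
  have hq : ‖𝕢 1 (z : ℂ)‖ < 1 := Function.Periodic.norm_qParam_lt_one one_pos z.im_pos
  have h1 : HasDerivAt (cuspFunction 1 f) (deriv (cuspFunction 1 f) (𝕢 1 z)) (𝕢 1 z) :=
    (differentiableAt_cuspFunction one_pos hper hhol hbdd hq).hasDerivAt
  have h2 : HasDerivAt (𝕢 1) (2 * π * Complex.I * 𝕢 1 z) (z : ℂ) := by
    have := (Function.Periodic.differentiable_qParam (h := 1) (z : ℂ)).hasDerivAt
    have h3 := logDeriv_qParam 1 (z : ℂ)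
    rw [logDeriv_apply, div_eq_iff (Function.Periodic.qParam_ne_zero _)] at h3
    rw [h3] at this
    simpa using this
  have h3 : (f ∘ ofComplex) =ᶠ[𝓝 (z : ℂ)] (cuspFunction 1 f) ∘ (𝕢 1) := by
    filter_upwards [isOpen_upperHalfPlaneSet.mem_nhds z.im_pos] with w hw
    have := eq_cuspFunction (f := f) ⟨w, hw⟩ one_ne_zero hper
    simp only [Function.comp_apply, ofComplex_apply_of_im_pos hw]
    exact this.symm
  have h4 := (h1.comp (z : ℂ) h2).congr_of_eventuallyEq h3
  rw [normalizedDerivOfComplex, h4.deriv]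
  have : (2 * π * Complex.I : ℂ) ≠ 0 := by simp [Real.pi_ne_zero]
  field_simp

lemma D_isZeroAtImInfty {f : ℍ → ℂ} (hper : Function.Periodic (f ∘ ofComplex) 1) (hhol : MDiff f)
    (hbdd : IsBoundedAtImInfty f) : IsZeroAtImInfty (D f) := by
  have han : AnalyticAt ℂ (cuspFunction 1 f) 0 := analyticAt_cuspFunction_zero one_pos hper hhol hbdd
  have hc : ContinuousAt (fun q : ℂ => q * deriv (cuspFunction 1 f) q) 0 :=
    continuousAt_id.mul han.deriv.continuousAt
  have ht := hc.tendsto.comp (qParam_tendsto_atImInfty one_pos)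
  simp only [zero_mul] at ht
  refine ht.congr fun z => ?_
  simp [D_eq_qParam_mul hper hhol hbdd z]

/-- A level one slash invariant holomorphic function of weight `< 12` vanishing at `i∞` is zero. -/
lemma eq_zero_of_weight_lt_twelve {k : ℤ} (hk : k < 12) {g : ℍ → ℂ}
    (hinv : ∀ γ : SL(2, ℤ), g ∣[k] γ = g) (hhol : MDiff g) (hzero : IsZeroAtImInfty g) : g = 0 := by
  let G : CuspForm 𝒮ℒ k :=
    { toFun := g
      slash_action_eq' := fun _ ⟨γ, hγ⟩ ↦ hγ ▸ hinv γ
      holo' := hhol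
      zero_at_cusps' := fun {c} hc => by
        rw [Subgroup.IsArithmetic.isCusp_iff_isCusp_SL2Z] at hc
        rw [OnePoint.isZeroAt_iff_forall_SL2Z hc]
        intro γ _
        rw [hinv γ]
        exact hzero }
  have : G = 0 := rank_zero_iff_forall_zero.mp (CuspForm.rank_eq_zero_of_weight_lt_twelve hk) G
  exact congrArg DFunLike.coe this

lemma slash_eq_self {k : ℤ} (f : ModularForm 𝒮ℒ k) (γ : SL(2, ℤ)) : (f : ℍ → ℂ) ∣[k] γ = f :=
  SlashInvariantForm.slash_action_eqn f _ ⟨γ, rfl⟩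

lemma periodic_levelOne {k : ℤ} (f : ModularForm 𝒮ℒ k) :
    Function.Periodic ((f : ℍ → ℂ) ∘ ofComplex) 1 :=
  SlashInvariantFormClass.periodic_comp_ofComplex f one_mem_strictPeriods_SL

lemma tendsto_of_nice {f : ℍ → ℂ} (hper : Function.Periodic (f ∘ ofComplex) 1) (hhol : MDiff f)
    (hbdd : IsBoundedAtImInfty f) : Tendsto f atImInfty (𝓝 (cuspFunction 1 f 0)) := by
  have han := analyticAt_cuspFunction_zero one_pos hper hhol hbdd
  have ht := han.continuousAt.tendsto.comp (qParam_tendsto_atImInfty one_pos)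
  refine ht.congr fun z => ?_
  simpa using eq_cuspFunction z one_ne_zero hper

lemma tendsto_levelOne {k : ℤ} (f : ModularForm 𝒮ℒ k) :
    Tendsto f atImInfty (𝓝 ((qExpansion 1 f).coeff 0)) := by
  have han := ModularFormClass.analyticAt_cuspFunction_zero f one_pos one_mem_strictPeriods_SL
  rw [qExpansion_coeff_zero one_pos han (periodic_levelOne f),
    ← cuspFunction_apply_zero one_pos han (periodic_levelOne f)]
  exact tendsto_of_nice (periodic_levelOne f) f.holo' (ModularFormClass.bdd_at_infty f)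

lemma periodic_E2 : Function.Periodic (EisensteinSeries.E2 ∘ ofComplex) 1 := by
  intro w
  by_cases! hw : 0 < w.im
  · have hw' : 0 < (w + 1).im := by simpa using hw
    simp only [Function.comp_apply, ofComplex_apply_of_im_pos hw', ofComplex_apply_of_im_pos hw]
    refine (EisensteinSeries.hasSum_qExpansion_E2 (z := ⟨w + 1, hw'⟩)).unique ?_
    convert EisensteinSeries.hasSum_qExpansion_E2 (z := ⟨w, hw⟩) using 4
    simp [mul_add, Complex.exp_add]
  · have : (w + 1).im ≤ 0 := by simpa using hw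
    simp [ofComplex_apply_of_im_nonpos this, ofComplex_apply_of_im_nonpos hw]

lemma tendsto_E2 : Tendsto EisensteinSeries.E2 atImInfty (𝓝 1) := by
  have h := tendsto_of_nice periodic_E2 E2_mdifferentiable EisensteinSeries.isBoundedAtImInfty_E2
  have han := analyticAt_cuspFunction_zero one_pos periodic_E2 E2_mdifferentiable
    EisensteinSeries.isBoundedAtImInfty_E2
  have h2 := hasFPowerSeriesOnBall_cuspFunction (f := EisensteinSeries.E2) (h := 1)
    (c := fun m : ℕ ↦ (if m = 0 then 1 else -24 * ArithmeticFunction.sigma 1 m : ℂ)) one_pos han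
    (fun τ => by
      simpa only [Function.Periodic.qParam, Complex.ofReal_one, div_one] using
        EisensteinSeries.hasSum_qExpansion_E2 (z := τ))
  have h3 := h2.coeff_zero (fun _ => 0)
  rw [← h3] at h
  simpa using h

lemma serre_eq {k : ℤ} (hk : k + 2 < 12) (f : ModularForm 𝒮ℒ k) {h : ℍ → ℂ}
    (hinv : ∀ γ : SL(2, ℤ), h ∣[k + 2] γ = h) (hhol : MDiff h) {a b : ℂ}
    (hf : Tendsto f atImInfty (𝓝 a)) (hh : Tendsto h atImInfty (𝓝 b))
    (hab : (k : ℂ) * 12⁻¹ * a + b = 0) : serreDerivative k f = h := by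
  have hz : serreDerivative k f - h = 0 := by
    refine eq_zero_of_weight_lt_twelve hk (fun γ => ?_) ?_ ?_
    · have hh' : MDiff (f : ℍ → ℂ) := f.holo'
      rw [sub_eq_add_neg, SlashAction.add_slash, SlashAction.neg_slash, hinv γ,
        serreDerivative_slash_invariant hh' (slash_eq_self f γ)]
    · exact (serreDerivative_mdifferentiable _ f.holo').sub hhol
    · have h1 : Tendsto (D f) atImInfty (𝓝 0) :=
        D_isZeroAtImInfty (periodic_levelOne f) f.holo' (ModularFormClass.bdd_at_infty f)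
      have h2 := ((h1.sub (((tendsto_const_nhds (x := (k : ℂ) * 12⁻¹)).mul tendsto_E2).mul hf)).sub
        hh)
      have h3 : (0 : ℂ) - (k : ℂ) * 12⁻¹ * 1 * a - b = 0 := by linear_combination -hab
      rw [h3] at h2
      exact h2
  exact sub_eq_zero.mp hz

lemma serre_E4 (z : ℍ) : serreDerivative 4 E₄ z = -(1 / 3) * E₆ z := by
  have h4 := tendsto_levelOne E₄
  have h6 := tendsto_levelOne E₆
  rw [E_qExpansion_coeff_zero _ ⟨2, rfl⟩] at h4
  rw [E_qExpansion_coeff_zero _ ⟨3, rfl⟩] at h6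
  have := serre_eq (k := 4) (by norm_num) E₄ (h := (-(1 / 3) : ℂ) • (E₆ : ℍ → ℂ)) (a := 1)
    (b := -(1 / 3) * 1) (fun γ => ?_) ?_ h4 (h6.const_mul _) (by norm_num)
  · simpa using congrFun this z
  · rw [SL_smul_slash]
    congr 1
    exact slash_eq_self E₆ γ
  · exact E₆.holo'.const_smul _

lemma serre_E6 (z : ℍ) : serreDerivative 6 E₆ z = -(1 / 2) * E₄ z ^ 2 := by
  have h4 := tendsto_levelOne E₄
  have h6 := tendsto_levelOne E₆
  rw [E_qExpansion_coeff_zero _ ⟨2, rfl⟩] at h4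
  rw [E_qExpansion_coeff_zero _ ⟨3, rfl⟩] at h6
  have := serre_eq (k := 6) (by norm_num) E₆ (h := (-(1 / 2) : ℂ) • ((E₄.mul E₄ : ModularForm 𝒮ℒ (4 + 4)) : ℍ → ℂ))
    (a := 1) (b := -(1 / 2) * (1 * 1)) (fun γ => ?_) ?_ h6 ((h4.mul h4).const_mul _) (by norm_num)
  · have h8 : (E₄.mul E₄) z = E₄ z * E₄ z := rfl
    simpa [sq, h8] using congrFun this z
  · rw [SL_smul_slash]
    congr 1
    exact slash_eq_self (E₄.mul E₄) γ
  · exact (E₄.mul E₄).holo'.const_smul _

lemma D_discriminant (z : ℍ) : D Δ z = E2 z * Δ z := by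
  have h1 : (Δ ∘ ofComplex) =ᶠ[𝓝 (z : ℂ)] fun w => eta w ^ 24 := by
    filter_upwards [isOpen_upperHalfPlaneSet.mem_nhds z.im_pos] with w hw
    simp [ModularForm.discriminant, ofComplex_apply_of_im_pos hw]
  have h2 : HasDerivAt eta (deriv eta z) (z : ℂ) :=
    (differentiableAt_eta_of_mem_upperHalfPlaneSet z.im_pos).hasDerivAt
  have h3 := logDeriv_eta_eq_E2 z
  rw [logDeriv_apply, div_eq_iff (eta_ne_zero z.im_pos)] at h3
  rw [normalizedDerivOfComplex, ((h2.pow 24).congr_of_eventuallyEq h1).deriv, h3]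
  have : (2 * π * Complex.I : ℂ) ≠ 0 := by simp [Real.pi_ne_zero]
  simp only [ModularForm.discriminant]
  field_simp
  ring

lemma deriv_eq_of_D {F : ℍ → ℂ} (z : ℍ) :
    deriv (F ∘ ofComplex) z = 2 * π * Complex.I * D F z := by
  have : (2 * π * Complex.I : ℂ) ≠ 0 := by simp [Real.pi_ne_zero]
  rw [normalizedDerivOfComplex]
  field_simp

lemma D_E4 (z : ℍ) : D E₄ z = 1 / 3 * (E2 z * E₄ z - E₆ z) := by
  have := serre_E4 z
  rw [serreDerivative_apply] at this
  linear_combination this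

lemma D_E6 (z : ℍ) : D E₆ z = 1 / 2 * (E2 z * E₆ z - E₄ z ^ 2) := by
  have := serre_E6 z
  rw [serreDerivative_apply] at this
  linear_combination this

lemma two_pi_I_ne_zero' : (2 * π * Complex.I : ℂ) ≠ 0 := by simp [Real.pi_ne_zero]

/-- (J2) simple zeros. -/
theorem E4_simple (z : ℍ) (h : E₄ z = 0) : deriv (E₄ ∘ ofComplex) z ≠ 0 := by
  rw [deriv_eq_of_D, D_E4, h]
  intro h0
  have h6 : E₆ z = 0 := by
    rcases mul_eq_zero.mp h0 with h1 | h1
    · exact absurd h1 two_pi_I_ne_zero'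
    · linear_combination -3 * h1
  have := discriminant_eq_E₄_cube_sub_E₆_sq z
  rw [h, h6] at this
  exact discriminant_ne_zero z (by simpa using this)

theorem E6_simple (z : ℍ) (h : E₆ z = 0) : deriv (E₆ ∘ ofComplex) z ≠ 0 := by
  rw [deriv_eq_of_D, D_E6, h]
  intro h0
  have h4 : E₄ z = 0 := by
    rcases mul_eq_zero.mp h0 with h1 | h1
    · exact absurd h1 two_pi_I_ne_zero'
    · have : E₄ z ^ 2 = 0 := by linear_combination -2 * h1
      exact pow_eq_zero_iff (two_ne_zero) |>.mp this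
  have := discriminant_eq_E₄_cube_sub_E₆_sq z
  rw [h, h4] at this
  exact discriminant_ne_zero z (by simpa using this)

theorem ell_simple (z₀ z : ℍ) (h4 : E₄ z₀ ≠ 0) (h6 : E₆ z₀ ≠ 0)
    (h : Δ z₀ * E₄ z ^ 3 - E₄ z₀ ^ 3 * Δ z = 0) :
    deriv ((fun w : ℍ => Δ z₀ * E₄ w ^ 3 - E₄ z₀ ^ 3 * Δ w) ∘ ofComplex) z ≠ 0 := by
  have hE : HasDerivAt (E₄ ∘ ofComplex) (deriv (E₄ ∘ ofComplex) z) (z : ℂ) :=
    (mdifferentiableAt_iff.mp (E₄.holo' z)).hasDerivAt
  have hD : HasDerivAt (Δ ∘ ofComplex) (deriv (Δ ∘ ofComplex) z) (z : ℂ) :=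
    (mdifferentiableAt_iff.mp (CuspForm.discriminant.holo' z)).hasDerivAt
  have hF : HasDerivAt ((fun w : ℍ => Δ z₀ * E₄ w ^ 3 - E₄ z₀ ^ 3 * Δ w) ∘ ofComplex) _ (z : ℂ) :=
    ((hE.pow 3).const_mul (Δ z₀)).sub (hD.const_mul (E₄ z₀ ^ 3))
  rw [hF.deriv, deriv_eq_of_D, deriv_eq_of_D, D_E4, D_discriminant]
  simp only [Function.comp_apply, ofComplex_apply]
  have hz0 := discriminant_ne_zero z₀
  have hz := discriminant_ne_zero z
  have e0 := discriminant_eq_E₄_cube_sub_E₆_sq z₀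
  have e1 := discriminant_eq_E₄_cube_sub_E₆_sq z
  have hE4 : E₄ z ≠ 0 := by
    intro h0
    rw [h0] at h
    have : E₄ z₀ ^ 3 * Δ z = 0 := by linear_combination -h
    exact (mul_ne_zero (pow_ne_zero 3 h4) hz) this
  have hE6 : E₆ z ≠ 0 := by
    intro h0
    rw [h0] at e1
    have h5 : Δ z * E₆ z₀ ^ 2 = 0 := by
      linear_combination (-1 : ℂ) * h + (1728 * Δ z) * e0 - (1728 * Δ z₀) * e1
    exact (mul_ne_zero hz (pow_ne_zero 2 h6)) h5
  intro h0
  have h7 : (2 * π * Complex.I : ℂ) * (Δ z₀ * E₄ z ^ 2 * E₆ z) = 0 := by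
    linear_combination (2 * π * Complex.I * E2 z) * h - h0
  exact (mul_ne_zero two_pi_I_ne_zero' (mul_ne_zero (mul_ne_zero hz0 (pow_ne_zero 2 hE4)) hE6)) h7

end Fermat.Agent.S20
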