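import Fermat.Agent.S20.Reduce
import Fermat.Agent.S20.LevelOne
import Fermat.Agent.S20.Simple
import Fermat.Agent.S20.Div

set_option autoImplicit false

namespace Fermat.Agent.S20

open UpperHalfPlane ModularForm MatrixGroups ModularGroup Filter Asymptotics
open scoped Manifold Topology

local notation "Δ" => ModularForm.discriminant

variable {X : Type} [Fintype X] [DecidableEq X] [MulAction SL(2, ℤ) X]

/-- Abstract form of the saturation argument. -/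
theorem contra_abstract {k : X → ℤ} {Φ : X → X → ℍ → ℂ} (h : IsFam k Φ)
    (hmin : ∀ (k' : X → ℤ) (Φ' : X → X → ℍ → ℂ), IsFam k' Φ' → ∑ i, k i ≤ ∑ i, k' i)
    (J : Finset X) (hJ : J.Nonempty) (c : X → ℂ) (hc : ∀ i ∈ J, c i ≠ 0)
    (δ w : ℤ) (hδ : δ < w) (Q : (ℍ → ℂ) → Prop) (hQ : ∀ φ, Q φ → ∃ z, φ z ≠ 0)
    (mult : ∀ i ∈ J, ∀ j ∈ J, k i ≤ k j → ∃ φ, IsL1 (k j - k i + δ) φ ∧ Q φ)
    (divide : ∀ (K : ℤ) (φ : X → ℍ → ℂ), (∀ i ∈ J, Q (φ i)) →
      IsVM X K (fun x z => ∑ i ∈ J, (c i * φ i z) * Φ i x z) →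
      ∃ (b : ℍ → ℂ) (Ψ : X → ℍ → ℂ), IsVM X (K - w) Ψ ∧
        ∀ x z, b z * Ψ x z = ∑ i ∈ J, (c i * φ i z) * Φ i x z) : False := by
  classical
  obtain ⟨i0, hi0, hmax⟩ := Finset.exists_max_image J k hJ
  let φ : X → ℍ → ℂ := fun i => if hi : i ∈ J then (mult i hi i0 hi0 (hmax i hi)).choose else 0
  have hφ : ∀ i ∈ J, IsL1 (k i0 - k i + δ) (φ i) ∧ Q (φ i) := by
    intro i hi
    simp only [φ, hi, dif_pos]
    exact (mult i hi i0 hi0 (hmax i hi)).choose_spec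
  have hF : IsVM X (k i0 + δ) (fun x z => ∑ i ∈ J, (c i * φ i z) * Φ i x z) := by
    apply IsVM.sum
    intro i hi
    exact (IsVM.mul_L1 ((hφ i hi).1.smul (c i)) (h.1 i)).congr_wt (by ring)
  obtain ⟨b, Ψ, hΨ, hrel⟩ := divide _ φ (fun i hi => (hφ i hi).2) hF
  refine contra_of_combo h hmin J i0 hi0 (fun i z => c i * φ i z) (k i0 + δ - w) (by omega)
    ?_ ?_ b Ψ hΨ hrel
  · exact ((hφ i0 hi0).1.smul (c i0)).holo
  · obtain ⟨z, hz⟩ := hQ _ (hφ i0 hi0).2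
    exact ⟨z, mul_ne_zero (hc i0 hi0) hz⟩

lemma exists_four_six (n : ℤ) (hn : Even n) (h4 : 4 ≤ n) : ∃ a b : ℕ, (a : ℤ) * 4 + b * 6 = n := by
  obtain ⟨m, rfl⟩ := hn
  rcases Int.even_or_odd m with ⟨r, rfl⟩ | ⟨r, rfl⟩
  · exact ⟨r.toNat, 0, by omega⟩
  · exact ⟨(r - 1).toNat, 1, by omega⟩

lemma isL1_E4E6 (a b : ℕ) : IsL1 ((a : ℤ) * 4 + b * 6) (fun z => E₄ z ^ a * E₆ z ^ b) :=
  (isL1_E4.pow a).mul (isL1_E6.pow b)

/-- A dependency at `z`. -/
def IsDep (Φ : X → X → ℍ → ℂ) (c : X → ℂ) (z : ℍ) : Prop := ∀ x, ∑ i, c i * Φ i x z = 0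

omit [MulAction SL(2, ℤ) X] in
lemma exists_dep_of_det {Φ : X → X → ℍ → ℂ} {z : ℍ} (h : detFn Φ z = 0) :
    ∃ c : X → ℂ, c ≠ 0 ∧ IsDep Φ c z := by
  obtain ⟨v, hv, h0⟩ := Matrix.exists_vecMul_eq_zero_iff.mpr h
  refine ⟨v, hv, fun x => ?_⟩
  have := congrFun h0 x
  simpa [Matrix.vecMul, dotProduct] using this

omit [DecidableEq X] in
lemma IsDep.transport {k : X → ℤ} {Φ : X → X → ℍ → ℂ} (hΦ : ∀ i, IsVM X (k i) (Φ i))
    {c : X → ℂ} {z : ℍ} (γ : SL(2, ℤ)) (h : IsDep Φ c (γ • z)) :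
    IsDep Φ (fun i => c i * denom γ z ^ k i) z := by
  intro x
  have := h (γ • x)
  simp only [(hΦ _).apply_smul γ, inv_smul_smul] at this
  simpa [mul_assoc] using this

/-- Generic points. -/
theorem no_dep_generic (hneg : ∀ x : X, (-1 : SL(2, ℤ)) • x = x)
    {k : X → ℤ} {Φ : X → X → ℍ → ℂ} (h : IsFam k Φ)
    (hmin : ∀ (k' : X → ℤ) (Φ' : X → X → ℍ → ℂ), IsFam k' Φ' → ∑ i, k i ≤ ∑ i, k' i)
    (z₀ : ℍ) (h4 : E₄ z₀ ≠ 0) (h6 : E₆ z₀ ≠ 0) (c : X → ℂ) (hc : c ≠ 0) (hdep : IsDep Φ c z₀) :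
    False := by
  have hJ : (Finset.univ.filter fun i => c i ≠ 0).Nonempty := by
    obtain ⟨i, hi⟩ := Function.ne_iff.mp hc
    exact ⟨i, by simpa using hi⟩
  refine contra_abstract h hmin _ hJ c (fun i hi => (Finset.mem_filter.mp hi).2) 10 12 (by norm_num)
    (fun φ => φ z₀ = 1) (fun φ hφ => ⟨z₀, by rw [hφ]; exact one_ne_zero⟩) ?_ ?_
  · intro i _ j _ hij
    obtain ⟨a, b, hab⟩ := exists_four_six (k j - k i + 10)
      (((h.even_nonneg hneg j).1.sub (h.even_nonneg hneg i).1).add (by decide)) (by omega)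
    refine ⟨fun z => (E₄ z₀ ^ a * E₆ z₀ ^ b)⁻¹ * (E₄ z ^ a * E₆ z ^ b), ?_, ?_⟩
    · exact ((isL1_E4E6 a b).smul _).congr_wt hab
    · exact inv_mul_cancel₀ (mul_ne_zero (pow_ne_zero _ h4) (pow_ne_zero _ h6))
  · intro K φ hφ hF
    have hz0 : ∀ x, ∑ i ∈ Finset.univ.filter (fun i => c i ≠ 0), (c i * φ i z₀) * Φ i x z₀ = 0 := by
      intro x
      refine Eq.trans ?_ (hdep x)
      rw [Finset.sum_filter]
      apply Finset.sum_congr rfl
      intro i _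
      by_cases hi : c i = 0
      · simp [hi]
      · simp [hi, hφ i (by simpa using hi)]
    obtain ⟨Ψ, hΨ, hrel⟩ := hF.div_of_simple (ellForm z₀)
      (by
        intro z hz
        rw [coe_ellForm]
        exact ell_simple z₀ z h4 h6 (by rw [← ellForm_apply]; exact hz))
      (by
        intro z hz x
        obtain ⟨γ, rfl⟩ := exists_smul_of_ellForm hz
        exact hF.vanish_orbit hz0 γ x)
      (by rw [valueAtInfty_ellForm]; exact discriminant_ne_zero z₀)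
    exact ⟨ellForm z₀, Ψ, hΨ, fun x z => (hrel x z).symm⟩

omit [DecidableEq X] in
/-- A dependency at an elliptic point splits along the weight classes. -/
lemma IsDep.split {k : X → ℤ} {Φ : X → X → ℍ → ℂ} (hΦ : ∀ i, IsVM X (k i) (Φ i))
    (hev : ∀ i, Even (k i)) {g : SL(2, ℤ)} {z : ℍ} (hg : g • z = z) {n : ℕ} (hn : 0 < n)
    (hξ : IsPrimitiveRoot (denom g z) (2 * n)) {c : X → ℂ} (hdep : IsDep Φ c z)
    (r : ℤ) (hr : Even r) :
    IsDep Φ (fun i => if ((2 * n : ℕ) : ℤ) ∣ k i - r then c i else 0) z := by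
  intro x
  set ξ := denom g z with hξdef
  have hξ0 : ξ ≠ 0 := denom_ne_zero g z
  have key : ∀ a : ℕ, ∑ i, c i * (ξ ^ (r - k i)) ^ a * Φ i x z = 0 := by
    intro a
    have h1 := hdep ((g ^ a)⁻¹ • x)
    have h2 : ∑ i, c i * (ξ ^ (r - k i)) ^ a * Φ i x z
        = (ξ ^ r) ^ a * ∑ i, c i * Φ i ((g ^ a)⁻¹ • x) z := by
      rw [Finset.mul_sum]
      apply Finset.sum_congr rfl
      intro i _
      rw [(hΦ i).eval_fixed_pow hg a x, ← hξdef]
      have : (ξ ^ r) ^ a = (ξ ^ (r - k i)) ^ a * (ξ ^ k i) ^ a := by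
        rw [← mul_pow, ← zpow_add₀ hξ0]; congr 2; ring
      rw [this]; ring
    rw [h2, h1, mul_zero]
  have hsum : ∀ i, ∑ a ∈ Finset.range n, (ξ ^ (r - k i)) ^ a
      = if ((2 * n : ℕ) : ℤ) ∣ k i - r then (n : ℂ) else 0 := by
    intro i
    have h1 : ξ ^ (r - k i) = 1 ↔ ((2 * n : ℕ) : ℤ) ∣ k i - r := by
      rw [hξ.zpow_eq_one_iff_dvd, dvd_sub_comm]
    split_ifs with hd
    · rw [h1.mpr hd]; simp
    · have hne : ξ ^ (r - k i) ≠ 1 := fun h => hd (h1.mp h)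
      rw [geom_sum_eq hne]
      have : (ξ ^ (r - k i)) ^ n = 1 := by
        rw [← zpow_natCast, ← zpow_mul, hξ.zpow_eq_one_iff_dvd]
        obtain ⟨m, hm⟩ := hr.sub (hev i)
        rw [hm]
        exact ⟨m, by push_cast; ring⟩
      rw [this]; simp
  have h3 : ∑ a ∈ Finset.range n, ∑ i, c i * (ξ ^ (r - k i)) ^ a * Φ i x z = 0 :=
    Finset.sum_eq_zero fun a _ => key a
  rw [Finset.sum_comm] at h3
  have h4 : (n : ℂ) * ∑ i, (if ((2 * n : ℕ) : ℤ) ∣ k i - r then c i else 0) * Φ i x z = 0 := by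
    refine Eq.trans ?_ h3
    rw [Finset.mul_sum]
    apply Finset.sum_congr rfl
    intro i _
    have : ∑ a ∈ Finset.range n, c i * (ξ ^ (r - k i)) ^ a * Φ i x z
        = c i * (∑ a ∈ Finset.range n, (ξ ^ (r - k i)) ^ a) * Φ i x z := by
      rw [Finset.mul_sum, Finset.sum_mul]
    rw [this, hsum i]
    split_ifs <;> ring
  rcases mul_eq_zero.mp h4 with h5 | h5
  · exact absurd h5 (by exact_mod_cast hn.ne')
  · exact h5

/-- Elliptic points. -/
theorem no_dep_elliptic (hneg : ∀ x : X, (-1 : SL(2, ℤ)) • x = x)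
    {k : X → ℤ} {Φ : X → X → ℍ → ℂ} (h : IsFam k Φ)
    (hmin : ∀ (k' : X → ℤ) (Φ' : X → X → ℍ → ℂ), IsFam k' Φ' → ∑ i, k i ≤ ∑ i, k' i)
    {g : SL(2, ℤ)} {ze : ℍ} (hg : g • ze = ze) {n : ℕ} (hn : 0 < n)
    (hξ : IsPrimitiveRoot (denom g ze) (2 * n))
    (A : ℍ → ℂ) (hA1 : IsL1 ((2 * n : ℕ) : ℤ) A) (hA : A ze ≠ 0)
    {w : ℤ} (hw : 0 < w) (B : ModularForm 𝒮ℒ w)
    (hBs : ∀ z : ℍ, B z = 0 → deriv (B ∘ ofComplex) z ≠ 0)
    (hBz : ∀ z : ℍ, B z = 0 → ∃ γ : SL(2, ℤ), γ • ze = z) (hBinf : valueAtInfty B ≠ 0)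
    (c : X → ℂ) (hc : c ≠ 0) (hdep : IsDep Φ c ze) : False := by
  obtain ⟨i1, hi1⟩ := Function.ne_iff.mp hc
  have hev : ∀ i, Even (k i) := fun i => (h.even_nonneg hneg i).1
  set c' : X → ℂ := fun i => if ((2 * n : ℕ) : ℤ) ∣ k i - k i1 then c i else 0 with hc'
  have hdep' : IsDep Φ c' ze := hdep.split h.1 hev hg hn hξ (k i1) (hev i1)
  have hJ : (Finset.univ.filter fun i => c' i ≠ 0).Nonempty :=
    ⟨i1, by simpa [hc'] using hi1⟩
  have hmem : ∀ i, i ∈ Finset.univ.filter (fun i => c' i ≠ 0) →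
      ((2 * n : ℕ) : ℤ) ∣ k i - k i1 := by
    intro i hi
    by_contra hd
    exact (Finset.mem_filter.mp hi).2 (if_neg hd)
  refine contra_abstract h hmin _ hJ c' (fun i hi => (Finset.mem_filter.mp hi).2) 0 w hw
    (fun φ => φ ze = 1) (fun φ hφ => ⟨ze, by rw [hφ]; exact one_ne_zero⟩) ?_ ?_
  · intro i hi j hj hij
    obtain ⟨m, hm⟩ : ((2 * n : ℕ) : ℤ) ∣ k j - k i := by
      have := dvd_sub (hmem j hj) (hmem i hi)
      simpa using this
    have hm0 : 0 ≤ m := by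
      by_contra hneg'
      have h1 : (0 : ℤ) < ((2 * n : ℕ) : ℤ) := by exact_mod_cast (by omega : 0 < 2 * n)
      have h2 : ((2 * n : ℕ) : ℤ) * m < 0 := mul_neg_of_pos_of_neg h1 (by omega)
      omega
    refine ⟨fun z => (A ze ^ m.toNat)⁻¹ * A z ^ m.toNat, ?_, ?_⟩
    · refine ((hA1.pow m.toNat).smul _).congr_wt ?_
      rw [Int.toNat_of_nonneg hm0, hm]; ring
    · exact inv_mul_cancel₀ (pow_ne_zero _ hA)
  · intro K φ hφ hF
    have hz0 : ∀ x, ∑ i ∈ Finset.univ.filter (fun i => c' i ≠ 0),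
        (c' i * φ i ze) * Φ i x ze = 0 := by
      intro x
      refine Eq.trans ?_ (hdep' x)
      rw [Finset.sum_filter]
      apply Finset.sum_congr rfl
      intro i _
      by_cases hi : c' i = 0
      · simp [hi]
      · simp [hi, hφ i (by simpa using hi)]
    obtain ⟨Ψ, hΨ, hrel⟩ := hF.div_of_simple B hBs
      (by
        intro z hz x
        obtain ⟨γ, rfl⟩ := hBz z hz
        exact hF.vanish_orbit hz0 γ x)
      hBinf
    exact ⟨B, Ψ, hΨ, fun x z => (hrel x z).symm⟩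

omit [DecidableEq X] [MulAction SL(2, ℤ) X] in
lemma satInf_iff (Φ : X → X → ℍ → ℂ) : SatInf Φ ↔
    ∀ c : X → ℂ, (∀ x, (fun z : ℍ => ∑ i, c i * Φ i x z) =O[atImInfty] qAbs) → c = 0 := Iff.rfl

/-- The cusp. -/
theorem no_dep_infty (hneg : ∀ x : X, (-1 : SL(2, ℤ)) • x = x)
    {k : X → ℤ} {Φ : X → X → ℍ → ℂ} (h : IsFam k Φ)
    (hmin : ∀ (k' : X → ℤ) (Φ' : X → X → ℍ → ℂ), IsFam k' Φ' → ∑ i, k i ≤ ∑ i, k' i)
    (c : X → ℂ) (hc : c ≠ 0)
    (hdep : ∀ x, (fun z : ℍ => ∑ i, c i * Φ i x z) =O[atImInfty] qAbs) : False := by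
  have hJ : (Finset.univ.filter fun i => c i ≠ 0).Nonempty := by
    obtain ⟨i, hi⟩ := Function.ne_iff.mp hc
    exact ⟨i, by simpa using hi⟩
  refine contra_abstract h hmin _ hJ c (fun i hi => (Finset.mem_filter.mp hi).2) 10 12 (by norm_num)
    IsOneAtInf (fun φ hφ => hφ.exists_ne) ?_ ?_
  · intro i _ j _ hij
    obtain ⟨a, b, hab⟩ := exists_four_six (k j - k i + 10)
      (((h.even_nonneg hneg j).1.sub (h.even_nonneg hneg i).1).add (by decide)) (by omega)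
    exact ⟨fun z => E₄ z ^ a * E₆ z ^ b, (isL1_E4E6 a b).congr_wt hab,
      (isOneAtInf_E4.pow a).mul (isOneAtInf_E6.pow b)⟩
  · intro K φ hφ hF
    have hO : ∀ x, (fun z => ∑ i ∈ Finset.univ.filter (fun i => c i ≠ 0),
        (c i * φ i z) * Φ i x z) =O[atImInfty] qAbs := by
      intro x
      have h1 : (fun z => ∑ i ∈ Finset.univ.filter (fun i => c i ≠ 0),
          c i * ((φ i z - 1) * Φ i x z)) =O[atImInfty] qAbs := by
        apply IsBigO.fun_sum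
        intro i hi
        apply IsBigO.const_mul_left
        have hb : Φ i x =O[atImInfty] (fun _ => (1 : ℝ)) := (h.1 i).bdd x
        have := IsBigO.mul (hφ i hi) hb
        simpa using this
      have h2 := h1.add (hdep x)
      refine h2.congr_left fun z => ?_
      have e : ∑ i, c i * Φ i x z = ∑ i ∈ Finset.univ.filter (fun i => c i ≠ 0), c i * Φ i x z := by
        rw [Finset.sum_filter]
        apply Finset.sum_congr rfl
        intro i _
        by_cases hi : c i = 0 <;> simp [hi]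
      rw [e, ← Finset.sum_add_distrib]
      apply Finset.sum_congr rfl
      intro i _
      ring
    refine ⟨Δ, _, hF.div_discriminant hO, fun x z => ?_⟩
    field_simp [discriminant_ne_zero z]

/-- CORE-a : existence of a good family. -/
theorem exists_good_family
    (hneg : ∀ x : X, (-1 : SL(2, ℤ)) • x = x)
    (hinit : ∃ (k : X → ℤ) (Φ : X → X → ℍ → ℂ), (∀ i, IsVM X (k i) (Φ i)) ∧ ∃ z, detFn Φ z ≠ 0) :
    ∃ (k : X → ℤ) (Φ : X → X → ℍ → ℂ), (∀ i, IsVM X (k i) (Φ i)) ∧ (∀ z, detFn Φ z ≠ 0) ∧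
      SatInf Φ := by
  obtain ⟨k, Φ, h, hmin⟩ := exists_min_family hneg hinit
  refine ⟨k, Φ, h.1, ?_, ?_⟩
  · intro z hz
    obtain ⟨c, hc, hdep⟩ := exists_dep_of_det hz
    by_cases h6 : E₆ z = 0
    · obtain ⟨γ, rfl⟩ := exists_smul_I_of_E6 h6
      have hdep' := hdep.transport h.1 γ
      refine no_dep_elliptic hneg h hmin S_smul_I (n := 2) (by norm_num)
        (by rw [denom_S_I]; exact I_prim) E₄ isL1_E4 (E4_ne_of_E6 E6_I) (by norm_num) E₆
        E6_simple (fun z hz => exists_smul_I_of_E6 hz) (by rw [valueAtInfty_E6]; exact one_ne_zero)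
        _ ?_ hdep'
      obtain ⟨i, hi⟩ := Function.ne_iff.mp hc
      exact Function.ne_iff.mpr ⟨i, mul_ne_zero hi (zpow_ne_zero _ (denom_ne_zero γ I))⟩
    · by_cases h4 : E₄ z = 0
      · obtain ⟨γ, rfl⟩ := exists_smul_rho_of_E4 h4
        have hdep' := hdep.transport h.1 γ
        refine no_dep_elliptic hneg h hmin U_smul_rho (n := 3) (by norm_num)
          (by rw [denom_U_rho]; exact xi_prim) E₆ isL1_E6 (E6_ne_of_E4 E4_rho) (by norm_num) E₄
          E4_simple (fun z hz => exists_smul_rho_of_E4 hz)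
          (by rw [valueAtInfty_E4]; exact one_ne_zero) _ ?_ hdep'
        obtain ⟨i, hi⟩ := Function.ne_iff.mp hc
        exact Function.ne_iff.mpr ⟨i, mul_ne_zero hi (zpow_ne_zero _ (denom_ne_zero γ rho))⟩
      · exact no_dep_generic hneg h hmin z h4 h6 c hc hdep
  · intro c hdep
    by_contra hc
    exact no_dep_infty hneg h hmin c hc hdep

end Fermat.Agent.S20
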