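import Fermat.Agent.S20.Basic

set_option autoImplicit false

namespace Fermat.Agent.S20

open UpperHalfPlane ModularForm MatrixGroups ModularGroup Matrix.SpecialLinearGroup
open scoped Manifold

/-- A function which is slash invariant under `SL(2,ℤ)`, holomorphic and bounded at `i∞`
is a level one modular form. -/
theorem isL1_of_slash {k : ℤ} {φ : ℍ → ℂ} (hs : ∀ γ : SL(2, ℤ), φ ∣[k] γ = φ) (hh : MDiff φ)
    (hb : IsBoundedAtImInfty φ) : IsL1 k φ := by
  refine ⟨{ toFun := φ
            slash_action_eq' := ?_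
            holo' := hh
            bdd_at_cusps' := ?_ }, rfl⟩
  · rintro _ ⟨γ, rfl⟩
    exact hs γ
  · intro c hc
    rw [OnePoint.isBoundedAt_iff_forall_SL2Z hc]
    intro γ _
    rw [hs γ]
    exact hb

variable {X : Type} [MulAction SL(2, ℤ) X]

instance finiteIndex_stabilizer [Finite X] (x : X) :
    (MulAction.stabilizer SL(2, ℤ) x).FiniteIndex := by
  constructor
  rw [MulAction.index_stabilizer]
  exact Set.ncard_ne_zero_of_mem (MulAction.mem_orbit_self x) (Set.toFinite _)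

/-- The component at `x` of a vector valued form is a modular form for the stabiliser of `x`. -/
theorem IsVM.exists_modularForm {k : ℤ} {Φ : X → ℍ → ℂ} (hΦ : IsVM X k Φ) (x : X)
    (Γ : Subgroup SL(2, ℤ)) (hΓ : Γ ≤ MulAction.stabilizer SL(2, ℤ) x) :
    ∃ f : ModularForm (Γ : Subgroup (GL (Fin 2) ℝ)) k, ⇑f = Φ x := by
  refine ⟨{ toFun := Φ x
            slash_action_eq' := ?_
            holo' := hΦ.holo x
            bdd_at_cusps' := ?_ }, rfl⟩
  · rintro _ ⟨γ, hγ, rfl⟩
    have h1 : γ⁻¹ • x = x := by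
      have : γ • x = x := hΓ hγ
      rw [inv_smul_eq_iff, this]
    have h2 := hΦ.equiv γ x
    rw [h1] at h2
    exact h2
  · intro c hc
    have hc' : IsCusp c 𝒮ℒ := hc.mono (by
      rintro _ ⟨γ, -, rfl⟩
      exact ⟨γ, rfl⟩)
    rw [OnePoint.isBoundedAt_iff_forall_SL2Z hc']
    intro γ _
    have h2 := hΦ.equiv γ x
    show IsBoundedAtImInfty (Φ x ∣[k] γ)
    rw [h2]
    exact hΦ.bdd _

theorem IsVM.eq_zero_of_neg [Finite X] {k : ℤ} {Φ : X → ℍ → ℂ}
    (hΦ : IsVM X k Φ) (hk : k < 0) : Φ = 0 := by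
  funext x
  obtain ⟨f, hf⟩ := hΦ.exists_modularForm x _ le_rfl
  rw [← hf, ModularForm.isZero_of_neg_weight hk f]
  rfl

theorem weight_even_nonneg [Finite X] (hneg : ∀ x : X, (-1 : SL(2, ℤ)) • x = x)
    {k : ℤ} {Φ : X → ℍ → ℂ} (h : IsVM X k Φ) (h0 : Φ ≠ 0) : Even k ∧ 0 ≤ k := by
  refine ⟨?_, ?_⟩
  · by_contra hk
    rw [Int.not_even_iff_odd] at hk
    apply h0
    funext x z
    have h1 := h.apply_smul (-1) x z
    have h2 : ((-1 : SL(2, ℤ))⁻¹ • x) = x := by rw [inv_smul_eq_iff, hneg]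
    have h3 : (-1 : SL(2, ℤ)) • z = z := by
      ext
      rw [coe_specialLinearGroup_apply]
      simp
    have h4 : denom (-1 : SL(2, ℤ)) z = -1 := by
      simp [denom]
    rw [h2, h3, h4, hk.neg_one_zpow] at h1
    have h5 : (2 : ℂ) * Φ x z = 0 := by linear_combination h1
    simpa using h5
  · by_contra hk
    exact h0 (h.eq_zero_of_neg (not_le.mp hk))

end Fermat.Agent.S20
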