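import Fermat.Agent.S20.Neg

set_option autoImplicit false

namespace Fermat.Agent.S20

open UpperHalfPlane ModularForm MatrixGroups ModularGroup
open scoped Manifold

variable {X : Type} [Fintype X] [DecidableEq X]

lemma mdiff_detFn (Φ : X → X → ℍ → ℂ) (h : ∀ i x, MDiff (Φ i x)) : MDiff (detFn Φ) := by
  have : detFn Φ = ∑ σ : Equiv.Perm X, fun z => ((Equiv.Perm.sign σ : ℤ) : ℂ) *
      (∏ i, Φ (σ i) i) z := by
    ext z
    simp [detFn, Matrix.det_apply']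
  rw [this]
  refine MDifferentiable.sum fun σ _ => ?_
  exact mdifferentiable_const.mul (MDifferentiable.prod fun i _ => h _ _)

lemma detFn_update (Φ : X → X → ℍ → ℂ) (i0 : X) (Ψ : X → ℍ → ℂ) (a : X → ℍ → ℂ) (b : ℍ → ℂ)
    (hrel : ∀ x z, b z * Ψ x z = ∑ i, a i z * Φ i x z) (z : ℍ) :
    b z * detFn (Function.update Φ i0 Ψ) z = a i0 z * detFn Φ z := by
  have h1 : (Matrix.of fun i x => Function.update Φ i0 Ψ i x z)
      = (Matrix.of fun i x => Φ i x z).updateRow i0 (fun x => Ψ x z) := by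
    ext i x
    by_cases hi : i = i0
    · subst hi; simp
    · simp [hi, Matrix.updateRow_ne]
  have h2 := Matrix.det_updateRow_sum (Matrix.of fun i x => Φ i x z) i0 (fun i => a i z)
  have h3 : (∑ i, a i z • (Matrix.of fun i x => Φ i x z) i) = b z • fun x => Ψ x z := by
    ext x
    simp [hrel x z, Finset.sum_apply]
  rw [h3, Matrix.det_updateRow_smul] at h2
  simp only [detFn, h1]
  simpa using h2

variable [MulAction SL(2, ℤ) X]

/-- The property of being an admissible family. -/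
def IsFam (k : X → ℤ) (Φ : X → X → ℍ → ℂ) : Prop :=
  (∀ i, IsVM X (k i) (Φ i)) ∧ ∃ z, detFn Φ z ≠ 0

lemma IsFam.update {k : X → ℤ} {Φ : X → X → ℍ → ℂ} (h : IsFam k Φ) (i0 : X) {k' : ℤ}
    {Ψ : X → ℍ → ℂ} (hΨ : IsVM X k' Ψ) (a : X → ℍ → ℂ) (b : ℍ → ℂ)
    (hrel : ∀ x z, b z * Ψ x z = ∑ i, a i z * Φ i x z) (ha : MDiff (a i0))
    (ha0 : ∃ z, a i0 z ≠ 0) :
    IsFam (Function.update k i0 k') (Function.update Φ i0 Ψ) := by
  refine ⟨fun i => ?_, ?_⟩
  · by_cases hi : i = i0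
    · subst hi; simpa using hΨ
    · simpa [hi] using h.1 i
  · have hD : MDiff (detFn Φ) := mdiff_detFn Φ fun i x => (h.1 i).holo x
    have hne : a i0 * detFn Φ ≠ 0 := by
      rw [Ne, UpperHalfPlane.mul_eq_zero_iff ha hD]
      push Not
      refine ⟨?_, ?_⟩
      · obtain ⟨z, hz⟩ := ha0
        exact fun h0 => hz (by rw [h0]; rfl)
      · obtain ⟨z, hz⟩ := h.2
        exact fun h0 => hz (by rw [h0]; rfl)
    obtain ⟨z, hz⟩ : ∃ z, (a i0 * detFn Φ) z ≠ 0 := by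
      by_contra hcon
      push Not at hcon
      exact hne (funext hcon)
    refine ⟨z, fun h0 => hz ?_⟩
    have := detFn_update Φ i0 Ψ a b hrel z
    rw [h0, mul_zero] at this
    exact this.symm

lemma IsFam.ne_zero {k : X → ℤ} {Φ : X → X → ℍ → ℂ} (h : IsFam k Φ) (i : X) : Φ i ≠ 0 := by
  intro h0
  obtain ⟨z, hz⟩ := h.2
  apply hz
  unfold detFn
  apply Matrix.det_eq_zero_of_row_eq_zero i
  intro x
  simp [h0]

lemma IsFam.even_nonneg (hneg : ∀ x : X, (-1 : SL(2, ℤ)) • x = x)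
    {k : X → ℤ} {Φ : X → X → ℍ → ℂ} (h : IsFam k Φ) (i : X) : Even (k i) ∧ 0 ≤ k i :=
  weight_even_nonneg hneg (h.1 i) (h.ne_zero i)

/-- A family of minimal total weight. -/
theorem exists_min_family (hneg : ∀ x : X, (-1 : SL(2, ℤ)) • x = x)
    (hinit : ∃ (k : X → ℤ) (Φ : X → X → ℍ → ℂ), IsFam k Φ) :
    ∃ (k : X → ℤ) (Φ : X → X → ℍ → ℂ), IsFam k Φ ∧
      ∀ (k' : X → ℤ) (Φ' : X → X → ℍ → ℂ), IsFam k' Φ' → ∑ i, k i ≤ ∑ i, k' i := by
  let P : ℤ → Prop := fun n => ∃ (k : X → ℤ) (Φ : X → X → ℍ → ℂ), IsFam k Φ ∧ ∑ i, k i = n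
  have hb : ∀ n, P n → 0 ≤ n := by
    rintro n ⟨k, Φ, h, rfl⟩
    exact Finset.sum_nonneg fun i _ => (h.even_nonneg hneg i).2
  have hex : ∃ n, P n := by
    obtain ⟨k, Φ, h⟩ := hinit
    exact ⟨_, k, Φ, h, rfl⟩
  obtain ⟨n, ⟨k, Φ, h, hn⟩, hmin⟩ := Int.exists_least_of_bdd ⟨0, hb⟩ hex
  exact ⟨k, Φ, h, fun k' Φ' h' => hn ▸ hmin _ ⟨k', Φ', h', rfl⟩⟩

/-- The basic contradiction with minimality. -/
theorem contra_of_combo {k : X → ℤ} {Φ : X → X → ℍ → ℂ} (h : IsFam k Φ)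
    (hmin : ∀ (k' : X → ℤ) (Φ' : X → X → ℍ → ℂ), IsFam k' Φ' → ∑ i, k i ≤ ∑ i, k' i)
    (J : Finset X) (i0 : X) (hi0 : i0 ∈ J) (a : X → ℍ → ℂ) (k' : ℤ) (hk' : k' < k i0)
    (ha : MDiff (a i0)) (ha0 : ∃ z, a i0 z ≠ 0)
    (b : ℍ → ℂ) (Ψ : X → ℍ → ℂ) (hΨ : IsVM X k' Ψ)
    (hrel : ∀ x z, b z * Ψ x z = ∑ i ∈ J, a i z * Φ i x z) : False := by
  have hfam := h.update i0 hΨ (fun i => if i ∈ J then a i else 0) b
    (by
      intro x z
      rw [hrel x z, ← Finset.sum_filter_add_sum_filter_not Finset.univ (· ∈ J)]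
      have : ∑ i ∈ Finset.univ.filter (fun i => ¬ i ∈ J),
          (if i ∈ J then a i else 0) z * Φ i x z = 0 := by
        apply Finset.sum_eq_zero
        intro i hi
        simp [(Finset.mem_filter.mp hi).2]
      rw [this, add_zero]
      have hJ : Finset.univ.filter (· ∈ J) = J := by ext; simp
      rw [hJ]
      apply Finset.sum_congr rfl
      intro i hi
      simp [hi])
    (by simpa [hi0] using ha) (by simpa [hi0] using ha0)
  have := hmin _ _ hfam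
  have e : ∑ i, Function.update k i0 k' i = ∑ i, k i - k i0 + k' := by
    rw [Finset.sum_update_of_mem (Finset.mem_univ i0),
      ← Finset.sum_erase_eq_sub (Finset.mem_univ i0)]
    rw [add_comm, Finset.sdiff_singleton_eq_erase]
  omega

end Fermat.Agent.S20
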