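import Fermat.Agent.S20.OrbitCounts
import Fermat.Agent.S20.OrbitT

/-!
# `twoGenus N` is twice the genus formula
-/

set_option autoImplicit false
open CongruenceSubgroup ModularGroup
open scoped MatrixGroups

namespace Fermat.Agent.S20

theorem orbitCount_T (N : ℕ) [NeZero N] :
    Fermat.Agent.S21.orbitCount N T = ModularCurve.cuspCount N :=
  orbCount_T N

theorem twoGenus_eq (N : ℕ) [NeZero N] :
    (Fermat.Agent.S21.twoGenus N : ℚ) = 2 * ModularCurve.genusFormula N :=
  AR.twoGenus_eq_of N (orbitCount_T N)

end Fermat.Agent.S20
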