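import Fermat.Agent.S20.Defs
import Fermat.Agent.S21.Upper

set_option autoImplicit false

namespace Fermat.Agent.S20

open MatrixGroups ModularGroup CongruenceSubgroup

/-- Upper bound `2 dim S₂(Γ₀(N)) ≤ 2g` in orbit-count form (from the period map, S21). -/
theorem upper (N : ℕ) [NeZero N] :
    2 * Module.finrank ℂ (CuspForm (Gamma0 N) 2) + orbCount (Cos N) S + orbCount (Cos N) Umat
      + orbCount (Cos N) T ≤ 2 + Nat.card (Cos N) :=
  S21.upper_nat N

end Fermat.Agent.S20
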